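import Fermat.Agent.S53.Defs

set_option autoImplicit false

namespace Fermat.Agent.S53

open IsLocalRing Module

namespace Dict

section General

variable {R : Type*} [CommRing R] {V V' : Type*} [AddCommGroup V] [Module R V]
  [AddCommGroup V'] [Module R V']

theorem apply_basis (b : Basis (Fin 2) R V) (f : V →ₗ[R] V) (i : Fin 2) :
    f (b i) = ∑ j, LinearMap.toMatrix b b f j i • b j := by
  simp only [LinearMap.toMatrix_apply]
  exact (b.sum_repr _).symm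

theorem intertwine (b : Basis (Fin 2) R V) (b' : Basis (Fin 2) R V') (f : V →ₗ[R] V)
    (f' : V' →ₗ[R] V') (h : LinearMap.toMatrix b b f = LinearMap.toMatrix b' b' f') (x : V) :
    b.equiv b' (Equiv.refl _) (f x) = f' (b.equiv b' (Equiv.refl _) x) := by
  have : (b.equiv b' (Equiv.refl _)).toLinearMap ∘ₗ f = f' ∘ₗ (b.equiv b' (Equiv.refl _)).toLinearMap := by
    apply b.ext
    intro i
    simp only [LinearMap.comp_apply, LinearEquiv.coe_coe, Basis.equiv_apply, Equiv.refl_apply]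
    rw [apply_basis b f i, apply_basis b' f' i, map_sum, h]
    simp
  exact LinearMap.congr_fun this x

theorem toMatrix_map (b : Basis (Fin 2) R V) (e : V ≃ₗ[R] V') (f : V →ₗ[R] V) (f' : V' →ₗ[R] V')
    (h : ∀ x, e (f x) = f' (e x)) :
    LinearMap.toMatrix (b.map e) (b.map e) f' = LinearMap.toMatrix b b f := by
  ext i j
  simp only [LinearMap.toMatrix_apply, Basis.map_repr, Basis.map_apply, LinearEquiv.trans_apply]
  rw [← h, LinearEquiv.symm_apply_apply]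

theorem exists_basis_conj (b : Basis (Fin 2) R V) (M : (Matrix (Fin 2) (Fin 2) R)ˣ) :
    ∃ b' : Basis (Fin 2) R V, ∀ f : V →ₗ[R] V, LinearMap.toMatrix b' b' f =
      (M : Matrix (Fin 2) (Fin 2) R) * LinearMap.toMatrix b b f *
        ((M⁻¹ : (Matrix (Fin 2) (Fin 2) R)ˣ) : Matrix (Fin 2) (Fin 2) R) := by
  let g : V →ₗ[R] V := Matrix.toLin b b ((M⁻¹ : (Matrix (Fin 2) (Fin 2) R)ˣ) : Matrix (Fin 2) (Fin 2) R)
  let g' : V →ₗ[R] V := Matrix.toLin b b (M : Matrix (Fin 2) (Fin 2) R)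
  have h1 : g ∘ₗ g' = LinearMap.id := by
    rw [← Matrix.toLin_mul b b b]
    simp
  have h2 : g' ∘ₗ g = LinearMap.id := by
    rw [← Matrix.toLin_mul b b b]
    simp
  let e : V ≃ₗ[R] V := LinearEquiv.ofLinear g g' h1 h2
  refine ⟨b.map e, fun f => ?_⟩
  have h3 : ∀ x, e ((g' ∘ₗ f ∘ₗ g) x) = f (e x) := by
    intro x
    change g (g' (f (g x))) = f (g x)
    exact LinearMap.congr_fun h1 _
  rw [toMatrix_map b e (g' ∘ₗ f ∘ₗ g) f h3, LinearMap.toMatrix_comp b b b, LinearMap.toMatrix_comp b b b,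
    LinearMap.toMatrix_toLin, LinearMap.toMatrix_toLin, mul_assoc]

theorem exists_unit_conj (b b' : Basis (Fin 2) R V) :
    ∃ M : (Matrix (Fin 2) (Fin 2) R)ˣ, ∀ f : V →ₗ[R] V, LinearMap.toMatrix b' b' f =
      (M : Matrix (Fin 2) (Fin 2) R) * LinearMap.toMatrix b b f *
        ((M⁻¹ : (Matrix (Fin 2) (Fin 2) R)ˣ) : Matrix (Fin 2) (Fin 2) R) := by
  refine ⟨⟨b'.toMatrix b, b.toMatrix b', b'.toMatrix_mul_toMatrix_flip b,
    b.toMatrix_mul_toMatrix_flip b'⟩, fun f => ?_⟩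
  exact (basis_toMatrix_mul_linearMap_toMatrix_mul_basis_toMatrix b' b b' b f).symm

theorem repr_mem_of_mem_smul_top (b : Basis (Fin 2) R V) (I : Ideal R) {x : V}
    (hx : x ∈ I • (⊤ : Submodule R V)) (i : Fin 2) : b.repr x i ∈ I := by
  refine Submodule.smul_induction_on (p := fun x => b.repr x i ∈ I) hx ?_ ?_
  · intro a ha w _
    rw [map_smul, Finsupp.smul_apply, smul_eq_mul]
    exact I.mul_mem_right _ ha
  · intro x y hx hy
    rw [map_add, Finsupp.add_apply]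
    exact I.add_mem hx hy

theorem mem_smul_top_of_forall (I : Ideal R) (v : Fin 2 → R) (h : ∀ i, v i ∈ I) :
    v ∈ I • (⊤ : Submodule R (Fin 2 → R)) := by
  rw [← (Pi.basisFun R (Fin 2)).sum_repr v]
  apply Submodule.sum_mem
  intro i _
  apply Submodule.smul_mem_smul _ Submodule.mem_top
  simpa using h i

end General

end Dict

open Dict

/-! ## Module A : dictionary -/
section A
variable {A : Type} [CommRing A] [IsLocalRing A]

theorem exists_hasMatrix (ρ : GaloisRepAdic A) : ∃ r, HasMatrix ρ r :=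
  ⟨_, Module.finBasisOfFinrankEq A ρ.V ρ.finrank_eq, fun _ => rfl⟩

theorem HasMatrix.isEquiv {ρ ρ' : GaloisRepAdic A} {r : Gal → M2 A}
    (h : HasMatrix ρ r) (h' : HasMatrix ρ' r) : ρ.IsEquiv ρ' := by
  obtain ⟨b, hb⟩ := h
  obtain ⟨b', hb'⟩ := h'
  exact ⟨⟨b.equiv b' (Equiv.refl _), fun σ x =>
    intertwine b b' (ρ.ρ σ) (ρ'.ρ σ) ((hb σ).trans (hb' σ).symm) x⟩⟩

theorem HasMatrix.of_isEquiv {ρ ρ' : GaloisRepAdic A} {r : Gal → M2 A}
    (h : HasMatrix ρ r) (e : ρ.IsEquiv ρ') : HasMatrix ρ' r := by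
  obtain ⟨b, hb⟩ := h
  obtain ⟨e⟩ := e
  exact ⟨b.map e.toLinearEquiv, fun σ => by
    rw [toMatrix_map b e.toLinearEquiv (ρ.ρ σ) (ρ'.ρ σ) (e.map_apply σ), hb]⟩

theorem HasMatrix.baseChangeAlong {B : Type} [CommRing B] [IsLocalRing B]
    {ρ : GaloisRepAdic A} {r : Gal → M2 A} (h : HasMatrix ρ r) (φ : A →+* B) (hφ : IsLocalHom φ) :
    HasMatrix (ρ.baseChangeAlong φ hφ) (fun σ => (r σ).map φ) := by
  obtain ⟨b, hb⟩ := h
  letI : Algebra A B := φ.toAlgebra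
  refine ⟨Algebra.TensorProduct.basis B b, fun σ => ?_⟩
  have := LinearMap.toMatrix_baseChange B (ρ.ρ σ) b b
  rw [hb] at this
  exact this

theorem HasMatrix.conj {ρ : GaloisRepAdic A} {r : Gal → M2 A} (h : HasMatrix ρ r) (M : (M2 A)ˣ) :
    HasMatrix ρ (fun σ => (M : M2 A) * r σ * ((M⁻¹ : (M2 A)ˣ) : M2 A)) := by
  obtain ⟨b, hb⟩ := h
  obtain ⟨b', hb'⟩ := exists_basis_conj b M
  exact ⟨b', fun σ => by rw [hb', hb]⟩

theorem HasMatrix.exists_conj {ρ : GaloisRepAdic A} {r r' : Gal → M2 A}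
    (h : HasMatrix ρ r) (h' : HasMatrix ρ r') :
    ∃ M : (M2 A)ˣ, ∀ σ, r' σ = (M : M2 A) * r σ * ((M⁻¹ : (M2 A)ˣ) : M2 A) := by
  obtain ⟨b, hb⟩ := h
  obtain ⟨b', hb'⟩ := h'
  obtain ⟨M, hM⟩ := exists_unit_conj b b'
  exact ⟨M, fun σ => by rw [← hb', ← hb, hM]⟩

theorem HasMatrix.map_one {ρ : GaloisRepAdic A} {r : Gal → M2 A} (h : HasMatrix ρ r) :
    r 1 = 1 := by
  obtain ⟨b, hb⟩ := h
  rw [← hb, _root_.map_one, LinearMap.toMatrix_one]

theorem HasMatrix.map_mul {ρ : GaloisRepAdic A} {r : Gal → M2 A} (h : HasMatrix ρ r)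
    (σ τ : Gal) : r (σ * τ) = r σ * r τ := by
  obtain ⟨b, hb⟩ := h
  rw [← hb, ← hb, ← hb, _root_.map_mul, LinearMap.toMatrix_mul]

theorem HasMatrix.matCont {ρ : GaloisRepAdic A} {r : Gal → M2 A} (h : HasMatrix ρ r) :
    MatCont r := by
  obtain ⟨b, hb⟩ := h
  intro n
  obtain ⟨L, hL, h1⟩ := ρ.isAdicContinuous n
  refine ⟨L, hL, fun σ hσ i j => ?_⟩
  have h2 := repr_mem_of_mem_smul_top b _ (h1 σ hσ (b j)) i
  rw [map_sub, Finsupp.sub_apply] at h2
  rw [Matrix.sub_apply, ← hb, LinearMap.toMatrix_apply, Matrix.one_apply]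
  have h3 : (b.repr (b j)) i = if i = j then 1 else 0 := by
    rw [Basis.repr_self, Finsupp.single_apply]
    simp only [eq_comm]
  rw [← h3]
  exact h2

theorem exists_hasMatrix_of_matCont (r : Gal → M2 A) (h1 : r 1 = 1)
    (hmul : ∀ σ τ, r (σ * τ) = r σ * r τ) (hc : MatCont r) :
    ∃ ρ : GaloisRepAdic A, HasMatrix ρ r := by
  refine ⟨{ V := Fin 2 → A
            finrank_eq := by simp
            ρ := { toFun := fun σ => Matrix.toLin' (r σ)
                   map_one' := by rw [h1, Matrix.toLin'_one]; rfl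
                   map_mul' := fun σ τ => by rw [hmul, Matrix.toLin'_mul]; rfl }
            isAdicContinuous := ?_ }, Pi.basisFun A (Fin 2), fun σ => ?_⟩
  · intro n
    obtain ⟨L, hL, h2⟩ := hc n
    refine ⟨L, hL, fun σ hσ v => ?_⟩
    apply mem_smul_top_of_forall
    intro i
    change (Matrix.toLin' (r σ) v - v) i ∈ _
    have : Matrix.toLin' (r σ) v - v = (r σ - 1).mulVec v := by
      rw [Matrix.toLin'_apply, Matrix.sub_mulVec, Matrix.one_mulVec]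
    rw [this, Matrix.mulVec, dotProduct]
    apply Ideal.sum_mem
    intro j _
    exact Ideal.mul_mem_right _ _ (h2 σ hσ i j)
  · change LinearMap.toMatrix (Pi.basisFun A (Fin 2)) (Pi.basisFun A (Fin 2)) (Matrix.toLin' (r σ)) = r σ
    rw [LinearMap.toMatrix_eq_toMatrix', LinearMap.toMatrix'_toLin']

theorem HasMatrix.residual {ρ : GaloisRepAdic A} {r : Gal → M2 A} (h : HasMatrix ρ r) :
    HasMatrixRes ρ.residual (fun σ => (r σ).map (residue A)) := by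
  obtain ⟨b, hb⟩ := h
  refine ⟨Algebra.TensorProduct.basis (ResidueField A) b, fun σ => ?_⟩
  have := LinearMap.toMatrix_baseChange (ResidueField A) (ρ.ρ σ) b b
  rw [hb] at this
  exact this

variable {k : Type} [Field k]

theorem exists_hasMatrixRes (ρ : ResidualGaloisRep k) : ∃ r, HasMatrixRes ρ r :=
  ⟨_, Module.finBasisOfFinrankEq k ρ.V ρ.finrank_eq, fun _ => rfl⟩

theorem HasMatrixRes.isEquiv {ρ ρ' : ResidualGaloisRep k} {r : Gal → M2 k}
    (h : HasMatrixRes ρ r) (h' : HasMatrixRes ρ' r) : ρ.IsEquiv ρ' := by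
  obtain ⟨b, hb⟩ := h
  obtain ⟨b', hb'⟩ := h'
  exact ⟨⟨b.equiv b' (Equiv.refl _), fun σ x =>
    intertwine b b' (ρ.ρ σ) (ρ'.ρ σ) ((hb σ).trans (hb' σ).symm) x⟩⟩

theorem HasMatrixRes.of_isEquiv {ρ ρ' : ResidualGaloisRep k} {r : Gal → M2 k}
    (h : HasMatrixRes ρ r) (e : ρ.IsEquiv ρ') : HasMatrixRes ρ' r := by
  obtain ⟨b, hb⟩ := h
  obtain ⟨e⟩ := e
  exact ⟨b.map e.toLinearEquiv, fun σ => by
    rw [toMatrix_map b e.toLinearEquiv (ρ.ρ σ) (ρ'.ρ σ) (e.map_apply σ), hb]⟩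

theorem HasMatrixRes.exists_conj {ρ : ResidualGaloisRep k} {r r' : Gal → M2 k}
    (h : HasMatrixRes ρ r) (h' : HasMatrixRes ρ r') :
    ∃ M : (M2 k)ˣ, ∀ σ, r' σ = (M : M2 k) * r σ * ((M⁻¹ : (M2 k)ˣ) : M2 k) := by
  obtain ⟨b, hb⟩ := h
  obtain ⟨b', hb'⟩ := h'
  obtain ⟨M, hM⟩ := exists_unit_conj b b'
  exact ⟨M, fun σ => by rw [← hb', ← hb, hM]⟩

theorem HasMatrixRes.baseChangeAlong {k' : Type} [Field k'] {ρ : ResidualGaloisRep k}
    {r : Gal → M2 k} (h : HasMatrixRes ρ r) (ψ : k →+* k') :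
    HasMatrixRes (ρ.baseChangeAlong ψ) (fun σ => (r σ).map ψ) := by
  obtain ⟨b, hb⟩ := h
  letI : Algebra k k' := ψ.toAlgebra
  refine ⟨Algebra.TensorProduct.basis k' b, fun σ => ?_⟩
  have := LinearMap.toMatrix_baseChange k' (ρ.ρ σ) b b
  rw [hb] at this
  exact this

theorem HasMatrixRes.ofResidualGaloisRep {ρ : ResidualGaloisRep k} {r : Gal → M2 k}
    (h : HasMatrixRes ρ r) : HasMatrix (GaloisRepAdic.ofResidualGaloisRep ρ) r := by
  obtain ⟨b, hb⟩ := h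
  exact ⟨b, hb⟩

end A

end Fermat.Agent.S53
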