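import Fermat.Agent.S53.Assembly

set_option autoImplicit false

namespace Fermat.Agent.S53

open IsLocalRing GaloisRep

section
variable {𝒪 : Type} [CommRing 𝒪] [IsLocalRing 𝒪]
variable {Fr : Frame 𝒪}
  {𝒟 : ∀ ⦃A : Type⦄ [CommRing A] [IsLocalRing A] [Algebra 𝒪 A], GaloisRepAdic A → Prop}
variable {R : Type} [CommRing R] [IsLocalRing R] [Algebra 𝒪 R]
  {e : FF 𝒪 →ₐ[𝒪] R}
variable {A : Type} [CommRing A] [IsLocalRing A] [Algebra 𝒪 A]

theorem algHom_eq_of_comp_eq [IsAdicComplete (maximalIdeal A) A]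
    (hs : ∀ n, Function.Surjective (Ideal.Quotient.mk (maximalIdeal R ^ n) ∘ e))
    (hA : Function.Surjective (residue A ∘ algebraMap 𝒪 A))
    (φ φ' : R →ₐ[𝒪] A) (h : φ.comp e = φ'.comp e) : φ = φ' := by
  apply IsAdicComplete.algHom_ext (maximalIdeal A)
  intro n
  apply AlgHom.ext
  intro z
  obtain ⟨x, hx⟩ := hs n (Ideal.Quotient.mk _ z)
  have h1 : e x - z ∈ maximalIdeal R ^ n := Ideal.Quotient.eq.1 hx
  have h2 := map_pow_mem_maximalIdeal_pow hA φ n h1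
  have h3 := map_pow_mem_maximalIdeal_pow hA φ' n h1
  have h4 : φ (e x) = φ' (e x) := congrArg (fun f => f x) h
  show Ideal.Quotient.mk (maximalIdeal A ^ n) (φ z) = Ideal.Quotient.mk (maximalIdeal A ^ n) (φ' z)
  rw [Ideal.Quotient.eq]
  have h5 : φ z - φ' z = φ' (e x - z) - φ (e x - z) := by
    rw [map_sub, map_sub, h4]; ring
  rw [h5]
  exact Ideal.sub_mem _ h3 h2

omit [IsLocalRing 𝒪] [IsLocalRing R] [IsLocalRing A] in
theorem comp_e_eq_ev (φ : R →ₐ[𝒪] A) : φ.comp e = ev (fun σ => (rR e σ).map φ) := by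
  rw [eq_ev (φ.comp e)]
  rfl

/-- The evaluation at a rigid lift of type `𝒟` over a complete ring is continuous. -/
theorem comap_le_comap_ev [Finite (ResidueField 𝒪)] [IsNoetherianRing A]
    [IsAdicComplete (maximalIdeal A) A]
    (h𝒟 : IsDeformationCondition 𝒪 𝒟)
    (hmin : ∀ n J, Good Fr 𝒟 J → Fr.MM ^ (n + 1) ≤ J → (maximalIdeal R ^ (n + 1)).comap e ≤ J)
    (hloc : IsLocalHom (algebraMap 𝒪 A))
    (hA : Function.Surjective (residue A ∘ algebraMap 𝒪 A))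
    {ρA : GaloisRepAdic A} (hρA : 𝒟 ρA) {rA : Gal → M2 A} (hm : HasMatrix ρA rA)
    (hst : IsStrict Fr rA) (hri : IsRigid Fr rA) (n : ℕ) :
    (maximalIdeal R ^ n).comap e ≤ (maximalIdeal A ^ n).comap (ev (𝒪 := 𝒪) rA) := by
  cases n with
  | zero => simp
  | succ n =>
    haveI := quot_pow_isLocalRing (A := A) (n + 1) (Nat.succ_ne_zero n)
    have hT := quot_pow_test hloc hA (n + 1) (Nat.succ_ne_zero n)
    let q : A →ₐ[𝒪] A ⧸ maximalIdeal A ^ (n + 1) := Ideal.Quotient.mkₐ 𝒪 _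
    have hq := isLocalHom_of_algHom hT.residue_surjective q
    have hD : InD Fr 𝒟 (fun σ => (rA σ).map q) :=
      ⟨hst.map q hq, hri.map q, _,
        (h𝒟.iff_forall_surjective hloc hA ρA).1 hρA hT q hq Ideal.Quotient.mk_surjective,
        hm.baseChangeAlong _ hq⟩
    have hgood := good_ker_ev h𝒟 hT hD
    have hker : RingHom.ker (ev (𝒪 := 𝒪) (fun σ => (rA σ).map q)) =
        (maximalIdeal A ^ (n + 1)).comap (ev (𝒪 := 𝒪) rA) := by
      rw [← comp_ev]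
      ext x
      rw [RingHom.mem_ker, Ideal.mem_comap]
      exact Ideal.Quotient.eq_zero_iff_mem
    rw [← hker]
    apply hmin n _ hgood
    rw [hker]
    have h1 : Fr.MM ≤ (maximalIdeal A).comap (ev (𝒪 := 𝒪) rA) := fun x hx =>
      (mem_MM_iff Fr hst x).1 hx
    exact (Ideal.pow_right_mono h1 (n + 1)).trans (Ideal.le_comap_pow _ (n + 1))

end

theorem nonempty_deformationRingData
    (𝒪 : Type) [CommRing 𝒪] [IsDomain 𝒪] [IsDiscreteValuationRing 𝒪]
    [IsAdicComplete (IsLocalRing.maximalIdeal 𝒪) 𝒪] [Finite (IsLocalRing.ResidueField 𝒪)]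
    (ρbar : ResidualGaloisRep (IsLocalRing.ResidueField 𝒪))
    (𝒟 : ∀ ⦃A : Type⦄ [CommRing A] [IsLocalRing A] [Algebra 𝒪 A], GaloisRepAdic A → Prop)
    (habs : ρbar.IsAbsolutelyIrreducible)
    (h𝒟 : GaloisRep.IsDeformationCondition 𝒪 𝒟)
    (hbar : 𝒟 (GaloisRepAdic.ofResidualGaloisRep ρbar))
    (hfin : GaloisRep.TangentFinite 𝒪 ρbar 𝒟) :
    Nonempty (GaloisRep.DeformationRingData 𝒪 ρbar 𝒟) := by
  obtain ⟨Fr, hN, hFr⟩ := exists_frame ρbar habs
  have hI := finite_quotient_Ieps hN ρbar hFr hfin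
  have hMM := good_MM h𝒟 ρbar hFr hbar
  obtain ⟨R, i1, i2, i3, i4, i5, e, h0, hg, hs, hmin⟩ := exists_core h𝒟 hI hMM
  have hloc : IsLocalHom (algebraMap 𝒪 R) := isLocalHom_algebraMap_R h0
  have hres := residue_surjective_R h0 hs
  obtain ⟨ρ, hρ⟩ := exists_hasMatrix_of_matCont (rR e) (rR_one hg) (rR_mul hg) (rR_matCont hg)
  refine ⟨{ R := R, residue_surjective := hres, absIrr := habs, ρ := ρ, isOfType := ?_,
            residual_isEquiv := ?_, universal := ?_ }⟩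
  · rw [h𝒟.iff_forall_surjective hloc hres ρ]
    intro B _ _ _ hB q hq _
    obtain ⟨-, -, ρ', hρ', hm'⟩ := inD_map_rR h𝒟 hg hB q
    exact h𝒟.of_isEquiv hB (hm'.isEquiv (hρ.baseChangeAlong _ hq)) hρ'
  · exact residual_isEquiv_of_strict Fr ρbar hFr ρ (rR e) hρ (rR_isStrict h0)
  · intro A _ _ _ _ _ hAloc hAres ρA hρA hresA
    obtain ⟨r0, hr0, hs0⟩ := exists_strict Fr ρbar hFr ρA hresA
    obtain ⟨M, hMs, hMr⟩ := rigid_exists Fr hN r0 hs0
    have hrA := hr0.conj M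
    obtain ⟨φ, hφ⟩ := exists_extension (maximalIdeal R) (maximalIdeal A) e hs _
      (comap_le_comap_ev h𝒟 hmin hAloc hAres hρA hrA hMs hMr)
    have hφr : ∀ σ, (rR e σ).map φ = (M : M2 A) * r0 σ * ((M⁻¹ : (M2 A)ˣ) : M2 A) := by
      intro σ
      have h1 : (rR e σ).map φ = (taut 𝒪 σ).map (φ.comp e) := rfl
      rw [h1, hφ, ev_taut]
    refine ⟨φ, ⟨isLocalHom_of_algHom hAres φ, ?_⟩, ?_⟩
    · have h1 := hρ.baseChangeAlong (φ : R →+* A) (isLocalHom_of_algHom hAres φ)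
      have h2 : (fun σ => (rR e σ).map (φ : R →+* A)) =
          fun σ => (M : M2 A) * r0 σ * ((M⁻¹ : (M2 A)ˣ) : M2 A) := funext hφr
      rw [h2] at h1
      exact h1.isEquiv hrA
    · rintro φ' ⟨hφ', hE⟩
      have h1 : HasMatrix ρA (fun σ => (rR e σ).map φ') :=
        (hρ.baseChangeAlong (φ' : R →+* A) hφ').of_isEquiv hE
      obtain ⟨M', hM'⟩ := hrA.exists_conj h1
      have h2 := rigid_unique Fr hN _ _ hMs ((rR_isStrict h0).map φ' hφ')
        (fun j => (((rR_isRigid hg).map φ') j).trans (hMr j).symm) M' hM'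
      apply algHom_eq_of_comp_eq hs hAres
      rw [comp_e_eq_ev, comp_e_eq_ev, h2]
      congr 1
      exact (funext hφr).symm

end Fermat.Agent.S53
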