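import Fermat.Agent.S53.TestAlg

set_option autoImplicit false

namespace Fermat.Agent.S53

open IsLocalRing GaloisRep

variable {𝒪 : Type} [CommRing 𝒪] [IsLocalRing 𝒪]

/-- The polynomial ring on all matrix entries. -/
abbrev FF (𝒪 : Type) [CommRing 𝒪] : Type := MvPolynomial (Gal × Fin 2 × Fin 2) 𝒪

/-- The tautological matrices. -/
noncomputable def taut (𝒪 : Type) [CommRing 𝒪] : Gal → M2 (FF 𝒪) :=
  fun σ => Matrix.of fun i j => MvPolynomial.X (σ, i, j)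

/-- Evaluation of the tautological matrices. -/
noncomputable def ev {A : Type} [CommRing A] [Algebra 𝒪 A] (r : Gal → M2 A) : FF 𝒪 →ₐ[𝒪] A :=
  MvPolynomial.aeval fun x => r x.1 x.2.1 x.2.2

section ev
variable {A : Type} [CommRing A] [Algebra 𝒪 A] {B : Type} [CommRing B] [Algebra 𝒪 B]

omit [IsLocalRing 𝒪] in
theorem ev_taut (r : Gal → M2 A) (σ : Gal) : (taut 𝒪 σ).map (ev r) = r σ := by
  ext i j
  simp [taut, ev]

omit [IsLocalRing 𝒪] in
theorem comp_ev (φ : A →ₐ[𝒪] B) (r : Gal → M2 A) :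
    φ.comp (ev r) = ev (fun σ => (r σ).map φ) := by
  apply MvPolynomial.algHom_ext
  intro x
  simp [ev]

omit [IsLocalRing 𝒪] in
theorem eq_ev (ψ : FF 𝒪 →ₐ[𝒪] A) : ψ = ev (fun σ => (taut 𝒪 σ).map ψ) := by
  apply MvPolynomial.algHom_ext
  intro x
  simp [ev, taut]

end ev

/-- The residual matrices of a frame. -/
noncomputable def Frame.rb (Fr : Frame 𝒪) : Gal → M2 (ResidueField 𝒪) := fun σ => (Fr.rt σ).map (residue 𝒪)

/-- The maximal ideal of `FF 𝒪` attached to the residual matrices. -/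
noncomputable def Frame.MM (Fr : Frame 𝒪) : Ideal (FF 𝒪) := RingHom.ker (ev (𝒪 := 𝒪) Fr.rb)

theorem Frame.ev_rb_surjective (Fr : Frame 𝒪) : Function.Surjective (ev (𝒪 := 𝒪) Fr.rb) := by
  intro y
  obtain ⟨c, rfl⟩ := residue_surjective y
  exact ⟨MvPolynomial.C c, by simp [ev]⟩

instance Frame.MM_isMaximal (Fr : Frame 𝒪) : Fr.MM.IsMaximal :=
  RingHom.ker_isMaximal_of_surjective _ Fr.ev_rb_surjective

section strict
variable {A : Type} [CommRing A] [IsLocalRing A] [Algebra 𝒪 A] [IsLocalHom (algebraMap 𝒪 A)]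

theorem mem_MM_iff (Fr : Frame 𝒪) {r : Gal → M2 A} (hr : IsStrict Fr r) (x : FF 𝒪) :
    x ∈ Fr.MM ↔ ev r x ∈ maximalIdeal A := by
  have key : (ResidueField.map (algebraMap 𝒪 A)).comp ((ev (𝒪 := 𝒪) Fr.rb : FF 𝒪 →ₐ[𝒪] ResidueField 𝒪) : FF 𝒪 →+* ResidueField 𝒪)
      = (residue A).comp ((ev (𝒪 := 𝒪) r : FF 𝒪 →ₐ[𝒪] A) : FF 𝒪 →+* A) := by
    apply MvPolynomial.ringHom_ext
    · intro c
      simp only [RingHom.coe_comp, RingHom.coe_coe, Function.comp_apply, ev, MvPolynomial.aeval_C]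
      exact ResidueField.map_residue _ _
    · intro i
      simp only [RingHom.coe_comp, RingHom.coe_coe, Function.comp_apply, ev, MvPolynomial.aeval_X,
        Frame.rb, Matrix.map_apply]
      rw [ResidueField.map_residue, eq_comm, ← sub_eq_zero, ← map_sub, residue_eq_zero_iff]
      exact hr _ _ _
  have h := congrArg (fun f => f x) key
  simp only [RingHom.coe_comp, RingHom.coe_coe, Function.comp_apply] at h
  rw [← residue_eq_zero_iff, ← h, Frame.MM, RingHom.mem_ker, map_eq_zero_iff _ (RingHom.injective _)]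

end strict

/-- Admissible ideals: the quotient is a finite local ring with maximal ideal `MM / J`. -/
structure Adm (Fr : Frame 𝒪) (J : Ideal (FF 𝒪)) : Prop where
  le : J ≤ Fr.MM
  pow_le : ∃ n, Fr.MM ^ n ≤ J
  fin : Finite (FF 𝒪 ⧸ J)

namespace Adm

variable {Fr : Frame 𝒪} {J : Ideal (FF 𝒪)}

theorem isUnit_mk (h : Adm Fr J) {x : FF 𝒪} (hx : x ∉ Fr.MM) : IsUnit (Ideal.Quotient.mk J x) := by
  obtain ⟨y, i, hi, hyi⟩ := Fr.MM_isMaximal.exists_inv hx
  obtain ⟨n, hn⟩ := h.pow_le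
  have hnil : IsNilpotent (Ideal.Quotient.mk J i) := by
    refine ⟨n, ?_⟩
    rw [← map_pow, Ideal.Quotient.eq_zero_iff_mem]
    exact hn (Ideal.pow_mem_pow hi n)
  have h1 : Ideal.Quotient.mk J y * Ideal.Quotient.mk J x = 1 - Ideal.Quotient.mk J i := by
    rw [← map_mul, ← map_one (Ideal.Quotient.mk J), ← map_sub, ← hyi]; congr 1; ring
  have h2 : IsUnit (Ideal.Quotient.mk J y * Ideal.Quotient.mk J x) := h1 ▸ hnil.isUnit_one_sub
  exact isUnit_of_mul_isUnit_right h2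

theorem nontrivial (h : Adm Fr J) : Nontrivial (FF 𝒪 ⧸ J) :=
  Ideal.Quotient.nontrivial_iff.2 (fun ht => Fr.MM_isMaximal.ne_top (top_le_iff.1 (ht ▸ h.le)))

theorem isLocalRing (h : Adm Fr J) : IsLocalRing (FF 𝒪 ⧸ J) := by
  have := h.nontrivial
  refine IsLocalRing.of_isUnit_or_isUnit_one_sub_self fun a => ?_
  obtain ⟨x, rfl⟩ := Ideal.Quotient.mk_surjective a
  by_cases hx : x ∈ Fr.MM
  · right
    have : (1 - x) ∉ Fr.MM := fun h1 =>
      (Ideal.ne_top_iff_one _).1 Fr.MM_isMaximal.ne_top (by simpa using Ideal.add_mem _ h1 hx)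
    simpa using h.isUnit_mk this
  · left; exact h.isUnit_mk hx

theorem mk_mem_maximalIdeal_iff (h : Adm Fr J) (x : FF 𝒪) :
    haveI := h.isLocalRing
    Ideal.Quotient.mk J x ∈ maximalIdeal (FF 𝒪 ⧸ J) ↔ x ∈ Fr.MM := by
  haveI := h.isLocalRing
  constructor
  · intro hx
    by_contra hx'
    exact (mem_maximalIdeal _).1 hx (h.isUnit_mk hx')
  · intro hx
    rw [mem_maximalIdeal, mem_nonunits_iff]
    intro hu
    obtain ⟨b, hb⟩ := hu.exists_right_inv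
    obtain ⟨y, rfl⟩ := Ideal.Quotient.mk_surjective b
    rw [← map_mul, ← map_one (Ideal.Quotient.mk J), Ideal.Quotient.eq] at hb
    have h1 : (1 : FF 𝒪) ∈ Fr.MM := by
      have := Ideal.sub_mem _ (Ideal.mul_mem_right y _ hx) (h.le hb)
      simpa using this
    exact (Ideal.ne_top_iff_one _).1 Fr.MM_isMaximal.ne_top h1

theorem algebraMap_mem_MM_iff (Fr : Frame 𝒪) (c : 𝒪) :
    algebraMap 𝒪 (FF 𝒪) c ∈ Fr.MM ↔ c ∈ maximalIdeal 𝒪 := by
  rw [Frame.MM, RingHom.mem_ker, AlgHom.commutes, ← residue_eq_zero_iff]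
  rfl

theorem exists_sub_mem_MM (Fr : Frame 𝒪) (x : FF 𝒪) : ∃ c : 𝒪, x - algebraMap 𝒪 (FF 𝒪) c ∈ Fr.MM := by
  obtain ⟨c, hc⟩ := residue_surjective (ev (𝒪 := 𝒪) Fr.rb x)
  refine ⟨c, ?_⟩
  rw [Frame.MM, RingHom.mem_ker, map_sub, AlgHom.commutes, sub_eq_zero, ← hc]
  rfl

theorem test (h : Adm Fr J) :
    haveI := h.isLocalRing
    IsArtinianTestAlgebra 𝒪 (FF 𝒪 ⧸ J) := by
  haveI := h.isLocalRing
  haveI := h.fin
  refine ⟨⟨?_⟩, ?_, inferInstance⟩
  · intro c hc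
    by_contra hc'
    have h1 : algebraMap 𝒪 (FF 𝒪) c ∈ Fr.MM :=
      (algebraMap_mem_MM_iff Fr c).2 ((mem_maximalIdeal c).2 hc')
    exact (mem_maximalIdeal _).1 ((h.mk_mem_maximalIdeal_iff _).2 h1) hc
  · intro y
    obtain ⟨b, rfl⟩ := residue_surjective y
    obtain ⟨x, rfl⟩ := Ideal.Quotient.mk_surjective b
    obtain ⟨c, hc⟩ := exists_sub_mem_MM Fr x
    refine ⟨c, ?_⟩
    have := (h.mk_mem_maximalIdeal_iff _).2 hc
    rw [← residue_eq_zero_iff, map_sub, map_sub, sub_eq_zero] at this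
    exact this.symm

theorem of_le (h : Adm Fr J) {J' : Ideal (FF 𝒪)} (h1 : J ≤ J') (h2 : J' ≤ Fr.MM) : Adm Fr J' := by
  refine ⟨h2, ?_, ?_⟩
  · obtain ⟨n, hn⟩ := h.pow_le
    exact ⟨n, hn.trans h1⟩
  · haveI := h.fin
    exact Finite.of_surjective _ (Ideal.Quotient.factor_surjective h1)

theorem inf {J' : Ideal (FF 𝒪)} (h : Adm Fr J) (h' : Adm Fr J') : Adm Fr (J ⊓ J') := by
  refine ⟨inf_le_left.trans h.le, ?_, ?_⟩
  · obtain ⟨n, hn⟩ := h.pow_le
    obtain ⟨n', hn'⟩ := h'.pow_le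
    exact ⟨max n n', le_inf ((Ideal.pow_le_pow_right (le_max_left _ _)).trans hn)
      ((Ideal.pow_le_pow_right (le_max_right _ _)).trans hn')⟩
  · haveI := h.fin
    haveI := h'.fin
    let f : FF 𝒪 ⧸ (J ⊓ J') → (FF 𝒪 ⧸ J) × (FF 𝒪 ⧸ J') := fun x =>
      (Ideal.Quotient.factor inf_le_left x, Ideal.Quotient.factor inf_le_right x)
    refine Finite.of_injective f ?_
    intro x y hxy
    obtain ⟨x, rfl⟩ := Ideal.Quotient.mk_surjective x
    obtain ⟨y, rfl⟩ := Ideal.Quotient.mk_surjective y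
    simp only [f, Ideal.Quotient.factor_mk, Prod.mk.injEq, Ideal.Quotient.eq] at hxy
    rw [Ideal.Quotient.eq]
    exact ⟨hxy.1, hxy.2⟩

end Adm

end Fermat.Agent.S53
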