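import Fermat.Agent.S53.Core

set_option autoImplicit false

namespace Fermat.Agent.S53

open IsLocalRing GaloisRep

variable {𝒪 : Type} [CommRing 𝒪] [IsLocalRing 𝒪]
variable {Fr : Frame 𝒪}
  {𝒟 : ∀ ⦃A : Type⦄ [CommRing A] [IsLocalRing A] [Algebra 𝒪 A], GaloisRepAdic A → Prop}

section R

variable {R : Type} [CommRing R] [IsLocalRing R] [IsNoetherianRing R] [Algebra 𝒪 R]
  (e : FF 𝒪 →ₐ[𝒪] R)

/-- The universal matrices. -/
noncomputable def rR : Gal → M2 R := fun σ => (taut 𝒪 σ).map e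

omit [IsLocalRing 𝒪] in
theorem e_eq_zero {x : FF 𝒪} (h : ∀ n, x ∈ (maximalIdeal R ^ (n + 1)).comap e) : e x = 0 := by
  have h1 : e x ∈ ⨅ i, maximalIdeal R ^ i := by
    rw [Ideal.mem_iInf]
    intro i
    cases i with
    | zero => simp
    | succ n => exact h n
  rw [Ideal.iInf_pow_eq_bot_of_isLocalRing _ (maximalIdeal.isMaximal R).ne_top] at h1
  exact h1

variable {e}

theorem isLocalHom_algebraMap_R (h0 : (maximalIdeal R).comap e = Fr.MM) :
    IsLocalHom (algebraMap 𝒪 R) := by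
  constructor
  intro c hc
  by_contra hc'
  have h1 : algebraMap 𝒪 (FF 𝒪) c ∈ Fr.MM :=
    (Adm.algebraMap_mem_MM_iff Fr c).2 ((mem_maximalIdeal c).2 hc')
  rw [← h0, Ideal.mem_comap, AlgHom.commutes] at h1
  exact (mem_maximalIdeal _).1 h1 hc

theorem residue_surjective_R (h0 : (maximalIdeal R).comap e = Fr.MM)
    (hs : ∀ n, Function.Surjective (Ideal.Quotient.mk (maximalIdeal R ^ n) ∘ e)) :
    Function.Surjective (residue R ∘ algebraMap 𝒪 R) := by
  intro y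
  obtain ⟨z, rfl⟩ := residue_surjective y
  obtain ⟨x, hx⟩ := hs 1 (Ideal.Quotient.mk _ z)
  have h1 : e x - z ∈ maximalIdeal R := by
    have := Ideal.Quotient.eq.1 hx
    rwa [pow_one] at this
  obtain ⟨c, hc⟩ := Adm.exists_sub_mem_MM Fr x
  rw [← h0, Ideal.mem_comap, map_sub, AlgHom.commutes] at hc
  refine ⟨c, ?_⟩
  have h2 : algebraMap 𝒪 R c - z ∈ maximalIdeal R := by
    have := Ideal.sub_mem _ h1 hc
    simpa using this
  rw [← residue_eq_zero_iff, map_sub, sub_eq_zero] at h2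
  exact h2

theorem rR_isStrict (h0 : (maximalIdeal R).comap e = Fr.MM) : IsStrict Fr (rR e) := by
  intro σ i j
  have h1 : (MvPolynomial.X (σ, i, j) - algebraMap 𝒪 (FF 𝒪) (Fr.rt σ i j) : FF 𝒪) ∈ Fr.MM := by
    rw [Frame.MM, RingHom.mem_ker, map_sub, AlgHom.commutes]
    simp [ev, Frame.rb]
  rw [← h0, Ideal.mem_comap, map_sub, AlgHom.commutes] at h1
  exact h1

omit [IsLocalRing 𝒪] in
theorem mem_of_tautQ_entry_eq {J : Ideal (FF 𝒪)} {X Y : M2 (FF 𝒪)}
    (h : X.map (Ideal.Quotient.mk J) = Y.map (Ideal.Quotient.mk J)) (i j : Fin 2) :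
    X i j - Y i j ∈ J := by
  rw [← Ideal.Quotient.eq]
  exact congrFun (congrFun h i) j

theorem rR_isRigid (hg : ∀ n, Good Fr 𝒟 ((maximalIdeal R ^ (n + 1)).comap e)) :
    IsRigid Fr (rR e) := by
  intro j
  rw [← sub_eq_zero]
  have h1 : rR e (Fr.g j) (Fr.a j) (Fr.b j) -
      algebraMap 𝒪 R (Fr.rt (Fr.g j) (Fr.a j) (Fr.b j)) =
      e (MvPolynomial.X (Fr.g j, Fr.a j, Fr.b j) -
        algebraMap 𝒪 (FF 𝒪) (Fr.rt (Fr.g j) (Fr.a j) (Fr.b j))) := by
    rw [map_sub, AlgHom.commutes]; rfl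
  rw [h1]
  apply e_eq_zero
  intro n
  obtain ⟨hadm, -, hr, -⟩ := hg n
  rw [← Ideal.Quotient.eq]
  exact hr j

theorem tautQ_repLike {J : Ideal (FF 𝒪)} (h : Good Fr 𝒟 J) : RepLike (tautQ J) := by
  obtain ⟨hadm, -, -, ρ, -, hρ⟩ := h
  haveI := hadm.isLocalRing
  exact hρ.repLike (testAlg_exists_pow_eq_bot hadm.test)

theorem rR_one (hg : ∀ n, Good Fr 𝒟 ((maximalIdeal R ^ (n + 1)).comap e)) : rR e 1 = 1 := by
  rw [← sub_eq_zero]
  ext i j
  have h1 : (rR e 1 - 1) i j = e (taut 𝒪 1 i j - (1 : M2 (FF 𝒪)) i j) := by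
    rw [map_sub, Matrix.sub_apply]
    congr 1
    by_cases hij : i = j
    · subst hij; simp
    · simp [hij]
  rw [h1, Matrix.zero_apply]
  apply e_eq_zero
  intro n
  apply mem_of_tautQ_entry_eq
  have := (tautQ_repLike (hg n)).1
  rw [Matrix.map_one _ (map_zero _) (map_one _)]
  exact this

theorem rR_mul (hg : ∀ n, Good Fr 𝒟 ((maximalIdeal R ^ (n + 1)).comap e)) (σ τ : Gal) :
    rR e (σ * τ) = rR e σ * rR e τ := by
  rw [← sub_eq_zero]
  ext i j
  have h1 : (rR e (σ * τ) - rR e σ * rR e τ) i j =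
      e (taut 𝒪 (σ * τ) i j - (taut 𝒪 σ * taut 𝒪 τ) i j) := by
    rw [map_sub, Matrix.sub_apply]
    congr 1
    have : rR e σ * rR e τ = (taut 𝒪 σ * taut 𝒪 τ).map e := by
      rw [Matrix.map_mul]; rfl
    rw [this]; rfl
  rw [h1, Matrix.zero_apply]
  apply e_eq_zero
  intro n
  apply mem_of_tautQ_entry_eq
  have := (tautQ_repLike (hg n)).2.1 σ τ
  rw [Matrix.map_mul]
  exact this

theorem rR_matCont (hg : ∀ n, Good Fr 𝒟 ((maximalIdeal R ^ (n + 1)).comap e)) :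
    MatCont (rR e) := by
  intro n
  cases n with
  | zero =>
    obtain ⟨L, hL, -⟩ := (tautQ_repLike (hg 0)).2.2
    exact ⟨L, hL, fun σ _ i j => by simp⟩
  | succ n =>
    obtain ⟨L, hL, h⟩ := (tautQ_repLike (hg n)).2.2
    refine ⟨L, hL, fun σ hσ i j => ?_⟩
    have h1 : (rR e σ - 1) i j = e (taut 𝒪 σ i j - (1 : M2 (FF 𝒪)) i j) := by
      rw [map_sub, Matrix.sub_apply]
      congr 1
      by_cases hij : i = j
      · subst hij; simp
      · simp [hij]
    rw [h1]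
    have h2 : taut 𝒪 σ i j - (1 : M2 (FF 𝒪)) i j ∈ (maximalIdeal R ^ (n + 1)).comap e := by
      apply mem_of_tautQ_entry_eq
      rw [Matrix.map_one _ (map_zero _) (map_one _)]
      exact h σ hσ
    exact h2

/-- Lemma Q: every specialisation of the universal matrices to a test algebra is of type `𝒟`. -/
theorem inD_map_rR (h𝒟 : IsDeformationCondition 𝒪 𝒟)
    (hg : ∀ n, Good Fr 𝒟 ((maximalIdeal R ^ (n + 1)).comap e))
    {B : Type} [CommRing B] [IsLocalRing B] [Algebra 𝒪 B] (hB : IsArtinianTestAlgebra 𝒪 B)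
    (q : R →ₐ[𝒪] B) : InD Fr 𝒟 (fun σ => (rR e σ).map q) := by
  obtain ⟨n, hn⟩ := testAlg_exists_pow_eq_bot hB
  have hn' : maximalIdeal B ^ (n + 1) = ⊥ := by rw [pow_succ, hn, Ideal.bot_mul]
  obtain ⟨hadm, hD⟩ := hg n
  haveI := hadm.isLocalRing
  have hker : ∀ x : FF 𝒪, x ∈ (maximalIdeal R ^ (n + 1)).comap e → (q.comp e) x = 0 := by
    intro x hx
    have := map_pow_mem_maximalIdeal_pow hB.residue_surjective q (n + 1) hx
    rw [hn'] at this
    exact this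
  let ψ : (FF 𝒪 ⧸ (maximalIdeal R ^ (n + 1)).comap e) →ₐ[𝒪] B :=
    Ideal.Quotient.liftₐ _ (q.comp e) hker
  have := InD.map h𝒟 hadm.test hB ψ hD
  have e1 : (fun σ => (tautQ ((maximalIdeal R ^ (n + 1)).comap e) σ).map ψ) =
      fun σ => (rR e σ).map q := by
    funext σ
    ext i j
    rfl
  rwa [e1] at this

end R

end Fermat.Agent.S53
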