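import Mathlib

set_option autoImplicit false

namespace Fermat.Agent.S53

open Ideal Quotient

section lift

variable {B R : Type*} [CommRing B] [CommRing R] (J : Ideal B) (I : Ideal R)
  (g : B →+* R) (hJI : J.map g ≤ I)

include hJI in
lemma pow_le_comap_pow (n : ℕ) : J ^ n ≤ (I ^ n).comap g := by
  rw [← Ideal.map_le_iff_le_comap, Ideal.map_pow]
  exact Ideal.pow_right_mono hJI n

/-- the level `n` map `Ĵ B → R / I ^ n`. -/
noncomputable def complLevel (n : ℕ) : AdicCompletion J B →+* R ⧸ I ^ n :=
  (Ideal.quotientMap (I ^ n) g (pow_le_comap_pow J I g hJI n)).comp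
    (AdicCompletion.evalₐ J n).toRingHom

lemma complLevel_of (n : ℕ) (b : B) :
    complLevel J I g hJI n (AdicCompletion.of J B b) = Ideal.Quotient.mk (I ^ n) (g b) := by
  simp [complLevel]

lemma complLevel_compat {m n : ℕ} (hmn : m ≤ n) :
    (factorPow I hmn).comp (complLevel J I g hJI n) = complLevel J I g hJI m := by
  ext x
  obtain ⟨x, rfl⟩ := AdicCompletion.mk_surjective J B x
  simp only [complLevel, RingHom.comp_apply, AlgHom.toRingHom_eq_coe, RingHom.coe_coe,
    AdicCompletion.evalₐ_mk, Ideal.quotientMap_mk, factorPow, Ideal.Quotient.factor_mk]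
  rw [Ideal.Quotient.eq, ← map_sub]
  apply pow_le_comap_pow J I g hJI m
  have := x.2 hmn
  rw [SModEq.sub_mem] at this
  have h2 : x m - x n ∈ J ^ m := by simpa using this
  rw [← neg_sub]
  exact neg_mem h2

variable [IsAdicComplete I R]

/-- functoriality of adic completion with a complete target. -/
noncomputable def complLift : AdicCompletion J B →+* R :=
  IsAdicComplete.liftRingHom I (complLevel J I g hJI) (complLevel_compat J I g hJI)

lemma complLift_of (b : B) : complLift J I g hJI (AdicCompletion.of J B b) = g b := by
  have h : ∀ n, Ideal.Quotient.mk (I ^ n) (complLift J I g hJI (AdicCompletion.of J B b)) =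
      Ideal.Quotient.mk (I ^ n) (g b) := by
    intro n
    rw [complLift, IsAdicComplete.mk_liftRingHom, complLevel_of]
  rw [← sub_eq_zero]
  apply IsHausdorff.haus (I := I) inferInstance
  intro n
  rw [SModEq.zero]
  have := h n
  rw [Ideal.Quotient.eq] at this
  simpa using this

lemma mk_complLift (n : ℕ) (x : AdicCompletion J B) :
    Ideal.Quotient.mk (I ^ n) (complLift J I g hJI x) = complLevel J I g hJI n x := by
  rw [complLift, IsAdicComplete.mk_liftRingHom]

/-- surjectivity criterion -/
lemma complLift_surjective (hfg : J.FG) (hJI' : J.map g = I)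
    (hsurj : Function.Surjective ((Ideal.Quotient.mk I).comp g)) :
    Function.Surjective (complLift J I g hJI) := by
  have hcomp : (complLift J I g hJI).comp (algebraMap B (AdicCompletion J B)) = g := by
    ext b
    exact complLift_of J I g hJI b
  have hmap : (J.map (algebraMap B (AdicCompletion J B))).map (complLift J I g hJI) = I := by
    rw [Ideal.map_map, hcomp, hJI']
  have h1 : IsAdicComplete J (AdicCompletion J B) := AdicCompletion.isAdicComplete hfg
  have h2 : IsAdicComplete (J.map (algebraMap B (AdicCompletion J B))) (AdicCompletion J B) :=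
    (IsAdicComplete.map_algebraMap_iff _ _).mpr h1
  have h3 : IsHausdorff ((J.map (algebraMap B (AdicCompletion J B))).map (complLift J I g hJI)) R := by
    rw [hmap]; infer_instance
  apply surjective_of_mk_map_comp_surjective (I := J.map (algebraMap B (AdicCompletion J B)))
  rw [hmap]
  intro y
  obtain ⟨b, rfl⟩ := hsurj y
  exact ⟨AdicCompletion.of J B b, by simp [complLift_of]⟩

end lift

section noeth

variable {A R : Type*} [CommRing A] [CommRing R] [Algebra A R]

/-- A ring which is adically complete for a finitely generated ideal `I`, and such that a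
noetherian ring surjects onto `R ⧸ I`, is noetherian. -/
theorem isNoetherianRing_of_isAdicComplete [IsNoetherianRing A] {s : ℕ} (a : Fin s → R)
    [IsAdicComplete (Ideal.span (Set.range a)) R]
    (hsurj : Function.Surjective
      ((Ideal.Quotient.mk (Ideal.span (Set.range a))).comp (algebraMap A R))) :
    IsNoetherianRing R := by
  have hJ : (MvPolynomial.idealOfVars (Fin s) A).map
      ((MvPolynomial.aeval a : MvPolynomial (Fin s) A →ₐ[A] R) : MvPolynomial (Fin s) A →+* R) =
      Ideal.span (Set.range a) := by
    simp only [MvPolynomial.idealOfVars, Ideal.map_span, ← Set.range_comp]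
    congr 2
    ext i
    exact MvPolynomial.aeval_X a i
  have hP : IsNoetherianRing
      (AdicCompletion (MvPolynomial.idealOfVars (Fin s) A) (MvPolynomial (Fin s) A)) :=
    isNoetherianRing_of_ringEquiv (MvPowerSeries (Fin s) A)
      (MvPowerSeries.toAdicCompletionAlgEquiv (Fin s) A).toRingEquiv
  refine isNoetherianRing_of_surjective _ R
    (complLift (MvPolynomial.idealOfVars (Fin s) A) (Ideal.span (Set.range a)) _ hJ.le)
    (complLift_surjective _ _ _ hJ.le (MvPolynomial.idealOfVars_fg (Fin s) A) hJ ?_)
  intro y
  obtain ⟨c, rfl⟩ := hsurj y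
  exact ⟨MvPolynomial.C c, by simp⟩

end noeth

end Fermat.Agent.S53
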