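import Mathlib

set_option autoImplicit false

namespace Fermat.Agent.S53

section
variable {𝒪 F R A : Type} [CommRing 𝒪] [CommRing F] [CommRing R] [CommRing A]
  [Algebra 𝒪 F] [Algebra 𝒪 R] [Algebra 𝒪 A]

/-- Extension of an algebra homomorphism from a dense subalgebra to a complete target. -/
theorem exists_extension (𝔪 : Ideal R) (𝔞 : Ideal A) [IsAdicComplete 𝔞 A] (e : F →ₐ[𝒪] R)
    (he : ∀ n, Function.Surjective (Ideal.Quotient.mk (𝔪 ^ n) ∘ e)) (ψ : F →ₐ[𝒪] A)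
    (h : ∀ n, (𝔪 ^ n).comap e ≤ (𝔞 ^ n).comap ψ) : ∃ φ : R →ₐ[𝒪] A, φ.comp e = ψ := by
  let p : ∀ n, F →ₐ[𝒪] R ⧸ 𝔪 ^ n := fun n => (Ideal.Quotient.mkₐ 𝒪 (𝔪 ^ n)).comp e
  have hp : ∀ n, Function.Surjective (p n) := he
  let E : ∀ n, (F ⧸ RingHom.ker (p n)) ≃ₐ[𝒪] R ⧸ 𝔪 ^ n := fun n =>
    Ideal.quotientKerAlgEquivOfSurjective (hp n)
  have hker : ∀ n, ∀ x : F, x ∈ RingHom.ker (p n) →
      ((Ideal.Quotient.mkₐ 𝒪 (𝔞 ^ n)).comp ψ) x = 0 := by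
    intro n x hx
    have h1 : e x ∈ 𝔪 ^ n := Ideal.Quotient.eq_zero_iff_mem.1 hx
    exact Ideal.Quotient.eq_zero_iff_mem.2 (h n h1)
  let ψ' : ∀ n, (F ⧸ RingHom.ker (p n)) →ₐ[𝒪] A ⧸ 𝔞 ^ n := fun n =>
    Ideal.Quotient.liftₐ (RingHom.ker (p n)) ((Ideal.Quotient.mkₐ 𝒪 (𝔞 ^ n)).comp ψ) (hker n)
  let φ' : ∀ n, R →ₐ[𝒪] A ⧸ 𝔞 ^ n := fun n =>
    (ψ' n).comp ((E n).symm.toAlgHom.comp (Ideal.Quotient.mkₐ 𝒪 (𝔪 ^ n)))
  have key : ∀ n (z : R) (x : F), z - e x ∈ 𝔪 ^ n → φ' n z = Ideal.Quotient.mk (𝔞 ^ n) (ψ x) := by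
    intro n z x hzx
    have h1 : Ideal.Quotient.mk (𝔪 ^ n) z = E n (Ideal.Quotient.mk _ x) := by
      rw [Ideal.Quotient.eq.2 hzx]; rfl
    have h2 : (E n).symm (Ideal.Quotient.mk (𝔪 ^ n) z) = Ideal.Quotient.mk _ x := by
      rw [h1, AlgEquiv.symm_apply_apply]
    show ψ' n ((E n).symm (Ideal.Quotient.mk (𝔪 ^ n) z)) = _
    rw [h2]
    rfl
  have hex : ∀ n (z : R), ∃ x : F, z - e x ∈ 𝔪 ^ n := by
    intro n z
    obtain ⟨x, hx⟩ := he n (Ideal.Quotient.mk _ z)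
    exact ⟨x, Ideal.Quotient.eq.1 hx.symm⟩
  have compat : ∀ {m n : ℕ} (hle : m ≤ n),
      (Ideal.Quotient.factorₐ 𝒪 (Ideal.pow_le_pow_right hle)).comp (φ' n) = φ' m := by
    intro m n hle
    apply AlgHom.ext
    intro z
    obtain ⟨x, hx⟩ := hex n z
    rw [AlgHom.comp_apply, key n z x hx, key m z x (Ideal.pow_le_pow_right hle hx)]
    rfl
  refine ⟨IsAdicComplete.liftAlgHom 𝔞 φ' compat, ?_⟩
  apply IsAdicComplete.algHom_ext 𝔞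
  intro n
  rw [← AlgHom.comp_assoc, IsAdicComplete.mkₐ_comp_liftAlgHom]
  apply AlgHom.ext
  intro x
  rw [AlgHom.comp_apply, key n (e x) x (by simp)]
  rfl

end

end Fermat.Agent.S53
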