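import Fermat.Agent.S53.TestAlg

set_option autoImplicit false

namespace Fermat.Agent.S53

open IsLocalRing GaloisRep

variable {𝒪 : Type} [CommRing 𝒪] [IsLocalRing 𝒪]
variable {A : Type} [CommRing A] [IsLocalRing A] [Algebra 𝒪 A]

theorem map_mem_maximalIdeal {B : Type} [CommRing B] [IsLocalRing B] [Algebra 𝒪 B]
    (hB : Function.Surjective (residue B ∘ algebraMap 𝒪 B)) (φ : A →ₐ[𝒪] B) {a : A}
    (ha : a ∈ maximalIdeal A) : φ a ∈ maximalIdeal B := by
  have hφ := isLocalHom_of_algHom hB φ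
  have h0 : maximalIdeal A ≤ Ideal.comap (φ : A →+* B) (maximalIdeal B) :=
    ((local_hom_TFAE (φ : A →+* B)).out 0 3).1 hφ
  exact h0 ha

theorem map_pow_mem_maximalIdeal_pow {B : Type} [CommRing B] [IsLocalRing B] [Algebra 𝒪 B]
    (hB : Function.Surjective (residue B ∘ algebraMap 𝒪 B)) (φ : A →ₐ[𝒪] B) (n : ℕ) {a : A}
    (ha : a ∈ maximalIdeal A ^ n) : φ a ∈ maximalIdeal B ^ n := by
  have h0 : maximalIdeal A ≤ Ideal.comap (φ : A →+* B) (maximalIdeal B) :=
    fun a ha => map_mem_maximalIdeal hB φ ha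
  exact ((Ideal.pow_right_mono h0 n).trans (Ideal.le_comap_pow _ n)) ha

theorem quot_pow_isLocalRing (n : ℕ) (hn : n ≠ 0) : IsLocalRing (A ⧸ maximalIdeal A ^ n) := by
  have : Nontrivial (A ⧸ maximalIdeal A ^ n) := by
    rw [Ideal.Quotient.nontrivial_iff]
    intro h
    exact (maximalIdeal.isMaximal A).ne_top (top_le_iff.1 (h ▸ Ideal.pow_le_self hn))
  exact IsLocalRing.of_surjective' (Ideal.Quotient.mk _) Ideal.Quotient.mk_surjective

theorem quot_pow_test [IsNoetherianRing A] (hloc : IsLocalHom (algebraMap 𝒪 A))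
    (hA : Function.Surjective (residue A ∘ algebraMap 𝒪 A)) (n : ℕ) (hn : n ≠ 0) :
    haveI := quot_pow_isLocalRing (A := A) n hn
    IsArtinianTestAlgebra 𝒪 (A ⧸ maximalIdeal A ^ n) := by
  haveI := quot_pow_isLocalRing (A := A) n hn
  have hmk : ∀ a : A, Ideal.Quotient.mk (maximalIdeal A ^ n) a ∈
      maximalIdeal (A ⧸ maximalIdeal A ^ n) ↔ a ∈ maximalIdeal A := by
    intro a
    constructor
    · intro h
      by_contra hc
      have hu : IsUnit a := by by_contra hu; exact hc ((mem_maximalIdeal _).2 hu)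
      exact (mem_maximalIdeal _).1 h (hu.map _)
    · intro h
      rw [mem_maximalIdeal, mem_nonunits_iff]
      intro hu
      obtain ⟨b, hb⟩ := hu.exists_right_inv
      obtain ⟨y, rfl⟩ := Ideal.Quotient.mk_surjective b
      rw [← map_mul, ← map_one (Ideal.Quotient.mk _), Ideal.Quotient.eq] at hb
      have h1 : (1 : A) ∈ maximalIdeal A := by
        have := Ideal.sub_mem _ (Ideal.mul_mem_right y _ h) (Ideal.pow_le_self hn hb)
        simpa using this
      exact (Ideal.ne_top_iff_one _).1 (maximalIdeal.isMaximal A).ne_top h1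
  refine ⟨⟨?_⟩, ?_, ?_⟩
  · intro c hc
    by_contra hc'
    have h1 : algebraMap 𝒪 A c ∈ maximalIdeal A := by
      rw [mem_maximalIdeal, mem_nonunits_iff]
      intro hu
      exact hc' (hloc.map_nonunit c hu)
    exact (mem_maximalIdeal _).1 ((hmk _).2 h1) hc
  · intro y
    obtain ⟨b, rfl⟩ := residue_surjective y
    obtain ⟨a, rfl⟩ := Ideal.Quotient.mk_surjective b
    obtain ⟨c, hc⟩ := hA (residue A a)
    refine ⟨c, ?_⟩
    have h1 : a - algebraMap 𝒪 A c ∈ maximalIdeal A := by
      rw [← residue_eq_zero_iff, map_sub, sub_eq_zero]; exact hc.symm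
    have := (hmk _).2 h1
    rw [← residue_eq_zero_iff, map_sub, map_sub, sub_eq_zero] at this
    exact this.symm
  · rw [isArtinianRing_iff_isNilpotent_maximalIdeal]
    refine ⟨n, ?_⟩
    have h1 : maximalIdeal (A ⧸ maximalIdeal A ^ n) =
        (maximalIdeal A).map (Ideal.Quotient.mk (maximalIdeal A ^ n)) := by
      ext b
      obtain ⟨y, rfl⟩ := Ideal.Quotient.mk_surjective b
      rw [hmk]
      constructor
      · exact fun hy => Ideal.mem_map_of_mem _ hy
      · intro hy
        obtain ⟨z, hz, hzy⟩ :=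
          (Ideal.mem_map_iff_of_surjective _ Ideal.Quotient.mk_surjective).1 hy
        have := Ideal.sub_mem _ hz (Ideal.pow_le_self hn (Ideal.Quotient.eq.1 hzy))
        simpa using this
    rw [h1, ← Ideal.map_pow, Ideal.zero_eq_bot, Ideal.map_eq_bot_iff_le_ker, Ideal.mk_ker]

end Fermat.Agent.S53
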