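import Fermat.Agent.S53.MinGood
import Fermat.Agent.S53.Ext
import Fermat.Agent.S53.QuotTest

set_option autoImplicit false

namespace Fermat.Agent.S53

open IsLocalRing GaloisRep

variable {𝒪 : Type} [CommRing 𝒪] [IsLocalRing 𝒪]
variable {Fr : Frame 𝒪}
  {𝒟 : ∀ ⦃A : Type⦄ [CommRing A] [IsLocalRing A] [Algebra 𝒪 A], GaloisRepAdic A → Prop}

/-- Prepend the unit ideal to a sequence of ideals. -/
def shiftTop {F : Type} [CommRing F] (I' : ℕ → Ideal F) : ℕ → Ideal F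
  | 0 => ⊤
  | n + 1 => I' n

theorem exists_core [Finite (ResidueField 𝒪)] [IsNoetherianRing 𝒪]
    (h𝒟 : IsDeformationCondition 𝒪 𝒟) (hI : Finite (FF 𝒪 ⧸ Ieps Fr 𝒟))
    (hMM : Good Fr 𝒟 Fr.MM) :
    ∃ (R : Type) (_ : CommRing R) (_ : IsLocalRing R) (_ : IsNoetherianRing R)
      (_ : IsAdicComplete (maximalIdeal R) R) (_ : Algebra 𝒪 R) (e : FF 𝒪 →ₐ[𝒪] R),
      (maximalIdeal R).comap e = Fr.MM ∧
      (∀ n, Good Fr 𝒟 ((maximalIdeal R ^ (n + 1)).comap e)) ∧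
      (∀ n, Function.Surjective (Ideal.Quotient.mk (maximalIdeal R ^ n) ∘ e)) ∧
      (∀ n J, Good Fr 𝒟 J → Fr.MM ^ (n + 1) ≤ J → (maximalIdeal R ^ (n + 1)).comap e ≤ J) := by
  choose I' hg hn hmin using
    fun n : ℕ => exists_min_good h𝒟 hI hMM (n + 1) (Nat.succ_ne_zero n)
  let I : ℕ → Ideal (FF 𝒪) := shiftTop I'
  have h1 : ∀ n, Fr.MM ^ n ≤ I n := by
    intro n
    cases n with
    | zero => exact le_top
    | succ n => exact hn n
  have h2 : ∀ n, I (n + 1) ≤ I n := by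
    intro n
    cases n with
    | zero => exact le_top
    | succ n =>
      exact hmin (n + 1) _ (hg n) ((Ideal.pow_le_pow_right (Nat.le_succ _)).trans (hn n))
  have h3 : ∀ n, I n ≤ I (n + 1) ⊔ Fr.MM ^ n := by
    intro n
    cases n with
    | zero => simp
    | succ n =>
      refine hmin n _ ((hg (n + 1)).of_le h𝒟 le_sup_left
        (sup_le (hg (n + 1)).adm.le (Ideal.pow_le_self (Nat.succ_ne_zero n)))) le_sup_right
  have h4 : ∀ n, Function.Surjective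
      ((Ideal.Quotient.mk (I n) : FF 𝒪 →+* FF 𝒪 ⧸ I n) ∘
        (MvPolynomial.aeval (R := 𝒪) (gens Fr 𝒟) : QQ Fr 𝒟 →ₐ[𝒪] FF 𝒪)) := by
    intro n
    cases n with
    | zero =>
      intro y
      have : Subsingleton (FF 𝒪 ⧸ I 0) := Ideal.Quotient.subsingleton_iff.2 rfl
      exact ⟨0, Subsingleton.elim _ _⟩
    | succ n => exact surjective_fJ h𝒟 (hg n)
  have h5 : I 1 = Fr.MM := le_antisymm (hg 0).adm.le
    (by have := hn 0; rw [zero_add, pow_one] at this; exact this)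
  have h𝔐 : Function.Surjective (Ideal.Quotient.mk Fr.MM ∘ algebraMap 𝒪 (FF 𝒪)) := by
    intro y
    obtain ⟨x, rfl⟩ := Ideal.Quotient.mk_surjective y
    obtain ⟨c, hc⟩ := Adm.exists_sub_mem_MM Fr x
    exact ⟨c, (Ideal.Quotient.eq.2 hc).symm⟩
  have hloc : (maximalIdeal 𝒪).map (algebraMap 𝒪 (FF 𝒪)) ≤ Fr.MM := by
    rw [Ideal.map_le_iff_le_comap]
    exact fun c hc => (Adm.algebraMap_mem_MM_iff Fr c).2 hc
  obtain ⟨R, i1, i2, i3, i4, i5, e, he1, he2⟩ := exists_limit_ring 𝒪 (FF 𝒪) Fr.MM h𝔐 hloc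
    (FF 𝒪 ⧸ Ieps Fr 𝒟) (gens Fr 𝒟) gens_mem_MM I h1 h2 h3 h4 h5
  refine ⟨R, i1, i2, i3, i4, i5, e, ?_, ?_, he2, ?_⟩
  · have := he1 1
    rw [pow_one] at this
    rw [this, h5]
  · intro n
    rw [he1 (n + 1)]
    exact hg n
  · intro n J hJ hnJ
    rw [he1 (n + 1)]
    exact hmin n J hJ hnJ

end Fermat.Agent.S53
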