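import Mathlib
import Fermat.Prelude.Def_GaloisRep_DeformationRingData
import Fermat.Prelude.Def_GaloisRep_DeformationCondition

set_option autoImplicit false

namespace Fermat.Agent.S53

open IsLocalRing

/-- The absolute Galois group of the rationals. -/
abbrev Gal : Type := AlgebraicClosure ℚ ≃ₐ[ℚ] AlgebraicClosure ℚ

/-- Two by two matrices. -/
abbrev M2 (A : Type) : Type := Matrix (Fin 2) (Fin 2) A

/-- `ρ` has matrix `r` in some basis. -/
def HasMatrix {A : Type} [CommRing A] [IsLocalRing A] (ρ : GaloisRepAdic A)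
    (r : Gal → M2 A) : Prop :=
  ∃ b : Module.Basis (Fin 2) A ρ.V, ∀ σ, LinearMap.toMatrix b b (ρ.ρ σ) = r σ

/-- `ρ` has matrix `r` in some basis (residual version). -/
def HasMatrixRes {k : Type} [Field k] (ρ : ResidualGaloisRep k) (r : Gal → M2 k) : Prop :=
  ∃ b : Module.Basis (Fin 2) k ρ.V, ∀ σ, LinearMap.toMatrix b b (ρ.ρ σ) = r σ

/-- Adic continuity of a matrix valued function. -/
def MatCont {A : Type} [CommRing A] [IsLocalRing A] (r : Gal → M2 A) : Prop :=
  ∀ n : ℕ, ∃ L : IntermediateField ℚ (AlgebraicClosure ℚ), FiniteDimensional ℚ L ∧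
    ∀ σ : Gal, (∀ x ∈ L, σ x = x) → ∀ i j, (r σ - 1) i j ∈ maximalIdeal A ^ n

/-- A frame: a set theoretic lift of the residual matrices to `𝒪` and three matrix coordinates. -/
structure Frame (𝒪 : Type) where
  rt : Gal → M2 𝒪
  g : Fin 3 → Gal
  a : Fin 3 → Fin 2
  b : Fin 3 → Fin 2

/-- The three elementary matrices spanning a complement of the scalars. -/
def E3 (A : Type) [CommRing A] : Fin 3 → M2 A :=
  ![!![1, 0; 0, 0], !![0, 1; 0, 0], !![0, 0; 1, 0]]

variable {𝒪 : Type} [CommRing 𝒪]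

/-- The matrix of the linearised conjugation action read off at the three coordinates. -/
def Frame.Tmat (Fr : Frame 𝒪) {A : Type} [CommRing A] (r : Gal → M2 A) :
    Matrix (Fin 3) (Fin 3) A :=
  Matrix.of fun j i => (E3 A i * r (Fr.g j) - r (Fr.g j) * E3 A i) (Fr.a j) (Fr.b j)

/-- Nondegeneracy of a frame. -/
def Frame.Nondeg (Fr : Frame 𝒪) : Prop := IsUnit (Fr.Tmat Fr.rt).det

/-- `r` reduces to the residual matrices of the frame. -/
def IsStrict (Fr : Frame 𝒪) {A : Type} [CommRing A] [IsLocalRing A] [Algebra 𝒪 A]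
    (r : Gal → M2 A) : Prop :=
  ∀ σ i j, r σ i j - algebraMap 𝒪 A (Fr.rt σ i j) ∈ maximalIdeal A

/-- `r` has the prescribed entries at the three coordinates of the frame. -/
def IsRigid (Fr : Frame 𝒪) {A : Type} [CommRing A] [Algebra 𝒪 A] (r : Gal → M2 A) : Prop :=
  ∀ j, r (Fr.g j) (Fr.a j) (Fr.b j) = algebraMap 𝒪 A (Fr.rt (Fr.g j) (Fr.a j) (Fr.b j))

section Keps

variable (𝒪) [IsLocalRing 𝒪]

/-- The dual numbers over the residue field, with the algebra structure used in
`GaloisRep.TangentFinite`. -/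
def Keps : Type := DualNumber (ResidueField 𝒪)

noncomputable instance : CommRing (Keps 𝒪) :=
  inferInstanceAs (CommRing (DualNumber (ResidueField 𝒪)))

instance : IsLocalRing (Keps 𝒪) :=
  inferInstanceAs (IsLocalRing (DualNumber (ResidueField 𝒪)))

noncomputable instance : Algebra 𝒪 (Keps 𝒪) :=
  ((algebraMap (ResidueField 𝒪) (DualNumber (ResidueField 𝒪))).comp
      (algebraMap 𝒪 (ResidueField 𝒪))).toAlgebra

end Keps

end Fermat.Agent.S53
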