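import Fermat.Agent.S53.Defs

set_option autoImplicit false

namespace Fermat.Agent.S53

open IsLocalRing
open scoped TensorProduct

namespace FrameExists

/-- Schur's lemma in matrix form. -/
theorem schur {k : Type} [Field k] (ρ : ResidualGaloisRep k) (habs : ρ.IsAbsolutelyIrreducible)
    (b : Module.Basis (Fin 2) k ρ.V) (X : M2 k)
    (hX : ∀ σ, X * LinearMap.toMatrix b b (ρ.ρ σ) = LinearMap.toMatrix b b (ρ.ρ σ) * X) :
    X 0 1 = 0 ∧ X 1 0 = 0 ∧ X 0 0 = X 1 1 := by
  classical
  set K := AlgebraicClosure k with hK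
  set f : ρ.V →ₗ[k] ρ.V := Matrix.toLin b b X with hf
  have hcomm : ∀ σ, f ∘ₗ ρ.ρ σ = ρ.ρ σ ∘ₗ f := by
    intro σ
    have h1 : ρ.ρ σ = Matrix.toLin b b (LinearMap.toMatrix b b (ρ.ρ σ)) :=
      (Matrix.toLin_toMatrix b b _).symm
    rw [h1, hf, ← Matrix.toLin_mul b b b, ← Matrix.toLin_mul b b b, hX σ]
  set F : (K ⊗[k] ρ.V) →ₗ[K] (K ⊗[k] ρ.V) := f.baseChange K with hF
  have hfr : Module.finrank K (K ⊗[k] ρ.V) = 2 := by
    rw [Module.finrank_baseChange, ρ.finrank_eq]
  have : Nontrivial (K ⊗[k] ρ.V) := Module.nontrivial_of_finrank_pos (R := K) (by omega)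
  obtain ⟨μ, hμ⟩ := Module.End.exists_eigenvalue F
  have hstab : ∀ σ : AlgebraicClosure ℚ ≃ₐ[ℚ] AlgebraicClosure ℚ,
      ∀ x ∈ Module.End.eigenspace F μ, (ρ.baseChange K).ρ σ x ∈ Module.End.eigenspace F μ := by
    intro σ x hx
    rw [Module.End.mem_eigenspace_iff] at hx ⊢
    show F ((ρ.ρ σ).baseChange K x) = μ • (ρ.ρ σ).baseChange K x
    have h2 : F ∘ₗ (ρ.ρ σ).baseChange K = (ρ.ρ σ).baseChange K ∘ₗ F := by
      rw [hF, ← LinearMap.baseChange_comp, ← LinearMap.baseChange_comp, hcomm σ]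
    have h3 := LinearMap.congr_fun h2 x
    simp only [LinearMap.comp_apply] at h3
    rw [h3, hx, map_smul]
  have htop : Module.End.eigenspace F μ = ⊤ :=
    (habs _ hstab).resolve_left hμ
  have hFμ : F = μ • LinearMap.id := by
    refine LinearMap.ext fun x => ?_
    have : x ∈ Module.End.eigenspace F μ := htop ▸ Submodule.mem_top
    rw [Module.End.mem_eigenspace_iff] at this
    simpa using this
  have hmat : X.map (algebraMap k K) = μ • (1 : Matrix (Fin 2) (Fin 2) K) := by
    have h4 := LinearMap.toMatrix_baseChange K f b b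
    rw [hf, LinearMap.toMatrix_toLin] at h4
    rw [← h4]
    show LinearMap.toMatrix _ _ F = _
    rw [hFμ, map_smul, LinearMap.toMatrix_id]
  have hinj := (algebraMap k K).injective
  have e01 := congrFun (congrFun hmat 0) 1
  have e10 := congrFun (congrFun hmat 1) 0
  have e00 := congrFun (congrFun hmat 0) 0
  have e11 := congrFun (congrFun hmat 1) 1
  simp at e01 e10 e00 e11
  refine ⟨e01, e10, hinj (by rw [e00, e11])⟩

theorem extract {k : Type} [Field k] {S : Type} (v : S → (Fin 3 → k))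
    (h : ∀ x : Fin 3 → k, (∀ s, ∑ i, x i * v s i = 0) → x = 0) :
    ∃ e : Fin 3 → S, (Matrix.of fun j i => v (e j) i).det ≠ 0 := by
  classical
  have htop : Submodule.span k (Set.range v) = ⊤ := by
    by_contra hne
    obtain ⟨f, hf0, hf⟩ := Submodule.exists_le_ker_of_lt_top _ (lt_top_iff_ne_top.mpr hne)
    apply hf0
    have hfw : ∀ w : Fin 3 → k, f w = ∑ i, f (Pi.single i 1) * w i := by
      intro w
      conv_lhs => rw [← (Pi.basisFun k (Fin 3)).sum_repr w]
      rw [map_sum]
      refine Finset.sum_congr rfl fun i _ => ?_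
      rw [map_smul, smul_eq_mul, mul_comm]
      simp
    have hx := h (fun i => f (Pi.single i 1)) (fun s => by
      rw [← hfw]
      exact hf (Submodule.subset_span (Set.mem_range_self s)))
    refine LinearMap.ext fun w => ?_
    rw [hfw]
    simp [congrFun hx]
  obtain ⟨b, hb, hspan, hli⟩ := exists_linearIndependent k (Set.range v)
  rw [htop] at hspan
  have hfin : Finite b := hli.finite
  have := Fintype.ofFinite b
  let B : Module.Basis b k (Fin 3 → k) := Module.Basis.mk hli (by rw [Subtype.range_coe, hspan])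
  have hcard : Fintype.card b = 3 := by
    have := Module.finrank_eq_card_basis B
    simpa using this.symm
  let eq : Fin 3 ≃ b := (Fintype.equivFinOfCardEq hcard).symm
  have hch : ∀ j : Fin 3, ∃ s, v s = (eq j : Fin 3 → k) := fun j => hb (eq j).2
  choose e he using hch
  refine ⟨e, ?_⟩
  have hrows : LinearIndependent k (Matrix.of fun j i => v (e j) i).row := by
    have h1 : (Matrix.of fun j i => v (e j) i).row = fun j => ((eq j : b) : Fin 3 → k) := by
      funext j
      exact he j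
    rw [h1]
    exact hli.comp eq eq.injective
  have hu := Matrix.linearIndependent_rows_iff_isUnit.mp hrows
  exact ((Matrix.isUnit_iff_isUnit_det _).mp hu).ne_zero

theorem E3_map {A B : Type} [CommRing A] [CommRing B] (φ : A →+* B) (i : Fin 3) :
    (E3 A i).map φ = E3 B i := by
  fin_cases i <;> ext a b <;> fin_cases a <;> fin_cases b <;> simp [E3]

theorem Tmat_map {𝒪 : Type} (Fr : Frame 𝒪) {A B : Type} [CommRing A] [CommRing B]
    (φ : A →+* B) (r : Gal → M2 A) :
    (Fr.Tmat r).map φ = Fr.Tmat (fun σ => (r σ).map φ) := by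
  ext j i
  simp only [Frame.Tmat, Matrix.map_apply, Matrix.of_apply]
  rw [← E3_map φ i, ← Matrix.map_mul, ← Matrix.map_mul]
  simp only [Matrix.sub_apply, Matrix.map_apply, map_sub]

theorem comm_eq_sum {k : Type} [CommRing k] (x : Fin 3 → k) (R : M2 k) (c d : Fin 2) :
    ((!![x 0, x 1; x 2, 0] : M2 k) * R - R * !![x 0, x 1; x 2, 0]) c d
      = ∑ i, x i * (E3 k i * R - R * E3 k i) c d := by
  have h : (!![x 0, x 1; x 2, 0] : M2 k) = x 0 • E3 k 0 + x 1 • E3 k 1 + x 2 • E3 k 2 := by
    ext a b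
    fin_cases a <;> fin_cases b <;> simp [E3]
  rw [h, Fin.sum_univ_three]
  simp only [add_mul, mul_add, smul_mul_assoc, mul_smul_comm, Matrix.sub_apply, Matrix.add_apply,
    Matrix.smul_apply, smul_eq_mul]
  ring

end FrameExists

open FrameExists in
theorem exists_frame {𝒪 : Type} [CommRing 𝒪] [IsLocalRing 𝒪]
    (ρbar : ResidualGaloisRep (ResidueField 𝒪))
    (habs : ρbar.IsAbsolutelyIrreducible) :
    ∃ Fr : Frame 𝒪, Fr.Nondeg ∧ HasMatrixRes ρbar (fun σ => (Fr.rt σ).map (residue 𝒪)) := by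
  classical
  let b : Module.Basis (Fin 2) (ResidueField 𝒪) ρbar.V :=
    Module.finBasisOfFinrankEq _ _ ρbar.finrank_eq
  let rbar : Gal → M2 (ResidueField 𝒪) := fun σ => LinearMap.toMatrix b b (ρbar.ρ σ)
  have hsurj := residue_surjective (R := 𝒪)
  choose lift hlift using hsurj
  let rt : Gal → M2 𝒪 := fun σ => (rbar σ).map lift
  have hrt : ∀ σ, (rt σ).map (residue 𝒪) = rbar σ := by
    intro σ
    ext i j
    simp [rt, hlift]
  let v : Gal × Fin 2 × Fin 2 → Fin 3 → ResidueField 𝒪 := fun s i =>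
    (E3 (ResidueField 𝒪) i * rbar s.1 - rbar s.1 * E3 (ResidueField 𝒪) i) s.2.1 s.2.2
  obtain ⟨e, he⟩ := extract v (by
    intro x hx
    have hX : ∀ σ, (!![x 0, x 1; x 2, 0] : M2 (ResidueField 𝒪)) * rbar σ
        = rbar σ * !![x 0, x 1; x 2, 0] := by
      intro σ
      rw [← sub_eq_zero]
      ext c d
      rw [comm_eq_sum]
      exact hx (σ, c, d)
    obtain ⟨h01, h10, h00⟩ := schur ρbar habs b _ hX
    funext i
    fin_cases i
    · simpa using h00
    · simpa using h01
    · simpa using h10)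
  refine ⟨⟨rt, fun j => (e j).1, fun j => (e j).2.1, fun j => (e j).2.2⟩, ?_,
    ⟨b, fun σ => (hrt σ).symm⟩⟩
  unfold Frame.Nondeg
  rw [← residue_ne_zero_iff_isUnit, RingHom.map_det, RingHom.mapMatrix_apply, Tmat_map]
  have h2 : (fun σ => (rt σ).map (residue 𝒪)) = rbar := funext hrt
  simp only [h2]
  exact he

end Fermat.Agent.S53
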