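import Fermat.Agent.S53.Tangent

set_option autoImplicit false

namespace Fermat.Agent.S53

open IsLocalRing GaloisRep

theorem top_le_sup_pow_smul {R M : Type*} [CommRing R] [AddCommGroup M] [Module R M] (I : Ideal R)
    (N : Submodule R M) (h : ⊤ ≤ N ⊔ I • (⊤ : Submodule R M)) (n : ℕ) :
    ⊤ ≤ N ⊔ I ^ n • (⊤ : Submodule R M) := by
  induction n with
  | zero => simp
  | succ n ih =>
    refine ih.trans (sup_le le_sup_left ?_)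
    calc I ^ n • (⊤ : Submodule R M) ≤ I ^ n • (N ⊔ I • (⊤ : Submodule R M)) :=
          Submodule.smul_mono le_rfl h
      _ = I ^ n • N ⊔ I ^ (n + 1) • (⊤ : Submodule R M) := by
          rw [Submodule.smul_sup, ← Submodule.mul_smul, pow_succ]
      _ ≤ N ⊔ I ^ (n + 1) • (⊤ : Submodule R M) := sup_le_sup_right Submodule.smul_le_right _

theorem surjective_of_nilpotent {Q B : Type*} [CommRing Q] [CommRing B] (f : Q →+* B)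
    (𝔫 : Ideal Q) (n : ℕ) (hn : (𝔫.map f) ^ n = ⊥) (h : ∀ b, ∃ q, b - f q ∈ 𝔫.map f) :
    Function.Surjective f := by
  let _ := f.toAlgebra
  have hf : algebraMap Q B = f := rfl
  let N : Submodule Q B := LinearMap.range (Algebra.linearMap Q B)
  have h1 : ⊤ ≤ N ⊔ 𝔫 • (⊤ : Submodule Q B) := by
    intro b _
    obtain ⟨q, hq⟩ := h b
    rw [Ideal.smul_top_eq_map]
    have : b = f q + (b - f q) := by ring
    rw [this]
    exact Submodule.add_mem_sup ⟨q, rfl⟩ hq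
  have h2 := top_le_sup_pow_smul 𝔫 N h1 n
  rw [Ideal.smul_top_eq_map, Ideal.map_pow, hf, hn] at h2
  intro b
  have : b ∈ N := by
    have := h2 (Submodule.mem_top (x := b))
    simpa using this
  exact this

variable {𝒪 : Type} [CommRing 𝒪] [IsLocalRing 𝒪]
variable {Fr : Frame 𝒪}
  {𝒟 : ∀ ⦃A : Type⦄ [CommRing A] [IsLocalRing A] [Algebra 𝒪 A], GaloisRepAdic A → Prop}

/-- The ideal of elements of `MM` killed by all rigid lifts of type `𝒟` to the dual numbers. -/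
noncomputable def Ieps (Fr : Frame 𝒪)
    (𝒟 : ∀ ⦃A : Type⦄ [CommRing A] [IsLocalRing A] [Algebra 𝒪 A], GaloisRepAdic A → Prop) :
    Ideal (FF 𝒪) :=
  RingHom.ker ((RingHom.pi fun r : {r : Gal → M2 (Keps 𝒪) // InD Fr 𝒟 r} =>
    ((ev (𝒪 := 𝒪) r.1 : FF 𝒪 →ₐ[𝒪] Keps 𝒪) : FF 𝒪 →+* Keps 𝒪)).prod
    ((ev (𝒪 := 𝒪) Fr.rb : FF 𝒪 →ₐ[𝒪] ResidueField 𝒪) : FF 𝒪 →+* ResidueField 𝒪))

theorem Ieps_le_MM : Ieps Fr 𝒟 ≤ Fr.MM := by
  intro x hx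
  have := (RingHom.mem_ker).1 hx
  exact congrArg Prod.snd this

theorem ev_eq_zero_of_mem_Ieps {x : FF 𝒪} (hx : x ∈ Ieps Fr 𝒟) {r : Gal → M2 (Keps 𝒪)}
    (hr : InD Fr 𝒟 r) : ev (𝒪 := 𝒪) r x = 0 := by
  have := (RingHom.mem_ker).1 hx
  exact congrFun (congrArg Prod.fst this) ⟨r, hr⟩

theorem finite_quotient_Ieps [Finite (ResidueField 𝒪)] (hN : Fr.Nondeg)
    (ρbar : ResidualGaloisRep (ResidueField 𝒪))
    (hFr : HasMatrixRes ρbar (fun σ => (Fr.rt σ).map (residue 𝒪)))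
    (hfin : TangentFinite 𝒪 ρbar 𝒟) : Finite (FF 𝒪 ⧸ Ieps Fr 𝒟) := by
  have := finite_InD_keps hN ρbar hFr hfin
  have : Finite (Keps 𝒪) := testAlg_finite keps_isArtinianTestAlgebra
  exact Finite.of_injective _ (RingHom.kerLift_injective _)

/-- Elements of `Ieps` are in `m² + m_𝒪` in every good quotient. -/
theorem mk_mem_of_mem_Ieps (h𝒟 : IsDeformationCondition 𝒪 𝒟) {J : Ideal (FF 𝒪)}
    (hJ : Good Fr 𝒟 J) {w : FF 𝒪} (hw : w ∈ Ieps Fr 𝒟) :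
    haveI := hJ.adm.isLocalRing
    Ideal.Quotient.mk J w ∈ maximalIdeal (FF 𝒪 ⧸ J) ^ 2 ⊔
      (maximalIdeal 𝒪).map (algebraMap 𝒪 (FF 𝒪 ⧸ J)) := by
  obtain ⟨hadm, hD⟩ := hJ
  haveI := hadm.isLocalRing
  haveI := hadm.test.isLocalHom
  by_contra hcon
  obtain ⟨φ, hφ⟩ := exists_algHom_keps hadm.test.residue_surjective (Ideal.Quotient.mk J w)
    ((hadm.mk_mem_maximalIdeal_iff w).2 (Ieps_le_MM hw)) hcon
  have h1 := InD.map h𝒟 hadm.test keps_isArtinianTestAlgebra φ hD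
  have h2 := ev_eq_zero_of_mem_Ieps hw h1
  have h3 : φ.comp (Ideal.Quotient.mkₐ 𝒪 J) = ev (fun σ => (tautQ J σ).map φ) := by
    rw [eq_ev (φ.comp (Ideal.Quotient.mkₐ 𝒪 J))]
    congr 1
  rw [← h3] at h2
  exact hφ h2

open Classical in
/-- A finite family of elements of `MM` representing `MM / Ieps`. -/
noncomputable def gens (Fr : Frame 𝒪)
    (𝒟 : ∀ ⦃A : Type⦄ [CommRing A] [IsLocalRing A] [Algebra 𝒪 A], GaloisRepAdic A → Prop) :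
    (FF 𝒪 ⧸ Ieps Fr 𝒟) → FF 𝒪 :=
  fun c => if Quotient.out c ∈ Fr.MM then Quotient.out c else 0

theorem gens_mem_MM (c : FF 𝒪 ⧸ Ieps Fr 𝒟) : gens Fr 𝒟 c ∈ Fr.MM := by
  unfold gens
  split_ifs with h
  · exact h
  · exact Ideal.zero_mem _

theorem exists_sub_gens_mem {y : FF 𝒪} (hy : y ∈ Fr.MM) : ∃ c, y - gens Fr 𝒟 c ∈ Ieps Fr 𝒟 := by
  refine ⟨Ideal.Quotient.mk _ y, ?_⟩
  have h1 : y - Quotient.out (Ideal.Quotient.mk (Ieps Fr 𝒟) y) ∈ Ieps Fr 𝒟 := by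
    rw [← Ideal.Quotient.eq, Ideal.Quotient.mk_out]
  have h2 : Quotient.out (Ideal.Quotient.mk (Ieps Fr 𝒟) y) ∈ Fr.MM := by
    have := Ideal.sub_mem _ hy (Ieps_le_MM h1)
    simpa using this
  unfold gens
  rw [if_pos h2]
  exact h1

/-- The polynomial ring on the generators. -/
abbrev QQ (Fr : Frame 𝒪)
    (𝒟 : ∀ ⦃A : Type⦄ [CommRing A] [IsLocalRing A] [Algebra 𝒪 A], GaloisRepAdic A → Prop) : Type :=
  MvPolynomial (FF 𝒪 ⧸ Ieps Fr 𝒟) 𝒪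

/-- The map from the small polynomial ring to the big one. -/
noncomputable def theta (Fr : Frame 𝒪)
    (𝒟 : ∀ ⦃A : Type⦄ [CommRing A] [IsLocalRing A] [Algebra 𝒪 A], GaloisRepAdic A → Prop) :
    QQ Fr 𝒟 →ₐ[𝒪] FF 𝒪 := MvPolynomial.aeval (gens Fr 𝒟)

/-- The maximal ideal of the small polynomial ring. -/
noncomputable def nn (Fr : Frame 𝒪)
    (𝒟 : ∀ ⦃A : Type⦄ [CommRing A] [IsLocalRing A] [Algebra 𝒪 A], GaloisRepAdic A → Prop) :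
    Ideal (QQ Fr 𝒟) := RingHom.ker ((ev (𝒪 := 𝒪) Fr.rb).comp (theta Fr 𝒟))

theorem mem_nn_iff (q : QQ Fr 𝒟) : q ∈ nn Fr 𝒟 ↔ theta Fr 𝒟 q ∈ Fr.MM := Iff.rfl

theorem finite_quotient_nn [Finite (ResidueField 𝒪)] : Finite (QQ Fr 𝒟 ⧸ nn Fr 𝒟) :=
  Finite.of_injective _ (RingHom.kerLift_injective _)

/-- The composite from the small polynomial ring to a quotient of the big one. -/
noncomputable def fJ (Fr : Frame 𝒪)
    (𝒟 : ∀ ⦃A : Type⦄ [CommRing A] [IsLocalRing A] [Algebra 𝒪 A], GaloisRepAdic A → Prop)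
    (J : Ideal (FF 𝒪)) : QQ Fr 𝒟 →+* FF 𝒪 ⧸ J :=
  (Ideal.Quotient.mk J).comp (theta Fr 𝒟 : QQ Fr 𝒟 →+* FF 𝒪)

theorem map_nn_le {J : Ideal (FF 𝒪)} (h : Adm Fr J) :
    haveI := h.isLocalRing
    (nn Fr 𝒟).map (fJ Fr 𝒟 J) ≤ maximalIdeal (FF 𝒪 ⧸ J) := by
  haveI := h.isLocalRing
  rw [Ideal.map_le_iff_le_comap]
  intro q hq
  exact (h.mk_mem_maximalIdeal_iff _).2 hq

theorem maximalIdeal_le_map_nn (h𝒟 : IsDeformationCondition 𝒪 𝒟) {J : Ideal (FF 𝒪)}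
    (hJ : Good Fr 𝒟 J) :
    haveI := hJ.adm.isLocalRing
    maximalIdeal (FF 𝒪 ⧸ J) ≤ (nn Fr 𝒟).map (fJ Fr 𝒟 J) := by
  have hadm := hJ.adm
  haveI := hadm.isLocalRing
  haveI := hadm.fin
  refine Submodule.le_of_le_smul_of_le_jacobson_bot (I := maximalIdeal (FF 𝒪 ⧸ J))
    (IsNoetherian.noetherian _) (maximalIdeal_le_jacobson _) ?_
  intro b hb
  obtain ⟨y, rfl⟩ := Ideal.Quotient.mk_surjective b
  have hy : y ∈ Fr.MM := (hadm.mk_mem_maximalIdeal_iff y).1 hb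
  obtain ⟨c, hc⟩ := exists_sub_gens_mem (𝒟 := 𝒟) hy
  have h1 := mk_mem_of_mem_Ieps h𝒟 hJ hc
  have h2 : Ideal.Quotient.mk J (gens Fr 𝒟 c) ∈ (nn Fr 𝒟).map (fJ Fr 𝒟 J) := by
    have : Ideal.Quotient.mk J (gens Fr 𝒟 c) = fJ Fr 𝒟 J (MvPolynomial.X c) := by
      simp [fJ, theta]
    rw [this]
    apply Ideal.mem_map_of_mem
    rw [mem_nn_iff]
    simpa [theta] using gens_mem_MM c
  have h3 : (maximalIdeal 𝒪).map (algebraMap 𝒪 (FF 𝒪 ⧸ J)) ≤ (nn Fr 𝒟).map (fJ Fr 𝒟 J) := by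
    rw [Ideal.map_le_iff_le_comap]
    intro a ha
    have : algebraMap 𝒪 (FF 𝒪 ⧸ J) a = fJ Fr 𝒟 J (MvPolynomial.C a) := by
      simp [fJ, theta]; rfl
    rw [Ideal.mem_comap, this]
    apply Ideal.mem_map_of_mem
    rw [mem_nn_iff]
    have h4 : theta Fr 𝒟 (MvPolynomial.C a) = algebraMap 𝒪 (FF 𝒪) a := by simp [theta]
    rw [h4]
    exact (Adm.algebraMap_mem_MM_iff Fr a).2 ha
  have h4 : Ideal.Quotient.mk J y =
      Ideal.Quotient.mk J (gens Fr 𝒟 c) + Ideal.Quotient.mk J (y - gens Fr 𝒟 c) := by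
    rw [← map_add]; congr 1; ring
  rw [h4]
  have h5 : maximalIdeal (FF 𝒪 ⧸ J) ^ 2 ⊔ (maximalIdeal 𝒪).map (algebraMap 𝒪 (FF 𝒪 ⧸ J)) ≤
      (nn Fr 𝒟).map (fJ Fr 𝒟 J) ⊔ maximalIdeal (FF 𝒪 ⧸ J) • maximalIdeal (FF 𝒪 ⧸ J) := by
    rw [smul_eq_mul, ← pow_two]
    exact sup_le le_sup_right (h3.trans le_sup_left)
  exact Ideal.add_mem _ (le_sup_left (a := (nn Fr 𝒟).map (fJ Fr 𝒟 J)) h2) (h5 h1)

theorem Adm.maximalIdeal_pow_eq_bot {J : Ideal (FF 𝒪)} (h : Adm Fr J) {n : ℕ}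
    (hn : Fr.MM ^ n ≤ J) :
    haveI := h.isLocalRing
    maximalIdeal (FF 𝒪 ⧸ J) ^ n = ⊥ := by
  haveI := h.isLocalRing
  have h1 : maximalIdeal (FF 𝒪 ⧸ J) = Fr.MM.map (Ideal.Quotient.mk J) := by
    ext b
    obtain ⟨y, rfl⟩ := Ideal.Quotient.mk_surjective b
    rw [h.mk_mem_maximalIdeal_iff]
    constructor
    · exact fun hy => Ideal.mem_map_of_mem _ hy
    · intro hy
      obtain ⟨z, hz, hzy⟩ := (Ideal.mem_map_iff_of_surjective _ Ideal.Quotient.mk_surjective).1 hy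
      have := Ideal.sub_mem _ hz (h.le (Ideal.Quotient.eq.1 hzy))
      simpa using this
  rw [h1, ← Ideal.map_pow, Ideal.map_eq_bot_iff_le_ker, Ideal.mk_ker]
  exact hn

theorem surjective_fJ (h𝒟 : IsDeformationCondition 𝒪 𝒟) {J : Ideal (FF 𝒪)}
    (hJ : Good Fr 𝒟 J) : Function.Surjective (fJ Fr 𝒟 J) := by
  have hadm := hJ.adm
  haveI := hadm.isLocalRing
  obtain ⟨n, hn⟩ := hadm.pow_le
  refine surjective_of_nilpotent (fJ Fr 𝒟 J) (nn Fr 𝒟) n ?_ ?_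
  · rw [← le_bot_iff, ← hadm.maximalIdeal_pow_eq_bot hn]
    exact Ideal.pow_right_mono (map_nn_le hadm) n
  · intro b
    obtain ⟨y, rfl⟩ := Ideal.Quotient.mk_surjective b
    obtain ⟨c, hc⟩ := Adm.exists_sub_mem_MM Fr y
    refine ⟨MvPolynomial.C c, maximalIdeal_le_map_nn h𝒟 hJ ?_⟩
    have : fJ Fr 𝒟 J (MvPolynomial.C c) = Ideal.Quotient.mk J (algebraMap 𝒪 (FF 𝒪) c) := by
      simp [fJ, theta]
    rw [this, ← map_sub]
    exact (hadm.mk_mem_maximalIdeal_iff _).2 hc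

theorem card_quotient_le [Finite (ResidueField 𝒪)] [IsNoetherianRing 𝒪]
    (h𝒟 : IsDeformationCondition 𝒪 𝒟) (hI : Finite (FF 𝒪 ⧸ Ieps Fr 𝒟)) {J : Ideal (FF 𝒪)}
    (hJ : Good Fr 𝒟 J) {n : ℕ} (hn : Fr.MM ^ n ≤ J) :
    Nat.card (FF 𝒪 ⧸ J) ≤ Nat.card (QQ Fr 𝒟 ⧸ nn Fr 𝒟 ^ n) := by
  have hadm := hJ.adm
  haveI := hadm.isLocalRing
  haveI := finite_quotient_nn (Fr := Fr) (𝒟 := 𝒟)
  haveI : Finite (QQ Fr 𝒟 ⧸ nn Fr 𝒟 ^ n) :=
    Ideal.finite_quotient_pow (IsNoetherian.noetherian _) n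
  have hker : ∀ q ∈ nn Fr 𝒟 ^ n, fJ Fr 𝒟 J q = 0 := by
    intro q hq
    have h1 : fJ Fr 𝒟 J q ∈ ((nn Fr 𝒟).map (fJ Fr 𝒟 J)) ^ n := by
      rw [← Ideal.map_pow]; exact Ideal.mem_map_of_mem _ hq
    have h2 := Ideal.pow_right_mono (map_nn_le (𝒟 := 𝒟) hadm) n h1
    rw [hadm.maximalIdeal_pow_eq_bot hn] at h2
    exact h2
  refine Nat.card_le_card_of_surjective (Ideal.Quotient.lift _ (fJ Fr 𝒟 J) hker) ?_
  exact Ideal.Quotient.lift_surjective_of_surjective _ _ (surjective_fJ h𝒟 hJ)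

end Fermat.Agent.S53
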