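import Fermat.Agent.S53.InD

set_option autoImplicit false

namespace Fermat.Agent.S53

open IsLocalRing GaloisRep

variable {𝒪 : Type} [CommRing 𝒪] [IsLocalRing 𝒪]

/-- The tautological matrices modulo `J`. -/
noncomputable def tautQ (J : Ideal (FF 𝒪)) : Gal → M2 (FF 𝒪 ⧸ J) :=
  fun σ => (taut 𝒪 σ).map (Ideal.Quotient.mk J)

/-- Good ideals. -/
def Good (Fr : Frame 𝒪)
    (𝒟 : ∀ ⦃A : Type⦄ [CommRing A] [IsLocalRing A] [Algebra 𝒪 A], GaloisRepAdic A → Prop)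
    (J : Ideal (FF 𝒪)) : Prop :=
  ∃ h : Adm Fr J, haveI := h.isLocalRing; InD Fr 𝒟 (tautQ J)

variable {Fr : Frame 𝒪}
  {𝒟 : ∀ ⦃A : Type⦄ [CommRing A] [IsLocalRing A] [Algebra 𝒪 A], GaloisRepAdic A → Prop}

omit [IsLocalRing 𝒪] in
theorem tautQ_map_factor {J J' : Ideal (FF 𝒪)} (h : J ≤ J') (σ : Gal) :
    (tautQ J σ).map (Ideal.Quotient.factorₐ 𝒪 h) = tautQ J' σ := by
  ext i j
  simp [tautQ]

omit [IsLocalRing 𝒪] in
theorem tautQ_map_kerLift {A : Type} [CommRing A] [Algebra 𝒪 A] (r : Gal → M2 A) (σ : Gal) :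
    (tautQ (RingHom.ker (ev (𝒪 := 𝒪) r)) σ).map (Ideal.kerLiftAlg (ev (𝒪 := 𝒪) r)) = r σ := by
  ext i j
  simp only [tautQ, Matrix.map_apply]
  have := congrFun (congrFun (ev_taut (𝒪 := 𝒪) r σ) i) j
  simp only [Matrix.map_apply] at this
  rw [← this]
  rfl

theorem Good.adm {J : Ideal (FF 𝒪)} (h : Good Fr 𝒟 J) : Adm Fr J := h.1

/-- E1: kernels of evaluations at rigid lifts of type `𝒟` are good. -/
theorem good_ker_ev [Finite (ResidueField 𝒪)] (h𝒟 : IsDeformationCondition 𝒪 𝒟)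
    {A : Type} [CommRing A] [IsLocalRing A] [Algebra 𝒪 A]
    (hA : IsArtinianTestAlgebra 𝒪 A) {r : Gal → M2 A} (hr : InD Fr 𝒟 r) :
    Good Fr 𝒟 (RingHom.ker (ev (𝒪 := 𝒪) r)) := by
  have := hA.isLocalHom
  have hadm : Adm Fr (RingHom.ker (ev (𝒪 := 𝒪) r)) := by
    refine ⟨?_, ?_, ?_⟩
    · intro x hx
      rw [mem_MM_iff Fr hr.1, (RingHom.mem_ker).1 hx]
      exact Ideal.zero_mem _
    · obtain ⟨n, hn⟩ := testAlg_exists_pow_eq_bot hA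
      refine ⟨n, ?_⟩
      have h1 : Fr.MM ≤ (maximalIdeal A).comap (ev (𝒪 := 𝒪) r) := fun x hx =>
        (mem_MM_iff Fr hr.1 x).1 hx
      have h2 : Fr.MM ^ n ≤ (maximalIdeal A ^ n).comap (ev (𝒪 := 𝒪) r) :=
        (Ideal.pow_right_mono h1 n).trans (Ideal.le_comap_pow _ n)
      intro x hx
      have := h2 hx
      rw [hn] at this
      exact this
    · have := testAlg_finite hA
      exact Finite.of_injective _ (Ideal.kerLiftAlg_injective (ev (𝒪 := 𝒪) r))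
  refine ⟨hadm, ?_⟩
  haveI := hadm.isLocalRing
  apply InD.of_injective h𝒟 hadm.test hA (Ideal.kerLiftAlg (ev (𝒪 := 𝒪) r))
    (Ideal.kerLiftAlg_injective _)
  have : (fun σ => (tautQ (RingHom.ker (ev (𝒪 := 𝒪) r)) σ).map
      (Ideal.kerLiftAlg (ev (𝒪 := 𝒪) r))) = r := funext (tautQ_map_kerLift r)
  rw [this]
  exact hr

/-- E2: ideals between a good ideal and `MM` are good. -/
theorem Good.of_le (h𝒟 : IsDeformationCondition 𝒪 𝒟) {J J' : Ideal (FF 𝒪)} (h : Good Fr 𝒟 J)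
    (h1 : J ≤ J') (h2 : J' ≤ Fr.MM) : Good Fr 𝒟 J' := by
  obtain ⟨hadm, hJ⟩ := h
  have hadm' := hadm.of_le h1 h2
  refine ⟨hadm', ?_⟩
  haveI := hadm.isLocalRing
  haveI := hadm'.isLocalRing
  have := InD.map h𝒟 hadm.test hadm'.test (Ideal.Quotient.factorₐ 𝒪 h1) hJ
  have e : (fun σ => (tautQ J σ).map (Ideal.Quotient.factorₐ 𝒪 h1)) = tautQ J' :=
    funext (tautQ_map_factor h1)
  rwa [e] at this

theorem tautQ_isStrict {J : Ideal (FF 𝒪)} (h : Adm Fr J) :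
    haveI := h.isLocalRing
    IsStrict Fr (tautQ J) := by
  haveI := h.isLocalRing
  intro σ i j
  have : tautQ J σ i j - algebraMap 𝒪 (FF 𝒪 ⧸ J) (Fr.rt σ i j) =
      Ideal.Quotient.mk J (MvPolynomial.X (σ, i, j) - algebraMap 𝒪 (FF 𝒪) (Fr.rt σ i j)) := by
    simp [tautQ, taut]; rfl
  rw [this, h.mk_mem_maximalIdeal_iff, Frame.MM, RingHom.mem_ker, map_sub, AlgHom.commutes]
  simp [ev, Frame.rb]

/-- E3: intersections of good ideals are good. -/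
theorem Good.inf (h𝒟 : IsDeformationCondition 𝒪 𝒟) {J₁ J₂ : Ideal (FF 𝒪)}
    (h₁ : Good Fr 𝒟 J₁) (h₂ : Good Fr 𝒟 J₂) : Good Fr 𝒟 (J₁ ⊓ J₂) := by
  obtain ⟨a₁, s₁, g₁, ρ₁, d₁, m₁⟩ := h₁
  obtain ⟨a₂, s₂, g₂, ρ₂, d₂, m₂⟩ := h₂
  have aP := a₁.inf a₂
  have aC : Adm Fr (J₁ ⊔ J₂) := a₁.of_le le_sup_left (sup_le a₁.le a₂.le)
  refine ⟨aP, ?_⟩
  haveI := a₁.isLocalRing
  haveI := a₂.isLocalRing
  haveI := aP.isLocalRing
  haveI := aC.isLocalRing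
  let pA : (FF 𝒪 ⧸ J₁ ⊓ J₂) →ₐ[𝒪] (FF 𝒪 ⧸ J₁) := Ideal.Quotient.factorₐ 𝒪 inf_le_left
  let pB : (FF 𝒪 ⧸ J₁ ⊓ J₂) →ₐ[𝒪] (FF 𝒪 ⧸ J₂) := Ideal.Quotient.factorₐ 𝒪 inf_le_right
  let f : (FF 𝒪 ⧸ J₁) →ₐ[𝒪] (FF 𝒪 ⧸ J₁ ⊔ J₂) := Ideal.Quotient.factorₐ 𝒪 le_sup_left
  let g : (FF 𝒪 ⧸ J₂) →ₐ[𝒪] (FF 𝒪 ⧸ J₁ ⊔ J₂) := Ideal.Quotient.factorₐ 𝒪 le_sup_right
  have hpA := isLocalHom_of_algHom a₁.test.residue_surjective pA
  have hpB := isLocalHom_of_algHom a₂.test.residue_surjective pB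
  have eA : (fun σ => (tautQ (J₁ ⊓ J₂) σ).map pA) = tautQ J₁ := funext (tautQ_map_factor _)
  have eB : (fun σ => (tautQ (J₁ ⊓ J₂) σ).map pB) = tautQ J₂ := funext (tautQ_map_factor _)
  have hinj : ∀ x, pA x = 0 → pB x = 0 → x = 0 := by
    intro x hx hy
    obtain ⟨x, rfl⟩ := Ideal.Quotient.mk_surjective x
    have hx' : x ∈ J₁ := Ideal.Quotient.eq_zero_iff_mem.1 hx
    have hy' : x ∈ J₂ := Ideal.Quotient.eq_zero_iff_mem.1 hy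
    exact Ideal.Quotient.eq_zero_iff_mem.2 ⟨hx', hy'⟩
  have hrl : RepLike (tautQ (J₁ ⊓ J₂)) := by
    refine RepLike.of_injective₂ (pA : (FF 𝒪 ⧸ J₁ ⊓ J₂) →+* (FF 𝒪 ⧸ J₁))
      (pB : (FF 𝒪 ⧸ J₁ ⊓ J₂) →+* (FF 𝒪 ⧸ J₂)) hinj ?_ ?_
    · have := m₁.repLike (testAlg_exists_pow_eq_bot a₁.test)
      rw [← eA] at this; exact this
    · have := m₂.repLike (testAlg_exists_pow_eq_bot a₂.test)
      rw [← eB] at this; exact this
  obtain ⟨ρ, hρ⟩ := hrl.exists_hasMatrix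
  refine ⟨tautQ_isStrict aP, ?_, ρ, ?_, hρ⟩
  · intro j
    rw [← sub_eq_zero]
    apply hinj
    · rw [map_sub, AlgHom.commutes, sub_eq_zero]
      have := g₁ j
      rw [← eA] at this
      exact this
    · rw [map_sub, AlgHom.commutes, sub_eq_zero]
      have := g₂ j
      rw [← eB] at this
      exact this
  · refine h𝒟.of_fibreProduct a₁.test a₂.test aC.test aP.test f g pA pB hpA hpB ?_ ?_ ?_ ?_ ?_
    · apply AlgHom.ext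
      intro x
      obtain ⟨x, rfl⟩ := Ideal.Quotient.mk_surjective x
      rfl
    · intro x y hxy
      rw [← sub_eq_zero]
      simp only [Prod.mk.injEq] at hxy
      apply hinj
      · rw [map_sub, hxy.1, sub_self]
      · rw [map_sub, hxy.2, sub_self]
    · intro a b hab
      obtain ⟨u, rfl⟩ := Ideal.Quotient.mk_surjective a
      obtain ⟨v, rfl⟩ := Ideal.Quotient.mk_surjective b
      have h1 : u - v ∈ J₁ ⊔ J₂ := Ideal.Quotient.eq.1 hab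
      obtain ⟨j₁, hj₁, j₂, hj₂, hj⟩ := Submodule.mem_sup.1 h1
      refine ⟨Ideal.Quotient.mk _ (u - j₁), ?_, ?_⟩
      · show Ideal.Quotient.mk J₁ (u - j₁) = Ideal.Quotient.mk J₁ u
        rw [Ideal.Quotient.eq]; simpa using J₁.neg_mem hj₁
      · show Ideal.Quotient.mk J₂ (u - j₁) = Ideal.Quotient.mk J₂ v
        rw [Ideal.Quotient.eq]
        have : u - j₁ - v = j₂ := by linear_combination -hj
        rw [this]; exact hj₂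
    · have hm := hρ.baseChangeAlong (pA : (FF 𝒪 ⧸ J₁ ⊓ J₂) →+* (FF 𝒪 ⧸ J₁)) hpA
      have hm' : HasMatrix (ρ.baseChangeAlong (pA : (FF 𝒪 ⧸ J₁ ⊓ J₂) →+* (FF 𝒪 ⧸ J₁)) hpA) (tautQ J₁) := by
        rw [← eA]; exact hm
      exact h𝒟.of_isEquiv a₁.test (m₁.isEquiv hm') d₁
    · have hm := hρ.baseChangeAlong (pB : (FF 𝒪 ⧸ J₁ ⊓ J₂) →+* (FF 𝒪 ⧸ J₂)) hpB
      have hm' : HasMatrix (ρ.baseChangeAlong (pB : (FF 𝒪 ⧸ J₁ ⊓ J₂) →+* (FF 𝒪 ⧸ J₂)) hpB) (tautQ J₂) := by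
        rw [← eB]; exact hm
      exact h𝒟.of_isEquiv a₂.test (m₂.isEquiv hm') d₂

end Fermat.Agent.S53
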