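import Fermat.Agent.S53.MittagLeffler
import Fermat.Prelude.Thm_IsLocalRing_isAdicComplete_of_module_finite

set_option autoImplicit false

namespace Fermat.Agent.S53

open IsLocalRing

theorem exists_limit_of_tower
    (C : Type) [CommRing C] [IsLocalRing C] [IsNoetherianRing C]
    [IsAdicComplete (maximalIdeal C) C]
    (F : Type) [CommRing F] (I : ℕ → Ideal F) (h2 : ∀ n, I (n + 1) ≤ I n) (hI1 : I 1 ≠ ⊤)
    (ψ : ∀ n, C →+* F ⧸ I n) (hψs : ∀ n, Function.Surjective (ψ n))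
    (hcompat : ∀ n, (Ideal.Quotient.factor (h2 n)).comp (ψ (n + 1)) = ψ n)
    (ha1 : ∀ n, maximalIdeal C ^ n ≤ RingHom.ker (ψ n))
    (ha3 : ∀ n, RingHom.ker (ψ n) ≤ RingHom.ker (ψ (n + 1)) ⊔ maximalIdeal C ^ n) :
    ∃ (R : Type) (_ : CommRing R) (_ : IsLocalRing R) (_ : IsNoetherianRing R)
      (_ : IsAdicComplete (maximalIdeal R) R) (e : F →+* R),
      (∀ n, (maximalIdeal R ^ n).comap e = I n) ∧
      (∀ n, Function.Surjective (Ideal.Quotient.mk (maximalIdeal R ^ n) ∘ e)) := by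
  classical
  set a : ℕ → Ideal C := fun n => RingHom.ker (ψ n) with ha
  have ha2 : ∀ n, a (n + 1) ≤ a n := by
    intro n c hc
    simp only [ha, RingHom.mem_ker] at hc ⊢
    rw [← hcompat n, RingHom.comp_apply, hc, map_zero]
  set 𝔞 : Ideal C := ⨅ n, a n with h𝔞
  have hne : 𝔞 ≠ ⊤ := by
    intro h
    have h1 : a 1 = ⊤ := top_le_iff.mp (h ▸ iInf_le a 1)
    have : Nontrivial (F ⧸ I 1) := Ideal.Quotient.nontrivial_iff.mpr hI1
    exact RingHom.ker_ne_top (ψ 1) h1
  have hnt : Nontrivial (C ⧸ 𝔞) := Ideal.Quotient.nontrivial_iff.mpr hne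
  have hloc : IsLocalRing (C ⧸ 𝔞) :=
    IsLocalRing.of_surjective' (Ideal.Quotient.mk 𝔞) Ideal.Quotient.mk_surjective
  have hlh : IsLocalHom (algebraMap C (C ⧸ 𝔞)) :=
    IsLocalHom.of_surjective (Ideal.Quotient.mk 𝔞) Ideal.Quotient.mk_surjective
  have hcomplete : IsAdicComplete (maximalIdeal (C ⧸ 𝔞)) (C ⧸ 𝔞) :=
    IsLocalRing.isAdicComplete_of_module_finite (𝒪 := C)
  have hmax : maximalIdeal (C ⧸ 𝔞) = (maximalIdeal C).map (Ideal.Quotient.mk 𝔞) :=
    (IsLocalRing.map_maximalIdeal_of_surjective _ Ideal.Quotient.mk_surjective).symm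
  -- the maps to the tower
  let ψb : ∀ n, (C ⧸ 𝔞) →+* F ⧸ I n := fun n =>
    Ideal.Quotient.lift 𝔞 (ψ n) (fun c hc => (iInf_le a n) hc)
  have hψb : ∀ n c, ψb n (Ideal.Quotient.mk 𝔞 c) = ψ n c := fun n c => rfl
  have hker : ∀ n (r : C ⧸ 𝔞), ψb n r = 0 ↔ r ∈ maximalIdeal (C ⧸ 𝔞) ^ n := by
    intro n r
    obtain ⟨c, rfl⟩ := Ideal.Quotient.mk_surjective r
    rw [hψb, hmax, ← Ideal.map_pow, ← Ideal.mem_comap,
      Ideal.comap_map_of_surjective _ Ideal.Quotient.mk_surjective, ← RingHom.ker_eq_comap_bot,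
      Ideal.mk_ker]
    constructor
    · intro h
      have := ml_le_iInf_sup (maximalIdeal C) a ha1 ha2 ha3 n (show c ∈ a n from h)
      rwa [sup_comm] at this
    · intro h
      exact (sup_le (ha1 n) (iInf_le a n)) h
  have hinj : ∀ r r' : C ⧸ 𝔞, (∀ n, ψb n r = ψb n r') → r = r' := by
    intro r r' h
    obtain ⟨c, rfl⟩ := Ideal.Quotient.mk_surjective r
    obtain ⟨c', rfl⟩ := Ideal.Quotient.mk_surjective r'
    rw [Ideal.Quotient.eq, h𝔞, Submodule.mem_iInf]
    intro n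
    have := h n
    rw [hψb, hψb, ← sub_eq_zero, ← map_sub] at this
    exact this
  have hlift : ∀ f : F, ∃ r : C ⧸ 𝔞, ∀ n, ψb n r = Ideal.Quotient.mk (I n) f := by
    intro f
    choose w hw using fun n => hψs n (Ideal.Quotient.mk (I n) f)
    obtain ⟨c, hc⟩ := ml_exists_lift (maximalIdeal C) a ha1 ha3 w (by
      intro m
      simp only [ha, RingHom.mem_ker, map_sub, hw]
      rw [← hcompat m, RingHom.comp_apply, hw, Ideal.Quotient.factor_mk, sub_self])
    refine ⟨Ideal.Quotient.mk 𝔞 c, fun n => ?_⟩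
    have := hc n
    simp only [ha, RingHom.mem_ker, map_sub, hw, sub_eq_zero] at this
    rw [hψb, this]
  choose e he using hlift
  let eh : F →+* C ⧸ 𝔞 :=
    { toFun := e
      map_one' := hinj _ _ fun n => by rw [he, map_one, map_one]
      map_mul' := fun x y => hinj _ _ fun n => by rw [he, map_mul, map_mul, he, he]
      map_zero' := hinj _ _ fun n => by rw [he, map_zero, map_zero]
      map_add' := fun x y => hinj _ _ fun n => by rw [he, map_add, map_add, he, he] }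
  refine ⟨C ⧸ 𝔞, inferInstance, hloc, inferInstance, hcomplete, eh, fun n => ?_, fun n => ?_⟩
  · ext f
    rw [Ideal.mem_comap, ← hker]
    change ψb n (e f) = 0 ↔ _
    rw [he, Ideal.Quotient.eq_zero_iff_mem]
  · intro y
    obtain ⟨r, rfl⟩ := Ideal.Quotient.mk_surjective y
    obtain ⟨f, hf⟩ := Ideal.Quotient.mk_surjective (ψb n r)
    refine ⟨f, ?_⟩
    change Ideal.Quotient.mk _ (e f) = _
    rw [Ideal.Quotient.eq, ← hker, map_sub, he, hf, sub_self]

end Fermat.Agent.S53
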