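import Fermat.Agent.S53.CommAlgNoeth
import Fermat.Agent.S53.Tower

set_option autoImplicit false
set_option linter.style.haveILetI false

namespace Fermat.Agent.S53

open IsLocalRing

section aux

variable {B : Type*} [CommRing B] (J : Ideal B)

lemma mem_map_pow_of_evalₐ_eq_zero (hfg : J.FG) (n : ℕ) (x : AdicCompletion J B)
    (hx : AdicCompletion.evalₐ J n x = 0) :
    x ∈ (J.map (algebraMap B (AdicCompletion J B))) ^ n := by
  have h1 : AdicCompletion.eval J B n x = 0 := by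
    rw [← AdicCompletion.factor_evalₐ_eq_eval J x (by simp), hx, map_zero]
  have h2 : x ∈ (J ^ n • ⊤ : Submodule B (AdicCompletion J B)) := by
    rw [AdicCompletion.pow_smul_top_eq_ker_eval hfg]
    exact h1
  rw [Ideal.smul_top_eq_map, Submodule.restrictScalars_mem, Ideal.map_pow] at h2
  exact h2

lemma exists_of_sub_mem (hfg : J.FG) (n : ℕ) (x : AdicCompletion J B) :
    ∃ b : B, x - AdicCompletion.of J B b ∈ (J.map (algebraMap B (AdicCompletion J B))) ^ n := by
  obtain ⟨b, hb⟩ := Ideal.Quotient.mk_surjective (AdicCompletion.evalₐ J n x)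
  refine ⟨b, mem_map_pow_of_evalₐ_eq_zero J hfg n _ ?_⟩
  rw [map_sub, AdicCompletion.evalₐ_of, hb, sub_self]

end aux

theorem isNoetherianRing_adicCompletion {A : Type} [CommRing A] [IsNoetherianRing A]
    (I : Ideal A) : IsNoetherianRing (AdicCompletion I A) := by
  have hfg : I.FG := IsNoetherian.noetherian I
  obtain ⟨s, a, ha⟩ := Submodule.fg_iff_exists_fin_generating_family.mp hfg
  have hspan : Ideal.span (Set.range fun i => algebraMap A (AdicCompletion I A) (a i)) =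
      I.map (algebraMap A (AdicCompletion I A)) := by
    rw [← ha]
    change _ = Ideal.map _ (Ideal.span (Set.range a))
    rw [Ideal.map_span, ← Set.range_comp]
    rfl
  have hc : IsAdicComplete (Ideal.span (Set.range fun i => algebraMap A (AdicCompletion I A) (a i)))
      (AdicCompletion I A) := by
    rw [hspan]
    exact AdicCompletion.isAdicComplete_self I hfg
  refine isNoetherianRing_of_isAdicComplete (A := A)
    (fun i => algebraMap A (AdicCompletion I A) (a i)) ?_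
  rw [hspan]
  intro y
  obtain ⟨x, rfl⟩ := Ideal.Quotient.mk_surjective y
  obtain ⟨c, hc⟩ := exists_of_sub_mem I hfg 1 x
  refine ⟨c, ?_⟩
  rw [pow_one] at hc
  rw [RingHom.comp_apply, eq_comm, Ideal.Quotient.eq]
  exact hc

section level

variable {B F : Type*} [CommRing B] [CommRing F] (J : Ideal B) (I : ℕ → Ideal F)
  (g : B →+* F) (hle : ∀ n, J ^ n ≤ (I n).comap g)

/-- the level `n` map `Ĵ B → F / I n`. -/
noncomputable def towerLevel (n : ℕ) : AdicCompletion J B →+* F ⧸ I n :=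
  (Ideal.quotientMap (I n) g (hle n)).comp (AdicCompletion.evalₐ J n).toRingHom

lemma towerLevel_of (n : ℕ) (b : B) :
    towerLevel J I g hle n (AdicCompletion.of J B b) = Ideal.Quotient.mk (I n) (g b) := by
  simp [towerLevel]

lemma towerLevel_compat (h2 : ∀ n, I (n + 1) ≤ I n) (n : ℕ) :
    (Ideal.Quotient.factor (h2 n)).comp (towerLevel J I g hle (n + 1)) =
      towerLevel J I g hle n := by
  ext x
  obtain ⟨x, rfl⟩ := AdicCompletion.mk_surjective J B x
  simp only [towerLevel, RingHom.comp_apply, AlgHom.toRingHom_eq_coe, RingHom.coe_coe,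
    AdicCompletion.evalₐ_mk, Ideal.quotientMap_mk, Ideal.Quotient.factor_mk]
  rw [Ideal.Quotient.eq, ← map_sub]
  apply hle n
  have := x.2 (Nat.le_succ n)
  rw [SModEq.sub_mem] at this
  have h2 : x n - x (n + 1) ∈ J ^ n := by simpa using this
  rw [← neg_sub]
  exact neg_mem h2

lemma map_pow_le_ker_towerLevel (n : ℕ) :
    (J.map (algebraMap B (AdicCompletion J B))) ^ n ≤ RingHom.ker (towerLevel J I g hle n) := by
  rw [← Ideal.map_pow, Ideal.map_le_iff_le_comap]
  intro b hb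
  rw [Ideal.mem_comap, RingHom.mem_ker]
  change towerLevel J I g hle n (AdicCompletion.of J B b) = 0
  rw [towerLevel_of, Ideal.Quotient.eq_zero_iff_mem]
  exact hle n hb

end level

theorem exists_limit_ring
    (𝒪 : Type) [CommRing 𝒪] [IsLocalRing 𝒪] [IsNoetherianRing 𝒪]
    (F : Type) [CommRing F] [Algebra 𝒪 F] (𝔐 : Ideal F) [𝔐.IsMaximal]
    (h𝔐 : Function.Surjective (Ideal.Quotient.mk 𝔐 ∘ algebraMap 𝒪 F))
    (hloc : (maximalIdeal 𝒪).map (algebraMap 𝒪 F) ≤ 𝔐)
    (ι : Type) [Finite ι] (x : ι → F) (hx : ∀ i, x i ∈ 𝔐)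
    (I : ℕ → Ideal F)
    (h1 : ∀ n, 𝔐 ^ n ≤ I n) (h2 : ∀ n, I (n + 1) ≤ I n) (h3 : ∀ n, I n ≤ I (n + 1) ⊔ 𝔐 ^ n)
    (h4 : ∀ n, Function.Surjective (Ideal.Quotient.mk (I n) ∘ MvPolynomial.aeval (R := 𝒪) x))
    (h5 : I 1 = 𝔐) :
    ∃ (R : Type) (_ : CommRing R) (_ : IsLocalRing R) (_ : IsNoetherianRing R)
      (_ : IsAdicComplete (maximalIdeal R) R) (_ : Algebra 𝒪 R) (e : F →ₐ[𝒪] R),
      (∀ n, (maximalIdeal R ^ n).comap e = I n) ∧
      (∀ n, Function.Surjective (Ideal.Quotient.mk (maximalIdeal R ^ n) ∘ e)) := by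
  classical
  let g : MvPolynomial ι 𝒪 →+* F := (MvPolynomial.aeval (R := 𝒪) x : MvPolynomial ι 𝒪 →ₐ[𝒪] F)
  have hg : ∀ q, g q = MvPolynomial.aeval (R := 𝒪) x q := fun _ => rfl
  let 𝔫 : Ideal (MvPolynomial ι 𝒪) := 𝔐.comap g
  have hsurj1 : Function.Surjective ((Ideal.Quotient.mk 𝔐).comp g) := by
    intro y
    obtain ⟨c, hc⟩ := h𝔐 y
    exact ⟨MvPolynomial.C c, by simpa [g] using hc⟩
  have h𝔫max : 𝔫.IsMaximal := by
    have : 𝔫 = RingHom.ker ((Ideal.Quotient.mk 𝔐).comp g) := by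
      rw [RingHom.ker_eq_comap_bot, ← Ideal.comap_comap, ← RingHom.ker_eq_comap_bot, Ideal.mk_ker]
    rw [this]
    letI : Field (F ⧸ 𝔐) := Ideal.Quotient.field 𝔐
    exact RingHom.ker_isMaximal_of_surjective _ hsurj1
  have hfg : 𝔫.FG := IsNoetherian.noetherian 𝔫
  have hle : ∀ n, 𝔫 ^ n ≤ (I n).comap g := by
    intro n
    refine le_trans ?_ (Ideal.comap_mono (h1 n))
    rw [← Ideal.map_le_iff_le_comap, Ideal.map_pow]
    exact Ideal.pow_right_mono Ideal.map_comap_le n
  have hmaxC := AdicCompletion.isMaximal_map_of_le 𝔫 𝔫 le_rfl hfg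
  have hcomplC := AdicCompletion.isAdicComplete_self 𝔫 hfg
  have hlocC : IsLocalRing (AdicCompletion 𝔫 (MvPolynomial ι 𝒪)) :=
    isLocalRing_of_isAdicComplete_maximal
      (𝔫.map (algebraMap (MvPolynomial ι 𝒪) (AdicCompletion 𝔫 (MvPolynomial ι 𝒪))))
  have hmC : maximalIdeal (AdicCompletion 𝔫 (MvPolynomial ι 𝒪)) =
      𝔫.map (algebraMap (MvPolynomial ι 𝒪) (AdicCompletion 𝔫 (MvPolynomial ι 𝒪))) :=
    (IsLocalRing.eq_maximalIdeal hmaxC).symm
  have hnoeC : IsNoetherianRing (AdicCompletion 𝔫 (MvPolynomial ι 𝒪)) :=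
    isNoetherianRing_adicCompletion 𝔫
  have hcomplC' : IsAdicComplete (maximalIdeal (AdicCompletion 𝔫 (MvPolynomial ι 𝒪)))
      (AdicCompletion 𝔫 (MvPolynomial ι 𝒪)) := by rw [hmC]; exact hcomplC
  have hI1 : I 1 ≠ ⊤ := by rw [h5]; exact Ideal.IsMaximal.ne_top inferInstance
  have hanti : Antitone I := antitone_nat_of_succ_le h2
  obtain ⟨R, i1, i2, i3, i4, e, he1, he2⟩ := exists_limit_of_tower
    (AdicCompletion 𝔫 (MvPolynomial ι 𝒪)) F I h2 hI1 (towerLevel 𝔫 I g hle)
    (by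
      intro n y
      obtain ⟨q, hq⟩ := h4 n y
      exact ⟨AdicCompletion.of 𝔫 _ q, by rw [towerLevel_of]; exact hq⟩)
    (towerLevel_compat 𝔫 I g hle h2)
    (by
      intro n
      rw [hmC]
      exact map_pow_le_ker_towerLevel 𝔫 I g hle n)
    (by
      intro n c hc
      rw [hmC]
      obtain ⟨q, hq⟩ := exists_of_sub_mem 𝔫 hfg (n + 1) c
      have hq' : c - AdicCompletion.of 𝔫 _ q ∈ RingHom.ker (towerLevel 𝔫 I g hle n) :=
        map_pow_le_ker_towerLevel 𝔫 I g hle n (Ideal.pow_le_pow_right (Nat.le_succ n) hq)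
      have hgq : g q ∈ I n := by
        have h : AdicCompletion.of 𝔫 _ q ∈ RingHom.ker (towerLevel 𝔫 I g hle n) := by
          have := sub_mem hc hq'
          simpa using this
        rw [RingHom.mem_ker, towerLevel_of, Ideal.Quotient.eq_zero_iff_mem] at h
        exact h
      obtain ⟨u, hu, v, hv, huv⟩ := Submodule.mem_sup.mp (h3 n hgq)
      -- lift `v` to `𝔫 ^ n` modulo `I (n + 1)`
      have hsurj : Function.Surjective ((Ideal.Quotient.mk (I (n + 1))).comp g) := h4 (n + 1)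
      have hI𝔐 : I (n + 1) ≤ 𝔐 := h5 ▸ hanti (by omega)
      have h𝔫eq : 𝔫 = (𝔐.map (Ideal.Quotient.mk (I (n + 1)))).comap
          ((Ideal.Quotient.mk (I (n + 1))).comp g) := by
        rw [← Ideal.comap_comap, Ideal.comap_map_of_surjective _ Ideal.Quotient.mk_surjective,
          ← RingHom.ker_eq_comap_bot, Ideal.mk_ker, sup_eq_left.mpr hI𝔐]
      have hmap : (𝔫 ^ n).map ((Ideal.Quotient.mk (I (n + 1))).comp g) =
          (𝔐 ^ n).map (Ideal.Quotient.mk (I (n + 1))) := by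
        rw [Ideal.map_pow, Ideal.map_pow]
        congr 1
        conv_lhs => rw [h𝔫eq]
        exact Ideal.map_comap_of_surjective _ hsurj _
      have hv' : Ideal.Quotient.mk (I (n + 1)) v ∈
          (𝔫 ^ n).map ((Ideal.Quotient.mk (I (n + 1))).comp g) := by
        rw [hmap]
        exact Ideal.mem_map_of_mem _ hv
      obtain ⟨v', hv'mem, hv'eq⟩ := (Ideal.mem_map_iff_of_surjective _ hsurj).mp hv'
      have hdecomp : c = ((c - AdicCompletion.of 𝔫 _ q) + AdicCompletion.of 𝔫 _ (q - v')) +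
          AdicCompletion.of 𝔫 _ v' := by
        rw [map_sub]; ring
      rw [hdecomp]
      refine Submodule.add_mem_sup (add_mem ?_ ?_) ?_
      · exact map_pow_le_ker_towerLevel 𝔫 I g hle (n + 1) hq
      · rw [RingHom.mem_ker, towerLevel_of, map_sub, map_sub, sub_eq_zero]
        rw [RingHom.comp_apply] at hv'eq
        rw [hv'eq, ← huv, map_add, Ideal.Quotient.eq_zero_iff_mem.mpr hu, zero_add]
      · rw [← Ideal.map_pow]
        exact Ideal.mem_map_of_mem _ hv'mem)
  letI : Algebra 𝒪 R := (e.comp (algebraMap 𝒪 F)).toAlgebra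
  exact ⟨R, i1, i2, i3, i4, inferInstance, { e with commutes' := fun _ => rfl }, he1, he2⟩

end Fermat.Agent.S53
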