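import Fermat.Agent.S53.Defs

set_option autoImplicit false

namespace Fermat.Agent.S53

open IsLocalRing Matrix

namespace Rigid

section General

variable {A : Type} [CommRing A]

/-- all entries in the ideal `I` -/
def InI (I : Ideal A) (X : M2 A) : Prop := ∀ i j, X i j ∈ I

theorem InI.add {I : Ideal A} {X Y : M2 A} (hX : InI I X) (hY : InI I Y) : InI I (X + Y) :=
  fun i j => I.add_mem (hX i j) (hY i j)

theorem InI.sub {I : Ideal A} {X Y : M2 A} (hX : InI I X) (hY : InI I Y) : InI I (X - Y) :=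
  fun i j => I.sub_mem (hX i j) (hY i j)

theorem InI.neg {I : Ideal A} {X : M2 A} (hX : InI I X) : InI I (-X) :=
  fun i j => I.neg_mem (hX i j)

theorem InI.zero (I : Ideal A) : InI I (0 : M2 A) := fun _ _ => I.zero_mem

theorem InI.mono {I J : Ideal A} (h : I ≤ J) {X : M2 A} (hX : InI I X) : InI J X :=
  fun i j => h (hX i j)

theorem InI.mul_right {I : Ideal A} {X : M2 A} (hX : InI I X) (Y : M2 A) : InI I (X * Y) := by
  intro i j
  rw [Matrix.mul_apply]
  exact I.sum_mem fun k _ => I.mul_mem_right _ (hX i k)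

theorem InI.mul_left {I : Ideal A} {X : M2 A} (hX : InI I X) (Y : M2 A) : InI I (Y * X) := by
  intro i j
  rw [Matrix.mul_apply]
  exact I.sum_mem fun k _ => I.mul_mem_left _ (hX k j)

theorem InI.mul {I J : Ideal A} {X Y : M2 A} (hX : InI I X) (hY : InI J Y) :
    InI (I * J) (X * Y) := by
  intro i j
  rw [Matrix.mul_apply]
  exact (I * J).sum_mem fun k _ => Ideal.mul_mem_mul (hX i k) (hY k j)

theorem mem_of_mulVec_mem {I : Ideal A} (T : Matrix (Fin 3) (Fin 3) A) (hT : IsUnit T.det)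
    (v : Fin 3 → A) (h : ∀ j, (T *ᵥ v) j ∈ I) (i : Fin 3) : v i ∈ I := by
  have h1 : v = T⁻¹ *ᵥ (T *ᵥ v) := by
    rw [Matrix.mulVec_mulVec, Matrix.nonsing_inv_mul _ hT, Matrix.one_mulVec]
  rw [h1]
  simp only [Matrix.mulVec, dotProduct]
  exact I.sum_mem fun k _ => I.mul_mem_left _ (h k)

variable {𝒪 : Type}

theorem comm_apply (Fr : Frame 𝒪) (r : Gal → M2 A) (X : M2 A) (j : Fin 3) :
    (X * r (Fr.g j) - r (Fr.g j) * X) (Fr.a j) (Fr.b j) =
      (Fr.Tmat r *ᵥ ![X 0 0 - X 1 1, X 0 1, X 1 0]) j := by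
  simp only [Frame.Tmat, Matrix.mulVec, dotProduct, Fin.sum_univ_three, Matrix.of_apply, E3]
  generalize r (Fr.g j) = R
  generalize Fr.a j = a
  generalize Fr.b j = b
  fin_cases a <;> fin_cases b <;>
    simp [Matrix.mul_apply, Fin.sum_univ_two, Matrix.vecMul, dotProduct] <;> ring

theorem E3_map {B : Type} [CommRing B] (f : A →+* B) (i : Fin 3) :
    (E3 A i).map f = E3 B i := by
  fin_cases i <;> ext a b <;> fin_cases a <;> fin_cases b <;> simp [E3]

theorem Tmat_map {B : Type} [CommRing B] (f : A →+* B) (Fr : Frame 𝒪) (r : Gal → M2 A) :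
    (Fr.Tmat r).map f = Fr.Tmat (fun σ => (r σ).map f) := by
  ext j i
  simp only [Frame.Tmat, Matrix.map_apply, Matrix.of_apply]
  rw [← E3_map f i, ← Matrix.map_mul, ← Matrix.map_mul, Matrix.sub_apply, Matrix.sub_apply,
    Matrix.map_apply, Matrix.map_apply, map_sub]

end General

section Local

variable {𝒪 : Type} [CommRing 𝒪]
variable {A : Type} [CommRing A] [IsLocalRing A] [Algebra 𝒪 A]

theorem isUnit_det_Tmat (Fr : Frame 𝒪) (hFr : Fr.Nondeg) (r : Gal → M2 A) (hr : IsStrict Fr r) :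
    IsUnit (Fr.Tmat r).det := by
  have h0 : (fun σ => (r σ).map (residue A)) =
      (fun σ => ((Fr.rt σ).map (algebraMap 𝒪 A)).map (residue A)) := by
    funext σ
    ext i j
    simp only [Matrix.map_apply]
    have := (residue_eq_zero_iff _).2 (hr σ i j)
    rwa [map_sub, sub_eq_zero] at this
  have h1 : (Fr.Tmat r).map (residue A) =
      ((Fr.Tmat Fr.rt).map (algebraMap 𝒪 A)).map (residue A) := by
    rw [Tmat_map, Tmat_map, Tmat_map, h0]
  have h2 : residue A (Fr.Tmat r).det = residue A (algebraMap 𝒪 A (Fr.Tmat Fr.rt).det) := by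
    rw [RingHom.map_det, RingHom.map_det, RingHom.map_det]
    exact congrArg Matrix.det h1
  have h3 : IsUnit (residue A (Fr.Tmat r).det) := by
    rw [h2]
    exact (hFr.map (algebraMap 𝒪 A)).map (residue A)
  exact isUnit_of_map_unit (residue A) _ h3

/-- if the three commutator coordinates of `X` lie in `I`, then `X` is scalar modulo `I`. -/
theorem scalar_mod (Fr : Frame 𝒪) (hFr : Fr.Nondeg) (r : Gal → M2 A) (hr : IsStrict Fr r)
    (I : Ideal A) (X : M2 A)
    (h : ∀ j, (X * r (Fr.g j) - r (Fr.g j) * X) (Fr.a j) (Fr.b j) ∈ I) :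
    X 0 0 - X 1 1 ∈ I ∧ X 0 1 ∈ I ∧ X 1 0 ∈ I := by
  have h1 := mem_of_mulVec_mem (I := I) (Fr.Tmat r) (isUnit_det_Tmat Fr hFr r hr)
    ![X 0 0 - X 1 1, X 0 1, X 1 0] (fun j => by rw [← comm_apply]; exact h j)
  exact ⟨h1 0, h1 1, h1 2⟩

theorem eq_zero_of_forall_mem_pow [IsHausdorff (maximalIdeal A) A] (x : A)
    (h : ∀ n : ℕ, x ∈ maximalIdeal A ^ (n + 1)) : x = 0 := by
  apply IsHausdorff.haus (I := maximalIdeal A) inferInstance
  intro n
  rw [SModEq.zero, smul_eq_mul, Ideal.mul_top]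
  exact Ideal.pow_le_pow_right (Nat.le_succ n) (h n)

omit [IsLocalRing A] in
theorem InI_of_entries {I : Ideal A} {X : M2 A} (h00 : X 0 0 ∈ I) (h01 : X 0 1 ∈ I)
    (h10 : X 1 0 ∈ I) (h11 : X 1 1 ∈ I) : InI I X := by
  intro i j
  fin_cases i <;> fin_cases j <;> assumption

theorem strict_sub (Fr : Frame 𝒪) {r r' : Gal → M2 A} (hr : IsStrict Fr r)
    (hr' : IsStrict Fr r') (σ : Gal) : InI (maximalIdeal A) (r' σ - r σ) := by
  intro i j
  have := (maximalIdeal A).sub_mem (hr' σ i j) (hr σ i j)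
  simpa using this

/-- the core of uniqueness, for an intertwiner of the form `1 + X` with `X 1 1 = 0`. -/
theorem unique_core [IsHausdorff (maximalIdeal A) A] (Fr : Frame 𝒪) (hFr : Fr.Nondeg)
    (r r' : Gal → M2 A) (hr : IsStrict Fr r)
    (hc : ∀ j, r' (Fr.g j) (Fr.a j) (Fr.b j) = r (Fr.g j) (Fr.a j) (Fr.b j))
    (X : M2 A) (hX11 : X 1 1 = 0) (hX : InI (maximalIdeal A) X)
    (hN : ∀ σ, r' σ * (1 + X) = (1 + X) * r σ) : X = 0 := by
  have hΔ : ∀ σ, r' σ - r σ = (X * r σ - r σ * X) - (r' σ - r σ) * X := by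
    intro σ
    have := hN σ
    simp only [mul_add, add_mul, mul_one, one_mul] at this
    rw [sub_mul]
    generalize r' σ * X = b at this ⊢
    generalize X * r σ = d at this ⊢
    generalize r σ * X = e at this ⊢
    have h : r' σ = r σ + d - b := eq_sub_of_add_eq this
    rw [h]; abel
  have key : ∀ n : ℕ, InI (maximalIdeal A ^ (n + 1)) X := by
    intro n
    induction n with
    | zero => simpa using hX
    | succ n ih =>
      have h1 : ∀ σ, InI (maximalIdeal A ^ (n + 1)) (r' σ - r σ) := by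
        intro σ
        rw [hΔ σ]
        exact ((ih.mul_right _).sub (ih.mul_left _)).sub (ih.mul_left _)
      have h2 : ∀ σ, InI (maximalIdeal A ^ (n + 1 + 1)) ((r' σ - r σ) * X) := by
        intro σ
        refine InI.mono ?_ ((h1 σ).mul ih)
        rw [← pow_add]
        exact Ideal.pow_le_pow_right (by omega)
      have h3 : ∀ j, (X * r (Fr.g j) - r (Fr.g j) * X) (Fr.a j) (Fr.b j) ∈
          maximalIdeal A ^ (n + 1 + 1) := by
        intro j
        have h4 : X * r (Fr.g j) - r (Fr.g j) * X =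
            (r' (Fr.g j) - r (Fr.g j)) + (r' (Fr.g j) - r (Fr.g j)) * X := by
          have := hΔ (Fr.g j)
          generalize (r' (Fr.g j) - r (Fr.g j)) * X = b at this ⊢
          rw [this]; abel
        rw [h4, Matrix.add_apply, Matrix.sub_apply, hc j, sub_self, zero_add]
        exact h2 _ _ _
      obtain ⟨a1, a2, a3⟩ := scalar_mod Fr hFr r hr _ X h3
      rw [hX11, sub_zero] at a1
      exact InI_of_entries a1 a2 a3 (by rw [hX11]; exact Ideal.zero_mem _)
  ext i j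
  exact eq_zero_of_forall_mem_pow _ (fun n => key n i j)

/-- conjugation of a matrix valued function -/
def cj (M : (M2 A)ˣ) (r : Gal → M2 A) : Gal → M2 A :=
  fun σ => (M : M2 A) * r σ * ((M⁻¹ : (M2 A)ˣ) : M2 A)

omit [IsLocalRing A] in
theorem cj_mul (M : (M2 A)ˣ) (r : Gal → M2 A) (σ : Gal) :
    cj M r σ * (M : M2 A) = (M : M2 A) * r σ := by
  rw [cj, mul_assoc, Units.inv_mul, mul_one]

omit [IsLocalRing A] in
theorem cj_cj (N M : (M2 A)ˣ) (r : Gal → M2 A) : cj N (cj M r) = cj (N * M) r := by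
  funext σ
  simp only [cj, _root_.mul_inv_rev, Units.val_mul, mul_assoc]

theorem isUnit_of_sub_one {X : M2 A} (h : InI (maximalIdeal A) (X - 1)) : IsUnit X := by
  rw [Matrix.isUnit_iff_isUnit_det]
  by_contra hcon
  have h1 : X.det ∈ maximalIdeal A := (mem_maximalIdeal _).2 hcon
  have h00 : X 0 0 - 1 ∈ maximalIdeal A := by simpa using h 0 0
  have h11 : X 1 1 - 1 ∈ maximalIdeal A := by simpa using h 1 1
  have h01 : X 0 1 ∈ maximalIdeal A := by simpa using h 0 1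
  have h2 : (1 : A) ∈ maximalIdeal A := by
    have h3 : (1 : A) = X.det - (X 0 0 - 1) * X 1 1 - (X 1 1 - 1) + X 0 1 * X 1 0 := by
      rw [Matrix.det_fin_two]; ring
    rw [h3]
    exact Ideal.add_mem _ (Ideal.sub_mem _ (Ideal.sub_mem _ h1 (Ideal.mul_mem_right _ _ h00)) h11)
      (Ideal.mul_mem_right _ _ h01)
  exact (Ideal.ne_top_iff_one _).1 (maximalIdeal.isMaximal A).ne_top h2

/-- one Newton step -/
theorem newton_step (Fr : Frame 𝒪) (hFr : Fr.Nondeg) (r : Gal → M2 A) (hr : IsStrict Fr r)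
    (n : ℕ) (h : ∀ j, r (Fr.g j) (Fr.a j) (Fr.b j) -
      algebraMap 𝒪 A (Fr.rt (Fr.g j) (Fr.a j) (Fr.b j)) ∈ maximalIdeal A ^ (n + 1)) :
    ∃ N : (M2 A)ˣ, InI (maximalIdeal A ^ (n + 1)) ((N : M2 A) - 1) ∧ IsStrict Fr (cj N r) ∧
      ∀ j, cj N r (Fr.g j) (Fr.a j) (Fr.b j) -
        algebraMap 𝒪 A (Fr.rt (Fr.g j) (Fr.a j) (Fr.b j)) ∈ maximalIdeal A ^ (n + 1 + 1) := by
  have hT := isUnit_det_Tmat Fr hFr r hr
  set w : Fin 3 → A := fun j => r (Fr.g j) (Fr.a j) (Fr.b j) -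
      algebraMap 𝒪 A (Fr.rt (Fr.g j) (Fr.a j) (Fr.b j)) with hw
  set y : Fin 3 → A := -((Fr.Tmat r)⁻¹ *ᵥ w) with hy
  have hTy : Fr.Tmat r *ᵥ y = -w := by
    rw [hy, Matrix.mulVec_neg, Matrix.mulVec_mulVec, Matrix.mul_nonsing_inv _ hT,
      Matrix.one_mulVec]
  have hyI : ∀ i, y i ∈ maximalIdeal A ^ (n + 1) := by
    apply mem_of_mulVec_mem (Fr.Tmat r) hT
    intro j
    rw [hTy]
    exact Ideal.neg_mem_iff _ |>.2 (h j)
  set Y : M2 A := !![y 0, y 1; y 2, 0] with hY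
  have hYI : InI (maximalIdeal A ^ (n + 1)) Y :=
    InI_of_entries (by simpa [hY] using hyI 0) (by simpa [hY] using hyI 1)
      (by simpa [hY] using hyI 2) (by simp [hY])
  have hle : maximalIdeal A ^ (n + 1) ≤ maximalIdeal A := Ideal.pow_le_self (by omega)
  have hNu : IsUnit (1 + Y) := isUnit_of_sub_one (by simpa using hYI.mono hle)
  obtain ⟨N, hN⟩ := hNu
  have hcomm : ∀ σ, (cj N r σ - r σ) * (1 + Y) = Y * r σ - r σ * Y := by
    intro σ
    rw [sub_mul, ← hN, cj_mul, hN]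
    simp only [mul_add, add_mul, mul_one, one_mul]
    abel
  have hΔI : ∀ σ, InI (maximalIdeal A ^ (n + 1)) (cj N r σ - r σ) := by
    intro σ
    have h1 : cj N r σ - r σ = (Y * r σ - r σ * Y) * ((N⁻¹ : (M2 A)ˣ) : M2 A) := by
      rw [← hcomm σ, ← hN, mul_assoc, Units.mul_inv, mul_one]
    rw [h1]
    exact ((hYI.mul_right _).sub (hYI.mul_left _)).mul_right _
  refine ⟨N, by rw [hN]; simpa using hYI, ?_, ?_⟩
  · intro σ i j
    have h1 : cj N r σ i j - algebraMap 𝒪 A (Fr.rt σ i j) =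
        (cj N r σ - r σ) i j + (r σ i j - algebraMap 𝒪 A (Fr.rt σ i j)) := by
      simp
    rw [h1]
    exact Ideal.add_mem _ (hle (hΔI σ i j)) (hr σ i j)
  · intro j
    have h1 : cj N r (Fr.g j) - r (Fr.g j) =
        (Y * r (Fr.g j) - r (Fr.g j) * Y) - (cj N r (Fr.g j) - r (Fr.g j)) * Y := by
      have := hcomm (Fr.g j)
      rw [mul_add, mul_one] at this
      rw [← this]; abel
    have h2 : (Y * r (Fr.g j) - r (Fr.g j) * Y) (Fr.a j) (Fr.b j) = -w j := by
      have h6 : ![Y 0 0 - Y 1 1, Y 0 1, Y 1 0] = y := by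
        funext i
        fin_cases i <;> simp [hY]
      rw [comm_apply, h6, hTy]
      rfl
    have h3 : cj N r (Fr.g j) (Fr.a j) (Fr.b j) -
        algebraMap 𝒪 A (Fr.rt (Fr.g j) (Fr.a j) (Fr.b j)) =
        -(((cj N r (Fr.g j) - r (Fr.g j)) * Y) (Fr.a j) (Fr.b j)) := by
      have h4 := congrFun (congrFun h1 (Fr.a j)) (Fr.b j)
      rw [Matrix.sub_apply, Matrix.sub_apply _ ((cj N r (Fr.g j) - r (Fr.g j)) * Y), h2] at h4
      simp only [hw] at h4
      linear_combination h4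
    rw [h3]
    refine Ideal.neg_mem_iff _ |>.2 ?_
    have h5 := ((hΔI (Fr.g j)).mul hYI) (Fr.a j) (Fr.b j)
    rw [← pow_add] at h5
    exact Ideal.pow_le_pow_right (by omega) h5

theorem exists_seq {α : Type} (P : ℕ → α → Prop) (Q : ℕ → α → α → Prop) (x0 : α) (h0 : P 0 x0)
    (step : ∀ n x, P n x → ∃ y, P (n + 1) y ∧ Q n x y) :
    ∃ f : ℕ → α, f 0 = x0 ∧ (∀ n, P n (f n)) ∧ ∀ n, Q n (f n) (f (n + 1)) := by
  classical
  let g : (n : ℕ) → {x // P n x} := fun n =>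
    Nat.rec ⟨x0, h0⟩
      (fun n x => ⟨(step n x.1 x.2).choose, (step n x.1 x.2).choose_spec.1⟩) n
  exact ⟨fun n => (g n).1, rfl, fun n => (g n).2,
    fun n => (step n (g n).1 (g n).2).choose_spec.2⟩

theorem exists_limit [IsAdicComplete (maximalIdeal A) A] (f : ℕ → M2 A)
    (hf : ∀ n, InI (maximalIdeal A ^ (n + 1)) (f (n + 1) - f n)) :
    ∃ L : M2 A, ∀ n, InI (maximalIdeal A ^ n) (f n - L) := by
  have hc : ∀ m n, m ≤ n → InI (maximalIdeal A ^ m) (f m - f n) := by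
    intro m n hmn
    induction n, hmn using Nat.le_induction with
    | base => simpa using InI.zero _
    | succ n hmn ih =>
      have h1 : f m - f (n + 1) = (f m - f n) - (f (n + 1) - f n) := by abel
      rw [h1]
      exact ih.sub ((hf n).mono (Ideal.pow_le_pow_right (by omega)))
  have hex : ∀ i j, ∃ l : A, ∀ n, f n i j - l ∈ maximalIdeal A ^ n := by
    intro i j
    obtain ⟨l, hl⟩ := IsPrecomplete.prec (I := maximalIdeal A) (M := A) inferInstance
      (f := fun n => f n i j) (by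
        intro m n hmn
        rw [SModEq.sub_mem, smul_eq_mul, Ideal.mul_top]
        exact hc m n hmn i j)
    refine ⟨l, fun n => ?_⟩
    have := hl n
    rwa [SModEq.sub_mem, smul_eq_mul, Ideal.mul_top] at this
  choose l hl using hex
  exact ⟨Matrix.of l, fun n i j => hl i j n⟩

end Local

end Rigid

section C

open Rigid

variable {𝒪 : Type} [CommRing 𝒪] [IsLocalRing 𝒪]
variable {A : Type} [CommRing A] [IsLocalRing A] [Algebra 𝒪 A]

theorem rigid_unique [IsHausdorff (maximalIdeal A) A] (Fr : Frame 𝒪) (hFr : Fr.Nondeg)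
    (r r' : Gal → M2 A) (hr : IsStrict Fr r) (hr' : IsStrict Fr r')
    (hc : ∀ j, r' (Fr.g j) (Fr.a j) (Fr.b j) = r (Fr.g j) (Fr.a j) (Fr.b j))
    (M : (M2 A)ˣ) (hM : ∀ σ, r' σ = (M : M2 A) * r σ * ((M⁻¹ : (M2 A)ˣ) : M2 A)) :
    r' = r := by
  have hM' : ∀ σ, r' σ * (M : M2 A) = (M : M2 A) * r σ := by
    intro σ; rw [hM σ, mul_assoc, Units.inv_mul, mul_one]
  have h1 : ∀ j, ((M : M2 A) * r (Fr.g j) - r (Fr.g j) * M) (Fr.a j) (Fr.b j) ∈
      maximalIdeal A := by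
    intro j
    rw [← hM', ← sub_mul]
    exact (strict_sub Fr hr hr' _).mul_right _ _ _
  obtain ⟨a1, a2, a3⟩ := scalar_mod Fr hFr r hr _ (M : M2 A) h1
  have hdet : IsUnit (M : M2 A).det := (Matrix.isUnit_iff_isUnit_det _).1 M.isUnit
  have hu : IsUnit ((M : M2 A) 1 1) := by
    by_contra hcon
    have h11 : (M : M2 A) 1 1 ∈ maximalIdeal A := (mem_maximalIdeal _).2 hcon
    have : (M : M2 A).det ∈ maximalIdeal A := by
      rw [Matrix.det_fin_two]
      exact Ideal.sub_mem _ (Ideal.mul_mem_left _ _ h11) (Ideal.mul_mem_left _ _ a3)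
    exact (mem_maximalIdeal _).1 this hdet
  obtain ⟨u, hu⟩ := hu
  have hcu : (↑u⁻¹ : A) * (M : M2 A) 1 1 = 1 := by rw [← hu]; exact Units.inv_mul u
  have hX : (1 : M2 A) + ((↑u⁻¹ : A) • (M : M2 A) - 1) = (↑u⁻¹ : A) • (M : M2 A) := by abel
  have hzero : ((↑u⁻¹ : A) • (M : M2 A) - 1) = 0 := by
    apply unique_core Fr hFr r r' hr hc
    · simp [hcu]
    · apply InI_of_entries
      · have : ((↑u⁻¹ : A) • (M : M2 A) - 1) 0 0 =
            (↑u⁻¹ : A) * ((M : M2 A) 0 0 - (M : M2 A) 1 1) := by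
          simp only [Matrix.sub_apply, Matrix.smul_apply, smul_eq_mul, Matrix.one_apply_eq]
          linear_combination hcu
        rw [this]
        exact Ideal.mul_mem_left _ _ a1
      · have : ((↑u⁻¹ : A) • (M : M2 A) - 1) 0 1 = (↑u⁻¹ : A) * (M : M2 A) 0 1 := by simp
        rw [this]
        exact Ideal.mul_mem_left _ _ a2
      · have : ((↑u⁻¹ : A) • (M : M2 A) - 1) 1 0 = (↑u⁻¹ : A) * (M : M2 A) 1 0 := by simp
        rw [this]
        exact Ideal.mul_mem_left _ _ a3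
      · simp [hcu]
    · intro σ
      rw [hX, Matrix.mul_smul, Matrix.smul_mul, hM']
  funext σ
  have h2 : (↑u⁻¹ : A) • (M : M2 A) = 1 := sub_eq_zero.mp hzero
  have h3 := hM' σ
  have h4 : r' σ * ((↑u⁻¹ : A) • (M : M2 A)) = ((↑u⁻¹ : A) • (M : M2 A)) * r σ := by
    rw [Matrix.mul_smul, Matrix.smul_mul, h3]
  rwa [h2, mul_one, one_mul] at h4

theorem rigid_exists [IsAdicComplete (maximalIdeal A) A] (Fr : Frame 𝒪) (hFr : Fr.Nondeg)
    (r : Gal → M2 A) (hr : IsStrict Fr r) :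
    ∃ M : (M2 A)ˣ,
      IsStrict Fr (fun σ => (M : M2 A) * r σ * ((M⁻¹ : (M2 A)ˣ) : M2 A)) ∧
      IsRigid Fr (fun σ => (M : M2 A) * r σ * ((M⁻¹ : (M2 A)ˣ) : M2 A)) := by
  obtain ⟨f, hf0, hfP, hfQ⟩ := exists_seq
    (fun (n : ℕ) (M : (M2 A)ˣ) => IsStrict Fr (cj M r) ∧
      ∀ j, cj M r (Fr.g j) (Fr.a j) (Fr.b j) -
        algebraMap 𝒪 A (Fr.rt (Fr.g j) (Fr.a j) (Fr.b j)) ∈ maximalIdeal A ^ (n + 1))
    (fun (n : ℕ) (M M' : (M2 A)ˣ) => InI (maximalIdeal A ^ (n + 1)) ((M' : M2 A) - (M : M2 A)))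
    1
    (by
      have h1 : cj 1 r = r := by funext σ; simp [cj]
      rw [h1]
      exact ⟨hr, fun j => by simpa using hr _ _ _⟩)
    (by
      rintro n M ⟨h1, h2⟩
      obtain ⟨N, hN1, hN2, hN3⟩ := newton_step Fr hFr (cj M r) h1 n h2
      rw [cj_cj] at hN2 hN3
      refine ⟨N * M, ⟨hN2, hN3⟩, ?_⟩
      have h3 : ((N * M : (M2 A)ˣ) : M2 A) - (M : M2 A) = ((N : M2 A) - 1) * (M : M2 A) := by
        rw [Units.val_mul, sub_mul, one_mul]
      rw [h3]
      exact hN1.mul_right _)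
  obtain ⟨L, hL⟩ := exists_limit (fun n => (f n : M2 A)) hfQ
  have hLu : IsUnit L := by
    apply isUnit_of_sub_one
    have h1 := hL 1
    have h2 := hfQ 0
    rw [hf0] at h2
    simp only [zero_add, pow_one, Units.val_one] at h1 h2
    have h3 : L - 1 = ((f 1 : M2 A) - 1) - ((f 1 : M2 A) - L) := by abel
    rw [h3]
    exact h2.sub h1
  obtain ⟨M, hM⟩ := hLu
  have hdiff : ∀ n σ, InI (maximalIdeal A ^ n) (cj M r σ - cj (f n) r σ) := by
    intro n σ
    have h1 : (cj M r σ - cj (f n) r σ) * (f n : M2 A) =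
        cj M r σ * ((f n : M2 A) - L) - ((f n : M2 A) - L) * r σ := by
      rw [sub_mul, cj_mul, mul_sub, sub_mul, ← hM, cj_mul]
      abel
    have h2 : cj M r σ - cj (f n) r σ =
        (cj M r σ * ((f n : M2 A) - L) - ((f n : M2 A) - L) * r σ) *
          (((f n)⁻¹ : (M2 A)ˣ) : M2 A) := by
      rw [← h1, mul_assoc, Units.mul_inv, mul_one]
    rw [h2]
    exact (((hL n).mul_left _).sub ((hL n).mul_right _)).mul_right _
  refine ⟨M, ?_, ?_⟩
  · intro σ i j
    have h1 : cj M r σ i j - algebraMap 𝒪 A (Fr.rt σ i j) =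
        (cj M r σ - cj (f 1) r σ) i j + (cj (f 1) r σ i j - algebraMap 𝒪 A (Fr.rt σ i j)) := by
      simp
    change cj M r σ i j - algebraMap 𝒪 A (Fr.rt σ i j) ∈ maximalIdeal A
    rw [h1]
    have h2 := hdiff 1 σ i j
    rw [pow_one] at h2
    exact Ideal.add_mem _ h2 ((hfP 1).1 σ i j)
  · intro j
    change cj M r (Fr.g j) (Fr.a j) (Fr.b j) = _
    rw [← sub_eq_zero]
    apply eq_zero_of_forall_mem_pow
    intro n
    have h1 : cj M r (Fr.g j) (Fr.a j) (Fr.b j) -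
        algebraMap 𝒪 A (Fr.rt (Fr.g j) (Fr.a j) (Fr.b j)) =
        (cj M r (Fr.g j) - cj (f (n + 1)) r (Fr.g j)) (Fr.a j) (Fr.b j) +
          (cj (f (n + 1)) r (Fr.g j) (Fr.a j) (Fr.b j) -
            algebraMap 𝒪 A (Fr.rt (Fr.g j) (Fr.a j) (Fr.b j))) := by
      simp
    rw [h1]
    exact Ideal.add_mem _ (hdiff (n + 1) _ _ _)
      (Ideal.pow_le_pow_right (by omega) ((hfP (n + 1)).2 j))

end C

end Fermat.Agent.S53
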