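import Fermat.Agent.S53.Defs

set_option autoImplicit false

namespace Fermat.Agent.S53

open IsLocalRing

section D

variable {𝒪 : Type} [CommRing 𝒪] [IsLocalRing 𝒪]

namespace Sep

/-- abstract construction: a ring hom to the dual numbers from a "derivation". -/
noncomputable def mkHom {B k : Type} [CommRing B] [CommRing k] (κ : B →+* k) (D : B →+ k)
    (h1 : D 1 = 0) (hmul : ∀ x y, D (x * y) = κ x * D y + κ y * D x) : B →+* DualNumber k where
  toFun b := TrivSqZeroExt.inl (κ b) + TrivSqZeroExt.inr (D b)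
  map_one' := by ext <;> simp [h1]
  map_zero' := by ext <;> simp
  map_add' x y := by ext <;> simp
  map_mul' x y := by
    ext
    · simp
    · simp [hmul]; ring

end Sep

theorem exists_algHom_keps {B : Type} [CommRing B] [IsLocalRing B] [Algebra 𝒪 B]
    [IsLocalHom (algebraMap 𝒪 B)]
    (hsurj : Function.Surjective (residue B ∘ algebraMap 𝒪 B))
    (w : B) (hw : w ∈ maximalIdeal B)
    (hw' : w ∉ maximalIdeal B ^ 2 ⊔ (maximalIdeal 𝒪).map (algebraMap 𝒪 B)) :
    ∃ φ : B →ₐ[𝒪] Keps 𝒪, φ w ≠ 0 := by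
  classical
  set J : Ideal B := maximalIdeal B ^ 2 ⊔ (maximalIdeal 𝒪).map (algebraMap 𝒪 B) with hJ
  have hJle : J ≤ maximalIdeal B := by
    rw [hJ]
    refine sup_le (Ideal.pow_le_self (by norm_num)) ?_
    rw [Ideal.map_le_iff_le_comap]
    intro a ha
    exact map_nonunit (algebraMap 𝒪 B) a ha
  -- the structure map `k → B/J`
  let s : ResidueField 𝒪 →+* B ⧸ J :=
    Ideal.Quotient.lift (maximalIdeal 𝒪) ((Ideal.Quotient.mk J).comp (algebraMap 𝒪 B)) (by
      intro a ha
      rw [RingHom.comp_apply, Ideal.Quotient.eq_zero_iff_mem]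
      exact Ideal.mem_sup_right (Ideal.mem_map_of_mem _ ha))
  have hs : ∀ a : 𝒪, s (residue 𝒪 a) = Ideal.Quotient.mk J (algebraMap 𝒪 B a) := fun a => rfl
  let _ : Algebra (ResidueField 𝒪) (B ⧸ J) := s.toAlgebra
  have hsmul : ∀ (a : 𝒪) (q : B ⧸ J),
      (residue 𝒪 a) • q = Ideal.Quotient.mk J (algebraMap 𝒪 B a) * q := by
    intro a q
    rw [Algebra.smul_def]
    rfl
  -- the residue map `B → k`
  have hbij : Function.Bijective (ResidueField.map (algebraMap 𝒪 B)) := by
    refine ⟨RingHom.injective _, fun x => ?_⟩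
    obtain ⟨a, ha⟩ := hsurj x
    exact ⟨residue 𝒪 a, by rw [ResidueField.map_residue]; exact ha⟩
  let e : ResidueField 𝒪 ≃+* ResidueField B := RingEquiv.ofBijective _ hbij
  let κ : B →+* ResidueField 𝒪 := (e.symm : ResidueField B →+* ResidueField 𝒪).comp (residue B)
  have hκalg : ∀ a : 𝒪, κ (algebraMap 𝒪 B a) = residue 𝒪 a := by
    intro a
    change e.symm (residue B (algebraMap 𝒪 B a)) = residue 𝒪 a
    rw [RingEquiv.symm_apply_eq]
    change _ = ResidueField.map (algebraMap 𝒪 B) (residue 𝒪 a)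
    rw [ResidueField.map_residue]
  have hκm : ∀ x ∈ maximalIdeal B, κ x = 0 := by
    intro x hx
    change e.symm (residue B x) = 0
    rw [(residue_eq_zero_iff x).2 hx, map_zero]
  have hdec : ∀ x : B, ∃ a : 𝒪, x - algebraMap 𝒪 B a ∈ maximalIdeal B := by
    intro x
    obtain ⟨a, ha⟩ := hsurj (residue B x)
    refine ⟨a, ?_⟩
    rw [← residue_eq_zero_iff, map_sub, sub_eq_zero]
    exact ha.symm
  -- the functional
  have hnot : Ideal.Quotient.mk J w ∉
      Submodule.span (ResidueField 𝒪) {(1 : B ⧸ J)} := by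
    intro hmem
    obtain ⟨α, hα⟩ := Submodule.mem_span_singleton.mp hmem
    obtain ⟨a, rfl⟩ := residue_surjective α
    rw [hsmul, mul_one, Ideal.Quotient.eq] at hα
    have h1 : algebraMap 𝒪 B a ∈ maximalIdeal B := by
      have := Ideal.add_mem _ (hJle hα) hw
      simpa using this
    have h2 : a ∈ maximalIdeal 𝒪 := by
      by_contra hcon
      have hu : IsUnit a := by
        by_contra h3
        exact hcon ((mem_maximalIdeal a).2 h3)
      exact (mem_maximalIdeal _).1 h1 (hu.map (algebraMap 𝒪 B))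
    have h3 : algebraMap 𝒪 B a ∈ J := Ideal.mem_sup_right (Ideal.mem_map_of_mem _ h2)
    apply hw'
    have := Ideal.sub_mem _ h3 hα
    simpa using this
  obtain ⟨μ, hμw, hμ1⟩ := Submodule.exists_dual_map_eq_bot_of_notMem hnot inferInstance
  have hμone : μ 1 = 0 := by
    have : μ 1 ∈ (Submodule.span (ResidueField 𝒪) {(1 : B ⧸ J)}).map μ :=
      Submodule.mem_map_of_mem (Submodule.mem_span_singleton_self _)
    rw [hμ1] at this
    exact (Submodule.mem_bot _).1 this
  let D : B →+ ResidueField 𝒪 :=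
    (μ : (B ⧸ J) →+ ResidueField 𝒪).comp (Ideal.Quotient.mk J : B →+ B ⧸ J)
  have hD : ∀ x, D x = μ (Ideal.Quotient.mk J x) := fun x => rfl
  have hDmul : ∀ x y, D (x * y) = κ x * D y + κ y * D x := by
    intro x y
    obtain ⟨a, ha⟩ := hdec x
    obtain ⟨c, hc⟩ := hdec y
    have h1 : (x - algebraMap 𝒪 B a) * (y - algebraMap 𝒪 B c) ∈ J :=
      Ideal.mem_sup_left (by rw [pow_two]; exact Ideal.mul_mem_mul ha hc)
    have h2 : Ideal.Quotient.mk J (x * y) =
        (residue 𝒪 a) • Ideal.Quotient.mk J y + (residue 𝒪 c) • Ideal.Quotient.mk J x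
          - (residue 𝒪 a * residue 𝒪 c) • (1 : B ⧸ J) := by
      rw [← map_mul, hsmul, hsmul, hsmul, mul_one, ← map_mul, ← map_mul, ← map_add, ← map_sub,
        Ideal.Quotient.eq]
      convert h1 using 1
      rw [map_mul]
      ring
    have hκx : κ x = residue 𝒪 a := by
      rw [← hκalg a, ← sub_eq_zero, ← map_sub]
      exact hκm _ ha
    have hκy : κ y = residue 𝒪 c := by
      rw [← hκalg c, ← sub_eq_zero, ← map_sub]
      exact hκm _ hc
    rw [hD, hD, hD, h2, map_sub, map_add, map_smul, map_smul, map_smul, hμone, hκx, hκy]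
    simp
  have hD1 : D 1 = 0 := by rw [hD, map_one, hμone]
  let φ₀ : B →+* DualNumber (ResidueField 𝒪) := Sep.mkHom κ D hD1 hDmul
  refine ⟨{ toRingHom := φ₀, commutes' := ?_ }, ?_⟩
  · intro a
    change TrivSqZeroExt.inl (κ (algebraMap 𝒪 B a)) + TrivSqZeroExt.inr (D (algebraMap 𝒪 B a)) =
      (TrivSqZeroExt.inl (residue 𝒪 a) : DualNumber (ResidueField 𝒪))
    have h1 : D (algebraMap 𝒪 B a) = 0 := by
      have h2 : Ideal.Quotient.mk J (algebraMap 𝒪 B a) = (residue 𝒪 a) • (1 : B ⧸ J) := by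
        rw [hsmul, mul_one]
      rw [hD, h2, map_smul, hμone, smul_zero]
    rw [hκalg, h1]
    simp
  · intro hzero
    apply hμw
    have h1 : TrivSqZeroExt.snd (φ₀ w) = 0 := by
      have : φ₀ w = 0 := hzero
      rw [this]; rfl
    have h2 : TrivSqZeroExt.snd (φ₀ w) = D w := by
      change TrivSqZeroExt.snd (TrivSqZeroExt.inl (κ w) + TrivSqZeroExt.inr (D w)) = D w
      simp
    rw [← hD, ← h2, h1]

theorem keps_algebraMap (a : 𝒪) :
    algebraMap 𝒪 (Keps 𝒪) a = (TrivSqZeroExt.inl (residue 𝒪 a) : DualNumber (ResidueField 𝒪)) :=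
  rfl

theorem keps_isArtinianTestAlgebra : GaloisRep.IsArtinianTestAlgebra 𝒪 (Keps 𝒪) where
  isLocalHom := by
    constructor
    intro a ha
    have h1 : IsUnit (TrivSqZeroExt.inl (residue 𝒪 a) : DualNumber (ResidueField 𝒪)) := ha
    rw [TrivSqZeroExt.isUnit_inl_iff] at h1
    exact isUnit_of_map_unit (residue 𝒪) a h1
  residue_surjective := by
    intro x
    obtain ⟨y, rfl⟩ := residue_surjective x
    obtain ⟨a, ha⟩ := residue_surjective (TrivSqZeroExt.fst (y : DualNumber (ResidueField 𝒪)))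
    refine ⟨a, ?_⟩
    rw [Function.comp_apply, ← sub_eq_zero, ← map_sub, residue_eq_zero_iff, mem_maximalIdeal,
      mem_nonunits_iff]
    intro hu
    have h1 : IsUnit ((TrivSqZeroExt.inl (residue 𝒪 a) : DualNumber (ResidueField 𝒪)) -
        (show DualNumber (ResidueField 𝒪) from y)) := hu
    rw [TrivSqZeroExt.isUnit_iff_isUnit_fst] at h1
    simp [ha] at h1
  isArtinian := by
    have h1 : Module.Finite (ResidueField 𝒪) (DualNumber (ResidueField 𝒪)) :=
      inferInstanceAs (Module.Finite (ResidueField 𝒪) (ResidueField 𝒪 × ResidueField 𝒪))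
    have h2 : IsArtinianRing (DualNumber (ResidueField 𝒪)) :=
      IsArtinianRing.of_finite (ResidueField 𝒪) _
    exact h2

end D

end Fermat.Agent.S53
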