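import Fermat.Agent.S53.Dict

set_option autoImplicit false

namespace Fermat.Agent.S53

open IsLocalRing

namespace Strict

variable {A : Type} [CommRing A] [IsLocalRing A]

/-- lift an invertible matrix over the residue field -/
theorem exists_lift_unit (Mb : (M2 (ResidueField A))ˣ) :
    ∃ M : (M2 A)ˣ, Units.map
      (((residue A).mapMatrix : M2 A →+* M2 (ResidueField A)) : M2 A →* M2 (ResidueField A)) M =
        Mb := by
  have hex : ∀ i j, ∃ x : A, residue A x = (Mb : M2 (ResidueField A)) i j :=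
    fun i j => residue_surjective _
  choose m hm using hex
  have hmap : (residue A).mapMatrix (Matrix.of m) = (Mb : M2 (ResidueField A)) := by
    ext i j
    simp [hm]
  have hdet : IsUnit (Matrix.of m : M2 A).det := by
    apply isUnit_of_map_unit (residue A)
    rw [RingHom.map_det, hmap]
    exact (Matrix.isUnit_iff_isUnit_det _).1 Mb.isUnit
  obtain ⟨M, hM⟩ := (Matrix.isUnit_iff_isUnit_det _).2 hdet
  refine ⟨M, Units.ext ?_⟩
  rw [Units.coe_map, hM]
  exact hmap

end Strict

section A'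

variable {𝒪 : Type} [CommRing 𝒪] [IsLocalRing 𝒪]
variable {A : Type} [CommRing A] [IsLocalRing A] [Algebra 𝒪 A] [IsLocalHom (algebraMap 𝒪 A)]

theorem map_map_eq (Fr : Frame 𝒪) (σ : Gal) :
    ((Fr.rt σ).map (residue 𝒪)).map (ResidueField.map (algebraMap 𝒪 A)) =
      ((Fr.rt σ).map (algebraMap 𝒪 A)).map (residue A) := by
  ext i j
  simp only [Matrix.map_apply]
  rw [ResidueField.map_residue]

theorem exists_strict (Fr : Frame 𝒪) (ρbar : ResidualGaloisRep (ResidueField 𝒪))
    (hFr : HasMatrixRes ρbar (fun σ => (Fr.rt σ).map (residue 𝒪)))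
    (ρ : GaloisRepAdic A)
    (hres : ρ.residual.IsEquiv (ρbar.baseChangeAlong (ResidueField.map (algebraMap 𝒪 A)))) :
    ∃ r, HasMatrix ρ r ∧ IsStrict Fr r := by
  obtain ⟨r₀, hr₀⟩ := exists_hasMatrix ρ
  have h1 := hr₀.residual
  have h2 := hFr.baseChangeAlong (ResidueField.map (algebraMap 𝒪 A))
  obtain ⟨e⟩ := hres
  have h3 := h2.of_isEquiv ⟨e.symm⟩
  obtain ⟨Mb, hMb⟩ := h1.exists_conj h3
  obtain ⟨M, hM⟩ := Strict.exists_lift_unit Mb
  refine ⟨_, hr₀.conj M, ?_⟩
  intro σ i j
  rw [← residue_eq_zero_iff, map_sub, sub_eq_zero]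
  have h4 := hMb σ
  rw [map_map_eq] at h4
  have h5 : ((M : M2 A) * r₀ σ * ((M⁻¹ : (M2 A)ˣ) : M2 A)).map (residue A) =
      (Mb : M2 (ResidueField A)) * (r₀ σ).map (residue A) *
        ((Mb⁻¹ : (M2 (ResidueField A))ˣ) : M2 (ResidueField A)) := by
    rw [← hM, ← map_inv, Units.coe_map, Units.coe_map]
    simp only [MonoidHom.coe_coe, RingHom.mapMatrix_apply, Matrix.map_mul]
  have h6 := congrFun (congrFun (h5.trans h4.symm) i) j
  simpa using h6

theorem residual_isEquiv_of_strict (Fr : Frame 𝒪) (ρbar : ResidualGaloisRep (ResidueField 𝒪))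
    (hFr : HasMatrixRes ρbar (fun σ => (Fr.rt σ).map (residue 𝒪)))
    (ρ : GaloisRepAdic A) (r : Gal → M2 A) (h : HasMatrix ρ r) (hs : IsStrict Fr r) :
    ρ.residual.IsEquiv (ρbar.baseChangeAlong (ResidueField.map (algebraMap 𝒪 A))) := by
  have h1 := h.residual
  have h2 := hFr.baseChangeAlong (ResidueField.map (algebraMap 𝒪 A))
  have h3 : (fun σ => (r σ).map (residue A)) =
      (fun σ => ((Fr.rt σ).map (residue 𝒪)).map (ResidueField.map (algebraMap 𝒪 A))) := by
    funext σ
    rw [map_map_eq]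
    ext i j
    simp only [Matrix.map_apply]
    have := (residue_eq_zero_iff _).2 (hs σ i j)
    rwa [map_sub, sub_eq_zero] at this
  rw [h3] at h1
  exact h1.isEquiv h2

end A'

end Fermat.Agent.S53
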