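import Fermat.Agent.S53.Defs
import Fermat.Agent.S53.LimitRing
import Fermat.Agent.S53.Rigid
import Fermat.Agent.S53.FrameExists
import Fermat.Agent.S53.Dict
import Fermat.Agent.S53.Strict
import Fermat.Agent.S53.Sep
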