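import Fermat.Agent.S53.Adm
import Fermat.Agent.S53.Modules

set_option autoImplicit false

namespace Fermat.Agent.S53

open IsLocalRing GaloisRep

/-- `r` is a homomorphism which is trivial on an open subgroup. -/
def RepLike {A : Type} [CommRing A] (r : Gal → M2 A) : Prop :=
  r 1 = 1 ∧ (∀ σ τ, r (σ * τ) = r σ * r τ) ∧
    ∃ L : IntermediateField ℚ (AlgebraicClosure ℚ), FiniteDimensional ℚ L ∧
      ∀ σ : Gal, (∀ x ∈ L, σ x = x) → r σ = 1

theorem RepLike.exists_hasMatrix {A : Type} [CommRing A] [IsLocalRing A] {r : Gal → M2 A}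
    (h : RepLike r) : ∃ ρ : GaloisRepAdic A, HasMatrix ρ r := by
  obtain ⟨h1, h2, L, hL, h3⟩ := h
  refine exists_hasMatrix_of_matCont r h1 h2 fun n => ⟨L, hL, fun σ hσ i j => ?_⟩
  rw [h3 σ hσ, sub_self]
  exact Ideal.zero_mem _

theorem HasMatrix.repLike {A : Type} [CommRing A] [IsLocalRing A] {ρ : GaloisRepAdic A}
    {r : Gal → M2 A} (h : HasMatrix ρ r) (hn : ∃ n, maximalIdeal A ^ n = ⊥) : RepLike r := by
  obtain ⟨n, hn⟩ := hn
  obtain ⟨L, hL, h3⟩ := h.matCont n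
  refine ⟨h.map_one, h.map_mul, L, hL, fun σ hσ => ?_⟩
  rw [← sub_eq_zero]
  ext i j
  have := h3 σ hσ i j
  rw [hn] at this
  simpa using this

theorem RepLike.of_injective₂ {A B₁ B₂ : Type} [CommRing A] [CommRing B₁] [CommRing B₂]
    (φ₁ : A →+* B₁) (φ₂ : A →+* B₂) (hinj : ∀ x, φ₁ x = 0 → φ₂ x = 0 → x = 0)
    {r : Gal → M2 A} (h₁ : RepLike fun σ => (r σ).map φ₁) (h₂ : RepLike fun σ => (r σ).map φ₂) :
    RepLike r := by
  have key : ∀ X Y : M2 A, X.map φ₁ = Y.map φ₁ → X.map φ₂ = Y.map φ₂ → X = Y := by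
    intro X Y e₁ e₂
    ext i j
    rw [← sub_eq_zero]
    apply hinj
    · rw [map_sub, sub_eq_zero]; exact congrFun (congrFun e₁ i) j
    · rw [map_sub, sub_eq_zero]; exact congrFun (congrFun e₂ i) j
  obtain ⟨a1, a2, L₁, hL₁, a3⟩ := h₁
  obtain ⟨b1, b2, L₂, hL₂, b3⟩ := h₂
  have one₁ : (1 : M2 A).map φ₁ = 1 := by simp
  have one₂ : (1 : M2 A).map φ₂ = 1 := by simp
  refine ⟨key _ _ (by rw [one₁]; exact a1) (by rw [one₂]; exact b1), fun σ τ => key _ _ ?_ ?_, L₁ ⊔ L₂,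
    IntermediateField.finiteDimensional_sup L₁ L₂, fun σ hσ => key _ _ ?_ ?_⟩
  · rw [Matrix.map_mul]; exact a2 σ τ
  · rw [Matrix.map_mul]; exact b2 σ τ
  · rw [one₁]; exact a3 σ fun x hx => hσ x ((le_sup_left : L₁ ≤ L₁ ⊔ L₂) hx)
  · rw [one₂]; exact b3 σ fun x hx => hσ x ((le_sup_right : L₂ ≤ L₁ ⊔ L₂) hx)

theorem RepLike.of_injective {A B : Type} [CommRing A] [CommRing B]
    (φ : A →+* B) (hinj : Function.Injective φ)
    {r : Gal → M2 A} (h : RepLike fun σ => (r σ).map φ) : RepLike r :=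
  RepLike.of_injective₂ φ φ (fun x hx _ => (map_eq_zero_iff φ hinj).1 hx) h h

variable {𝒪 : Type} [CommRing 𝒪] [IsLocalRing 𝒪]

/-- Rigid strict lifts of type `𝒟`. -/
def InD (Fr : Frame 𝒪)
    (𝒟 : ∀ ⦃A : Type⦄ [CommRing A] [IsLocalRing A] [Algebra 𝒪 A], GaloisRepAdic A → Prop)
    {A : Type} [CommRing A] [IsLocalRing A] [Algebra 𝒪 A] (r : Gal → M2 A) : Prop :=
  IsStrict Fr r ∧ IsRigid Fr r ∧ ∃ ρ : GaloisRepAdic A, 𝒟 ρ ∧ HasMatrix ρ r

variable {Fr : Frame 𝒪}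
  {𝒟 : ∀ ⦃A : Type⦄ [CommRing A] [IsLocalRing A] [Algebra 𝒪 A], GaloisRepAdic A → Prop}
variable {A : Type} [CommRing A] [IsLocalRing A] [Algebra 𝒪 A]
variable {B : Type} [CommRing B] [IsLocalRing B] [Algebra 𝒪 B]

theorem IsStrict.map {r : Gal → M2 A} (h : IsStrict Fr r) (φ : A →ₐ[𝒪] B)
    (hφ : IsLocalHom (φ : A →+* B)) : IsStrict Fr (fun σ => (r σ).map φ) := by
  intro σ i j
  have h1 := h σ i j
  have h0 : maximalIdeal A ≤ Ideal.comap (φ : A →+* B) (maximalIdeal B) :=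
    ((local_hom_TFAE (φ : A →+* B)).out 0 3).1 hφ
  have h2 : (φ : A →+* B) (r σ i j - algebraMap 𝒪 A (Fr.rt σ i j)) ∈ maximalIdeal B := h0 h1
  simpa using h2

omit [IsLocalRing 𝒪] [IsLocalRing A] [IsLocalRing B] in
theorem IsRigid.map {r : Gal → M2 A} (h : IsRigid Fr r) (φ : A →ₐ[𝒪] B) :
    IsRigid Fr (fun σ => (r σ).map φ) := by
  intro j
  simp [h j]

theorem InD.map (h𝒟 : IsDeformationCondition 𝒪 𝒟) (hA : IsArtinianTestAlgebra 𝒪 A)
    (hB : IsArtinianTestAlgebra 𝒪 B) (φ : A →ₐ[𝒪] B) {r : Gal → M2 A} (h : InD Fr 𝒟 r) :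
    InD Fr 𝒟 (fun σ => (r σ).map φ) := by
  obtain ⟨h1, h2, ρ, h3, h4⟩ := h
  have hφ := isLocalHom_of_algHom hB.residue_surjective φ
  exact ⟨h1.map φ hφ, h2.map φ, _, h𝒟.baseChangeAlong hA hB φ hφ h3, h4.baseChangeAlong _ hφ⟩

theorem InD.of_injective (h𝒟 : IsDeformationCondition 𝒪 𝒟) (hA : IsArtinianTestAlgebra 𝒪 A)
    (hB : IsArtinianTestAlgebra 𝒪 B) (φ : A →ₐ[𝒪] B) (hinj : Function.Injective φ)
    {r : Gal → M2 A} (h : InD Fr 𝒟 (fun σ => (r σ).map φ)) : InD Fr 𝒟 r := by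
  obtain ⟨h1, h2, ρ, h3, h4⟩ := h
  have hφ := isLocalHom_of_algHom hB.residue_surjective φ
  refine ⟨?_, ?_, ?_⟩
  · intro σ i j
    have := h1 σ i j
    by_contra hc
    have hu : IsUnit (r σ i j - algebraMap 𝒪 A (Fr.rt σ i j)) := by
      by_contra hu; exact hc ((mem_maximalIdeal _).2 hu)
    have hu' := hu.map φ
    rw [map_sub, AlgHom.commutes] at hu'
    exact (mem_maximalIdeal _).1 this hu'
  · intro j
    apply hinj
    rw [AlgHom.commutes]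
    exact h2 j
  · have hrl : RepLike r :=
      RepLike.of_injective (φ : A →+* B) hinj (h4.repLike (testAlg_exists_pow_eq_bot hB))
    obtain ⟨ρA, hρA⟩ := hrl.exists_hasMatrix
    refine ⟨ρA, ?_, hρA⟩
    apply h𝒟.of_baseChangeAlong_injective hA hB φ hφ hinj
    exact h𝒟.of_isEquiv hB (h4.isEquiv (hρA.baseChangeAlong _ hφ)) h3

end Fermat.Agent.S53
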