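import Fermat.Agent.S53.Gens

set_option autoImplicit false

namespace Fermat.Agent.S53

open IsLocalRing GaloisRep

variable {𝒪 : Type} [CommRing 𝒪] [IsLocalRing 𝒪]
variable {Fr : Frame 𝒪}
  {𝒟 : ∀ ⦃A : Type⦄ [CommRing A] [IsLocalRing A] [Algebra 𝒪 A], GaloisRepAdic A → Prop}

theorem good_MM [Finite (ResidueField 𝒪)] (h𝒟 : IsDeformationCondition 𝒪 𝒟)
    (ρbar : ResidualGaloisRep (ResidueField 𝒪))
    (hFr : HasMatrixRes ρbar (fun σ => (Fr.rt σ).map (residue 𝒪)))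
    (hbar : 𝒟 (GaloisRepAdic.ofResidualGaloisRep ρbar)) : Good Fr 𝒟 Fr.MM := by
  refine good_ker_ev h𝒟 residueField_isArtinianTestAlgebra (r := Fr.rb) ⟨?_, ?_, _, hbar,
    hFr.ofResidualGaloisRep⟩
  · intro σ i j
    have : Fr.rb σ i j - algebraMap 𝒪 (ResidueField 𝒪) (Fr.rt σ i j) = 0 := sub_self _
    rw [this]
    exact Ideal.zero_mem _
  · intro j
    rfl

/-- E7: the smallest good ideal containing `MM ^ n`. -/
theorem exists_min_good [Finite (ResidueField 𝒪)] [IsNoetherianRing 𝒪]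
    (h𝒟 : IsDeformationCondition 𝒪 𝒟) (hI : Finite (FF 𝒪 ⧸ Ieps Fr 𝒟))
    (hMM : Good Fr 𝒟 Fr.MM) (n : ℕ) (hn : n ≠ 0) :
    ∃ I, Good Fr 𝒟 I ∧ Fr.MM ^ n ≤ I ∧ ∀ J, Good Fr 𝒟 J → Fr.MM ^ n ≤ J → I ≤ J := by
  classical
  let C := Nat.card (QQ Fr 𝒟 ⧸ nn Fr 𝒟 ^ n)
  let P : ℕ → Prop := fun k => ∃ J, Good Fr 𝒟 J ∧ Fr.MM ^ n ≤ J ∧ Nat.card (FF 𝒪 ⧸ J) = k
  have hP0 : ∃ k, P k := ⟨_, Fr.MM, hMM, Ideal.pow_le_self hn, rfl⟩
  have hbd : ∀ k, P k → k ≤ C := by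
    rintro k ⟨J, hJ, hnJ, rfl⟩
    exact card_quotient_le h𝒟 hI hJ hnJ
  obtain ⟨k0, hk0⟩ := hP0
  have hmax : P (Nat.findGreatest P C) := Nat.findGreatest_spec (hbd k0 hk0) hk0
  obtain ⟨I, hIg, hnI, hcard⟩ := hmax
  refine ⟨I, hIg, hnI, fun J hJ hnJ => ?_⟩
  have hinf := hIg.inf h𝒟 hJ
  have h1 : Nat.card (FF 𝒪 ⧸ I ⊓ J) ≤ Nat.card (FF 𝒪 ⧸ I) := by
    rw [hcard]
    exact Nat.le_findGreatest (hbd _ ⟨_, hinf, le_inf hnI hnJ, rfl⟩) ⟨_, hinf, le_inf hnI hnJ, rfl⟩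
  haveI := hinf.adm.fin
  haveI := hIg.adm.fin
  have hsurj : Function.Surjective (Ideal.Quotient.factor (inf_le_left : I ⊓ J ≤ I)) :=
    Ideal.Quotient.factor_surjective _
  have hbij : Function.Bijective (Ideal.Quotient.factor (inf_le_left : I ⊓ J ≤ I)) := by
    rw [Nat.bijective_iff_surjective_and_card]
    exact ⟨hsurj, le_antisymm h1 (Nat.card_le_card_of_surjective _ hsurj)⟩
  intro x hx
  have h2 : Ideal.Quotient.factor (inf_le_left : I ⊓ J ≤ I) (Ideal.Quotient.mk _ x) =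
      Ideal.Quotient.factor (inf_le_left : I ⊓ J ≤ I) 0 := by
    rw [Ideal.Quotient.factor_mk, map_zero, Ideal.Quotient.eq_zero_iff_mem]
    exact hx
  have h3 := hbij.1 h2
  exact (Ideal.Quotient.eq_zero_iff_mem.1 h3).2

end Fermat.Agent.S53
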