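import Mathlib

set_option autoImplicit false

namespace Fermat.Agent.S53

section ML

variable {C : Type*} [CommRing C] (𝔪 : Ideal C) (a : ℕ → Ideal C)

/-- one step of the correction procedure -/
lemma ml_step (h3 : ∀ n, a n ≤ a (n + 1) ⊔ 𝔪 ^ n) (n₀ : ℕ) (w : ℕ → C)
    (hw : ∀ m, w (m + 1) - w m ∈ a (n₀ + m)) (m : ℕ) (d : C) (hd : d - w m ∈ a (n₀ + m)) :
    ∃ d' : C, d' - w (m + 1) ∈ a (n₀ + (m + 1)) ∧ d' - d ∈ 𝔪 ^ (n₀ + m) := by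
  have h : w (m + 1) - d ∈ a (n₀ + m) := by
    have : w (m + 1) - d = (w (m + 1) - w m) - (d - w m) := by ring
    rw [this]
    exact sub_mem (hw m) hd
  obtain ⟨u, hu, v, hv, huv⟩ := Submodule.mem_sup.mp (h3 _ h)
  refine ⟨w (m + 1) - u, ?_, ?_⟩
  · have : w (m + 1) - u - w (m + 1) = -u := by ring
    rw [this]
    exact neg_mem hu
  · have : w (m + 1) - u - d = v := by linear_combination -huv
    rw [this]
    exact hv

lemma ml_seq (h3 : ∀ n, a n ≤ a (n + 1) ⊔ 𝔪 ^ n) (n₀ : ℕ) (w : ℕ → C)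
    (hw : ∀ m, w (m + 1) - w m ∈ a (n₀ + m)) :
    ∃ d : ℕ → C, d 0 = w 0 ∧ (∀ m, d m - w m ∈ a (n₀ + m)) ∧
      ∀ m, d (m + 1) - d m ∈ 𝔪 ^ (n₀ + m) := by
  classical
  let D : (m : ℕ) → {d : C // d - w m ∈ a (n₀ + m)} := fun m =>
    Nat.rec (motive := fun m => {d : C // d - w m ∈ a (n₀ + m)}) ⟨w 0, by simp⟩
      (fun m d => ⟨(ml_step 𝔪 a h3 n₀ w hw m d.1 d.2).choose,
        (ml_step 𝔪 a h3 n₀ w hw m d.1 d.2).choose_spec.1⟩) m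
  refine ⟨fun m => (D m).1, rfl, fun m => (D m).2, fun m => ?_⟩
  exact (ml_step 𝔪 a h3 n₀ w hw m (D m).1 (D m).2).choose_spec.2

lemma ml_tele (n₀ : ℕ) (d : ℕ → C) (hd : ∀ m, d (m + 1) - d m ∈ 𝔪 ^ (n₀ + m)) (m j : ℕ) :
    d (m + j) - d m ∈ 𝔪 ^ (n₀ + m) := by
  induction j with
  | zero => simp
  | succ j ih =>
    have : d (m + (j + 1)) - d m = (d (m + j + 1) - d (m + j)) + (d (m + j) - d m) := by
      rw [← add_assoc]; ring
    rw [this]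
    refine add_mem (Ideal.pow_le_pow_right (by omega) (hd (m + j))) ih

/-- Mittag-Leffler type lemma. -/
theorem ml_main [IsPrecomplete 𝔪 C] (h1 : ∀ n, 𝔪 ^ n ≤ a n)
    (h3 : ∀ n, a n ≤ a (n + 1) ⊔ 𝔪 ^ n) (n₀ : ℕ) (w : ℕ → C)
    (hw : ∀ m, w (m + 1) - w m ∈ a (n₀ + m)) :
    ∃ c : C, c - w 0 ∈ 𝔪 ^ n₀ ∧ ∀ m, c - w m ∈ a (n₀ + m) := by
  obtain ⟨d, hd0, hd1, hd2⟩ := ml_seq 𝔪 a h3 n₀ w hw
  have hcauchy : ∀ {m n : ℕ}, m ≤ n → d m ≡ d n [SMOD (𝔪 ^ m • ⊤ : Submodule C C)] := by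
    intro m n hmn
    obtain ⟨j, rfl⟩ := Nat.exists_eq_add_of_le hmn
    rw [SModEq.sub_mem]
    have h := ml_tele 𝔪 n₀ d hd2 m j
    have h' : d m - d (m + j) ∈ 𝔪 ^ m := by
      rw [← neg_sub]
      exact neg_mem (Ideal.pow_le_pow_right (by omega) h)
    simpa using h'
  obtain ⟨c, hc⟩ := IsPrecomplete.prec' (I := 𝔪) d hcauchy
  have key : ∀ m, c - d m ∈ 𝔪 ^ (n₀ + m) := by
    intro m
    have h1' := hc (m + n₀)
    rw [SModEq.sub_mem] at h1'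
    have h2' : d (m + n₀) - c ∈ 𝔪 ^ (m + n₀) := by simpa using h1'
    have h3' := ml_tele 𝔪 n₀ d hd2 m n₀
    have : c - d m = -(d (m + n₀) - c) + (d (m + n₀) - d m) := by ring
    rw [this]
    refine add_mem (neg_mem ?_) h3'
    rw [add_comm n₀ m]
    exact h2'
  refine ⟨c, ?_, fun m => ?_⟩
  · have := key 0
    rwa [hd0, add_zero] at this
  · have : c - w m = (c - d m) + (d m - w m) := by ring
    rw [this]
    exact add_mem (h1 _ (key m)) (hd1 m)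

/-- consequence (i): `a n = (⨅ a) ⊔ 𝔪 ^ n`. -/
theorem ml_le_iInf_sup [IsPrecomplete 𝔪 C] (h1 : ∀ n, 𝔪 ^ n ≤ a n) (h2 : ∀ n, a (n + 1) ≤ a n)
    (h3 : ∀ n, a n ≤ a (n + 1) ⊔ 𝔪 ^ n) (n : ℕ) : a n ≤ (⨅ m, a m) ⊔ 𝔪 ^ n := by
  intro x hx
  have hanti : Antitone a := antitone_nat_of_succ_le h2
  obtain ⟨c, hc0, hc⟩ := ml_main 𝔪 a h1 h3 n (fun m => if m = 0 then x else 0) (by
    intro m
    rcases Nat.eq_zero_or_pos m with rfl | hm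
    · simpa using hx
    · simp [hm.ne'])
  simp only [if_true] at hc0
  refine Submodule.mem_sup.mpr ⟨c, ?_, x - c, ?_, by ring⟩
  · rw [Submodule.mem_iInf]
    intro m
    have := hc (m + 1)
    simp only [Nat.add_eq_zero_iff, one_ne_zero, and_false, if_false, sub_zero] at this
    exact hanti (by omega) this
  · rw [← neg_sub]
    exact neg_mem hc0

/-- consequence (ii): compatible families lift. -/
theorem ml_exists_lift [IsPrecomplete 𝔪 C] (h1 : ∀ n, 𝔪 ^ n ≤ a n)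
    (h3 : ∀ n, a n ≤ a (n + 1) ⊔ 𝔪 ^ n) (w : ℕ → C) (hw : ∀ m, w (m + 1) - w m ∈ a m) :
    ∃ c : C, ∀ m, c - w m ∈ a m := by
  obtain ⟨c, -, hc⟩ := ml_main 𝔪 a h1 h3 0 w (by simpa using hw)
  exact ⟨c, by simpa using hc⟩

end ML

end Fermat.Agent.S53
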