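import Mathlib

set_option autoImplicit false

namespace Fermat.Agent.S53

open IsLocalRing

section Sup

variable {A : Type*} [CommRing A]

theorem smodEq_pow_iff (I : Ideal A) (n : ℕ) (x y : A) :
    x ≡ y [SMOD (I ^ n • ⊤ : Submodule A A)] ↔ x - y ∈ I ^ n := by
  rw [SModEq.sub_mem, smul_eq_mul, Ideal.mul_top]

theorem isPrecomplete_iff_ring (I : Ideal A) :
    IsPrecomplete I A ↔ ∀ f : ℕ → A, (∀ m n, m ≤ n → f m - f n ∈ I ^ m) →
      ∃ L : A, ∀ n, f n - L ∈ I ^ n := by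
  constructor
  · intro h f hf
    obtain ⟨L, hL⟩ := h.prec (f := f) (fun {m n} hmn => (smodEq_pow_iff I m _ _).mpr (hf m n hmn))
    exact ⟨L, fun n => (smodEq_pow_iff I n _ _).mp (hL n)⟩
  · intro h
    refine ⟨fun f hf => ?_⟩
    obtain ⟨L, hL⟩ := h f (fun m n hmn => (smodEq_pow_iff I m _ _).mp (hf hmn))
    exact ⟨L, fun n => (smodEq_pow_iff I n _ _).mpr (hL n)⟩

theorem sum_range_sub_mem (I : Ideal A) (a : ℕ → A) (ha : ∀ k, a k ∈ I ^ k) (m n : ℕ)
    (hmn : m ≤ n) :
    (∑ j ∈ Finset.range m, a j) - (∑ j ∈ Finset.range n, a j) ∈ I ^ m := by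
  induction n, hmn using Nat.le_induction with
  | base => simp
  | succ n hmn ih =>
    rw [Finset.sum_range_succ, ← sub_sub]
    exact Ideal.sub_mem _ ih (Ideal.pow_le_pow_right hmn (ha n))

theorem isPrecomplete_sup (I J : Ideal A) (hI : IsPrecomplete I A) (hJ : IsPrecomplete J A) :
    IsPrecomplete (I ⊔ J) A := by
  rw [isPrecomplete_iff_ring] at hI hJ ⊢
  intro f hf
  have hdec : ∀ k, ∃ a ∈ I ^ k, ∃ b ∈ J ^ k, a + b = f (2 * (k + 1)) - f (2 * k) := by
    intro k
    have h1 : f (2 * k) - f (2 * (k + 1)) ∈ (I ⊔ J) ^ (k + k) := by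
      have := hf (2 * k) (2 * (k + 1)) (by omega)
      have h2k : 2 * k = k + k := two_mul k
      rw [← h2k]
      exact this
    have h2 := Ideal.sup_pow_add_le_pow_sup_pow h1
    have h3 : f (2 * (k + 1)) - f (2 * k) ∈ I ^ k ⊔ J ^ k := by
      have := (I ^ k ⊔ J ^ k).neg_mem h2
      rwa [neg_sub] at this
    exact Submodule.mem_sup.mp h3
  choose a ha b hb hab using hdec
  obtain ⟨La, hLa⟩ := hI (fun k => ∑ j ∈ Finset.range k, a j) (sum_range_sub_mem I a ha)
  obtain ⟨Lb, hLb⟩ := hJ (fun k => ∑ j ∈ Finset.range k, b j) (sum_range_sub_mem J b hb)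
  have hg : ∀ k, f (2 * k) = f 0 + (∑ j ∈ Finset.range k, a j) + (∑ j ∈ Finset.range k, b j) := by
    intro k
    induction k with
    | zero => simp
    | succ k ih =>
      rw [Finset.sum_range_succ, Finset.sum_range_succ]
      have := hab k
      rw [ih] at this
      linear_combination -this
  refine ⟨f 0 + La + Lb, fun n => ?_⟩
  have h1 : f n - f (2 * n) ∈ (I ⊔ J) ^ n := hf n (2 * n) (by omega)
  have h2 : f (2 * n) - (f 0 + La + Lb) ∈ (I ⊔ J) ^ n := by
    rw [hg n]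
    have h3 : (∑ j ∈ Finset.range n, a j) - La ∈ (I ⊔ J) ^ n :=
      Ideal.pow_right_mono le_sup_left n (hLa n)
    have h4 : (∑ j ∈ Finset.range n, b j) - Lb ∈ (I ⊔ J) ^ n :=
      Ideal.pow_right_mono le_sup_right n (hLb n)
    have := Ideal.add_mem _ h3 h4
    convert this using 1
    ring
  have := Ideal.add_mem _ h1 h2
  convert this using 1
  ring

end Sup

section MvPS

open MvPowerSeries

variable {𝒪 : Type*} [CommRing 𝒪] {σ : Type*}

/-- Build a power series from its coefficient function. -/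
def mkPS (f : (σ →₀ ℕ) → 𝒪) : MvPowerSeries σ 𝒪 := f

theorem coeff_mkPS (f : (σ →₀ ℕ) → 𝒪) (e : σ →₀ ℕ) : coeff e (mkPS f) = f e := rfl

theorem coeff_mem_of_mem_map_C (𝔞 : Ideal 𝒪) {h : MvPowerSeries σ 𝒪}
    (hh : h ∈ Ideal.map (C : 𝒪 →+* MvPowerSeries σ 𝒪) 𝔞) (e : σ →₀ ℕ) : coeff e h ∈ 𝔞 := by
  classical
  revert e
  refine Submodule.span_induction (p := fun h _ => ∀ e, coeff e h ∈ 𝔞) ?_ ?_ ?_ ?_ hh
  · rintro _ ⟨a, ha, rfl⟩ e
    rw [coeff_C]
    split_ifs
    · exact ha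
    · exact 𝔞.zero_mem
  · intro e
    simp
  · intro x y _ _ hx hy e
    rw [map_add]
    exact 𝔞.add_mem (hx e) (hy e)
  · intro g x _ hx e
    rw [smul_eq_mul, coeff_mul]
    exact 𝔞.sum_mem fun ij _ => 𝔞.mul_mem_left _ (hx _)

theorem mem_map_C_of_coeff_mem (𝔞 : Ideal 𝒪) (hfg : 𝔞.FG) {h : MvPowerSeries σ 𝒪}
    (hh : ∀ e, coeff e h ∈ 𝔞) : h ∈ Ideal.map (C : 𝒪 →+* MvPowerSeries σ 𝒪) 𝔞 := by
  classical
  obtain ⟨s, hs⟩ := hfg
  have hex : ∀ e, ∃ c : 𝒪 → 𝒪, ∑ a ∈ s, c a • a = coeff e h := by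
    intro e
    have := hh e
    rw [← hs] at this
    obtain ⟨c, -, hc⟩ := Submodule.mem_span_finset.mp this
    exact ⟨c, hc⟩
  choose c hc using hex
  have hsum : h = ∑ a ∈ s, C a * mkPS (fun e => c e a) := by
    ext e
    rw [map_sum, ← hc e]
    refine Finset.sum_congr rfl fun a _ => ?_
    rw [coeff_C_mul, smul_eq_mul, mul_comm, coeff_mkPS]
  rw [hsum]
  refine Ideal.sum_mem _ fun a ha => Ideal.mul_mem_right _ _ (Ideal.mem_map_of_mem _ ?_)
  rw [← hs]
  exact Ideal.subset_span ha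

theorem isPrecomplete_map_C (𝔪 : Ideal 𝒪) [IsNoetherianRing 𝒪] (h𝔪 : IsPrecomplete 𝔪 𝒪) :
    IsPrecomplete (Ideal.map (C : 𝒪 →+* MvPowerSeries σ 𝒪) 𝔪) (MvPowerSeries σ 𝒪) := by
  rw [isPrecomplete_iff_ring] at h𝔪 ⊢
  intro f hf
  have hex : ∀ e, ∃ L : 𝒪, ∀ n, coeff e (f n) - L ∈ 𝔪 ^ n := by
    intro e
    refine h𝔪 (fun n => coeff e (f n)) fun m n hmn => ?_
    have := hf m n hmn
    rw [← Ideal.map_pow] at this
    have := coeff_mem_of_mem_map_C _ this e
    rwa [map_sub] at this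
  choose L hL using hex
  refine ⟨mkPS L, fun n => ?_⟩
  rw [← Ideal.map_pow]
  refine mem_map_C_of_coeff_mem _ (IsNoetherian.noetherian _) fun e => ?_
  rw [map_sub, coeff_mkPS]
  exact hL e n

theorem mem_span_X_image (s : Finset σ) :
    ∀ g : MvPowerSeries σ 𝒪, (∀ e : σ →₀ ℕ, (∀ j ∈ s, e j = 0) → coeff e g = 0) →
      g ∈ Ideal.span ((X : σ → MvPowerSeries σ 𝒪) '' (s : Set σ)) := by
  classical
  induction s using Finset.induction_on with
  | empty =>
    intro g hg
    have : g = 0 := by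
      ext e
      simpa using hg e (by simp)
    rw [this]
    exact Ideal.zero_mem _
  | insert i s hi ih =>
    intro g hg
    let g₂ : MvPowerSeries σ 𝒪 := mkPS fun e => if e i = 0 then coeff e g else 0
    have hg₂ : ∀ e, coeff e g₂ = if e i = 0 then coeff e g else 0 := fun e => rfl
    have h1 : (X i : MvPowerSeries σ 𝒪) ∣ g - g₂ := by
      rw [X_dvd_iff]
      intro m hm
      rw [map_sub, hg₂, if_pos hm, sub_self]
    have h2 : g₂ ∈ Ideal.span ((X : σ → MvPowerSeries σ 𝒪) '' (s : Set σ)) := by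
      apply ih
      intro e he
      rw [hg₂]
      split_ifs with hei
      · apply hg
        intro j hj
        rcases Finset.mem_insert.mp hj with rfl | hj
        · exact hei
        · exact he j hj
      · rfl
    have h3 : g - g₂ ∈ Ideal.span ((X : σ → MvPowerSeries σ 𝒪) '' ((insert i s : Finset σ) : Set σ)) := by
      obtain ⟨q, hq⟩ := h1
      rw [hq]
      exact Ideal.mul_mem_right _ _ (Ideal.subset_span ⟨i, by simp, rfl⟩)
    have h4 : g₂ ∈ Ideal.span ((X : σ → MvPowerSeries σ 𝒪) '' ((insert i s : Finset σ) : Set σ)) :=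
      Ideal.span_mono (Set.image_mono (by simp)) h2
    have := Ideal.add_mem _ h3 h4
    rwa [sub_add_cancel] at this

theorem mem_span_range_X [Finite σ] {g : MvPowerSeries σ 𝒪} (hg : constantCoeff g = 0) :
    g ∈ Ideal.span (Set.range (X : σ → MvPowerSeries σ 𝒪)) := by
  classical
  cases nonempty_fintype σ
  have := mem_span_X_image (Finset.univ : Finset σ) g (by
    intro e he
    have : e = 0 := by
      ext j
      simpa using he j (Finset.mem_univ j)
    rw [this, coeff_zero_eq_constantCoeff_apply, hg])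
  simpa using this

theorem maximalIdeal_mvPowerSeries [IsLocalRing 𝒪] [Finite σ] :
    maximalIdeal (MvPowerSeries σ 𝒪) =
      Ideal.span (Set.range (X : σ → MvPowerSeries σ 𝒪)) ⊔
        Ideal.map (C : 𝒪 →+* MvPowerSeries σ 𝒪) (maximalIdeal 𝒪) := by
  apply le_antisymm
  · intro f hf
    rw [mem_maximalIdeal, mem_nonunits_iff, isUnit_iff_constantCoeff] at hf
    have h1 : f - C (constantCoeff f) ∈ Ideal.span (Set.range (X : σ → MvPowerSeries σ 𝒪)) := by
      apply mem_span_range_X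
      simp
    have h2 : C (constantCoeff f) ∈
        Ideal.map (C : 𝒪 →+* MvPowerSeries σ 𝒪) (maximalIdeal 𝒪) :=
      Ideal.mem_map_of_mem _ hf
    have := Ideal.add_mem _ (Ideal.mem_sup_left h1) (Ideal.mem_sup_right h2)
    rwa [sub_add_cancel] at this
  · rw [sup_le_iff]
    constructor
    · rw [Ideal.span_le]
      rintro _ ⟨i, rfl⟩
      simp only [SetLike.mem_coe, mem_maximalIdeal, mem_nonunits_iff, isUnit_iff_constantCoeff,
        constantCoeff_X]
      exact not_isUnit_zero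
    · rw [Ideal.map_le_iff_le_comap]
      intro a ha
      simp only [Ideal.mem_comap, mem_maximalIdeal, mem_nonunits_iff, isUnit_iff_constantCoeff,
        constantCoeff_C]
      exact ha

theorem isAdicComplete_mvPowerSeries [IsLocalRing 𝒪] [IsNoetherianRing 𝒪]
    [IsAdicComplete (maximalIdeal 𝒪) 𝒪] [Finite σ] :
    IsAdicComplete (maximalIdeal (MvPowerSeries σ 𝒪)) (MvPowerSeries σ 𝒪) := by
  have h1 : IsPrecomplete (maximalIdeal (MvPowerSeries σ 𝒪)) (MvPowerSeries σ 𝒪) := by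
    rw [maximalIdeal_mvPowerSeries]
    exact isPrecomplete_sup _ _ inferInstance (isPrecomplete_map_C _ inferInstance)
  exact { h1 with haus' := (inferInstance : IsHausdorff (maximalIdeal (MvPowerSeries σ 𝒪)) (MvPowerSeries σ 𝒪)).haus' }

end MvPS

end Fermat.Agent.S53
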