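import Fermat.Agent.S53.Good

set_option autoImplicit false

namespace Fermat.Agent.S53

open IsLocalRing GaloisRep

variable {𝒪 : Type} [CommRing 𝒪] [IsLocalRing 𝒪]
variable {Fr : Frame 𝒪}
  {𝒟 : ∀ ⦃A : Type⦄ [CommRing A] [IsLocalRing A] [Algebra 𝒪 A], GaloisRepAdic A → Prop}

/-- The ring homomorphism from the residue field used in `TangentFinite`. -/
noncomputable def psi0 (𝒪 : Type) [CommRing 𝒪] [IsLocalRing 𝒪] :
    ResidueField 𝒪 →+* ResidueField (Keps 𝒪) :=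
  (IsLocalRing.residue (DualNumber (ResidueField 𝒪))).comp
      (algebraMap (ResidueField 𝒪) (DualNumber (ResidueField 𝒪)))

/-- The setoid of `TangentFinite`. -/
def tangentSetoid (ρbar : ResidualGaloisRep (ResidueField 𝒪))
    (𝒟 : ∀ ⦃A : Type⦄ [CommRing A] [IsLocalRing A] [Algebra 𝒪 A], GaloisRepAdic A → Prop) :
    Setoid {ρ : GaloisRepAdic (Keps 𝒪) //
      𝒟 ρ ∧ ρ.residual.IsEquiv (ρbar.baseChangeAlong (psi0 𝒪))} :=
  ⟨fun ρ ρ' => ρ.1.IsEquiv ρ'.1, ⟨fun ρ => ⟨GaloisRepAdic.Equiv.refl ρ.1⟩,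
        fun ⟨e⟩ => ⟨e.symm⟩, fun ⟨e⟩ ⟨e'⟩ => ⟨e.trans e'⟩⟩⟩

theorem finite_quotient_tangentSetoid (ρbar : ResidualGaloisRep (ResidueField 𝒪))
    (hfin : TangentFinite 𝒪 ρbar 𝒟) : Finite (Quotient (tangentSetoid ρbar 𝒟)) := hfin

theorem psi0_eq [IsLocalHom (algebraMap 𝒪 (Keps 𝒪))] :
    psi0 𝒪 = ResidueField.map (algebraMap 𝒪 (Keps 𝒪)) := by
  ext x
  obtain ⟨c, rfl⟩ := residue_surjective x
  rw [ResidueField.map_residue]
  rfl

theorem finite_InD_keps (hN : Fr.Nondeg) (ρbar : ResidualGaloisRep (ResidueField 𝒪))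
    (hFr : HasMatrixRes ρbar (fun σ => (Fr.rt σ).map (residue 𝒪)))
    (hfin : TangentFinite 𝒪 ρbar 𝒟) :
    Finite {r : Gal → M2 (Keps 𝒪) // InD Fr 𝒟 r} := by
  have hT := keps_isArtinianTestAlgebra (𝒪 := 𝒪)
  haveI := hT.isLocalHom
  haveI := hT.isArtinian
  haveI := finite_quotient_tangentSetoid ρbar hfin
  choose ρ hρ𝒟 hρM using fun r : {r : Gal → M2 (Keps 𝒪) // InD Fr 𝒟 r} => r.2.2.2
  have hres : ∀ r, (ρ r).residual.IsEquiv (ρbar.baseChangeAlong (psi0 𝒪)) := by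
    intro r
    rw [psi0_eq]
    exact residual_isEquiv_of_strict Fr ρbar hFr (ρ r) r.1 (hρM r) r.2.1
  let Φ : {r : Gal → M2 (Keps 𝒪) // InD Fr 𝒟 r} → Quotient (tangentSetoid ρbar 𝒟) :=
    fun r => Quotient.mk _ ⟨ρ r, hρ𝒟 r, hres r⟩
  refine Finite.of_injective Φ ?_
  intro r r' h
  have h1 : (ρ r).IsEquiv (ρ r') := Quotient.exact h
  have h2 : HasMatrix (ρ r') r.1 := (hρM r).of_isEquiv h1
  obtain ⟨M, hM⟩ := h2.exists_conj (hρM r')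
  apply Subtype.ext
  refine (rigid_unique Fr hN r.1 r'.1 r.2.1 r'.2.1 ?_ M hM).symm
  intro j
  rw [r.2.2.1 j, r'.2.2.1 j]

end Fermat.Agent.S53
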