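import Fermat.Agent.S53.Defs

set_option autoImplicit false

namespace Fermat.Agent.S53

open IsLocalRing GaloisRep

variable {𝒪 : Type} [CommRing 𝒪] [IsLocalRing 𝒪]

section
variable {A : Type} [CommRing A] [IsLocalRing A] [Algebra 𝒪 A]
variable {B : Type} [CommRing B] [IsLocalRing B] [Algebra 𝒪 B]

/-- Every algebra homomorphism into a local algebra with residue field hit by `𝒪` is local. -/
theorem isLocalHom_of_algHom (hB : Function.Surjective (residue B ∘ algebraMap 𝒪 B))
    (φ : A →ₐ[𝒪] B) : IsLocalHom (φ : A →+* B) := by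
  constructor
  intro a ha
  by_contra hna
  have ham : a ∈ maximalIdeal A := (mem_maximalIdeal a).2 hna
  obtain ⟨b, hb⟩ := ha.exists_right_inv
  obtain ⟨c, hc⟩ := hB (residue B b)
  have hb' : b - algebraMap 𝒪 B c ∈ maximalIdeal B := by
    rw [← residue_eq_zero_iff, map_sub, sub_eq_zero]
    exact hc.symm
  have h1 : IsUnit (1 - a * algebraMap 𝒪 A c) := by
    have : a * algebraMap 𝒪 A c ∈ maximalIdeal A := Ideal.mul_mem_right _ _ ham
    by_contra h
    have h2 : (1 - a * algebraMap 𝒪 A c) ∈ maximalIdeal A := (mem_maximalIdeal _).2 h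
    have h3 : (1 : A) ∈ maximalIdeal A := by
      have := Ideal.add_mem _ h2 this
      simpa using this
    exact (Ideal.ne_top_iff_one _).1 (maximalIdeal.isMaximal A).ne_top h3
  have h2 : IsUnit ((φ : A →+* B) (1 - a * algebraMap 𝒪 A c)) := h1.map _
  have h3 : (φ : A →+* B) (1 - a * algebraMap 𝒪 A c) = (φ : A →+* B) a * (b - algebraMap 𝒪 B c) := by
    simp only [map_sub, map_one, map_mul, RingHom.coe_coe, AlgHom.commutes]
    rw [mul_sub]
    have : φ a * b = 1 := hb
    rw [this]
  rw [h3] at h2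
  exact ((mem_maximalIdeal _).1 (Ideal.mul_mem_left _ _ hb')) h2

theorem testAlg_of_surjective (hA : IsArtinianTestAlgebra 𝒪 A) (φ : A →ₐ[𝒪] B)
    (hφ : Function.Surjective φ) : IsArtinianTestAlgebra 𝒪 B := by
  have hres : Function.Surjective (residue B ∘ algebraMap 𝒪 B) := by
    intro y
    obtain ⟨b, rfl⟩ := residue_surjective y
    obtain ⟨a, rfl⟩ := hφ b
    obtain ⟨c, hc⟩ := hA.residue_surjective (residue A a)
    refine ⟨c, ?_⟩
    have h1 : a - algebraMap 𝒪 A c ∈ maximalIdeal A := by
      rw [← residue_eq_zero_iff, map_sub, sub_eq_zero]; exact hc.symm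
    have h2 : φ (a - algebraMap 𝒪 A c) ∈ maximalIdeal B := by
      by_contra h
      have hu : IsUnit (φ (a - algebraMap 𝒪 A c)) := by
        by_contra h'; exact h ((mem_maximalIdeal _).2 h')
      obtain ⟨b', hb'⟩ := hu.exists_right_inv
      obtain ⟨a', rfl⟩ := hφ b'
      have h3 : (1 - (a - algebraMap 𝒪 A c) * a') ∈ RingHom.ker (φ : A →+* B) := by
        rw [RingHom.mem_ker]; simp only [RingHom.coe_coe, map_sub, map_one, map_mul]
        simp only [map_sub, AlgHom.commutes] at hb'
        rw [AlgHom.commutes, hb', sub_self]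
      have h4 : RingHom.ker (φ : A →+* B) ≤ maximalIdeal A :=
        le_maximalIdeal (RingHom.ker_ne_top _)
      have h5 : (1 : A) ∈ maximalIdeal A := by
        have := Ideal.add_mem _ (h4 h3) (Ideal.mul_mem_right a' _ h1)
        simpa using this
      exact (Ideal.ne_top_iff_one _).1 (maximalIdeal.isMaximal A).ne_top h5
    rw [map_sub, AlgHom.commutes, ← residue_eq_zero_iff, map_sub, sub_eq_zero] at h2
    exact h2.symm
  refine ⟨?_, hres, ?_⟩
  · have h1 := hA.isLocalHom
    have h2 := isLocalHom_of_algHom hres φ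
    have : algebraMap 𝒪 B = (φ : A →+* B).comp (algebraMap 𝒪 A) := by
      ext x; simp
    rw [this]
    exact RingHom.isLocalHom_comp _ _
  · have := hA.isArtinian
    exact Function.Surjective.isArtinianRing (f := (φ : A →+* B)) hφ

theorem testAlg_exists_pow_eq_bot (hA : IsArtinianTestAlgebra 𝒪 A) :
    ∃ n, maximalIdeal A ^ n = ⊥ := by
  have := hA.isArtinian
  exact (isArtinianRing_iff_isNilpotent_maximalIdeal A).1 inferInstance

theorem testAlg_finite [Finite (ResidueField 𝒪)]
    (hA : IsArtinianTestAlgebra 𝒪 A) : Finite A := by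
  have := hA.isArtinian
  have := hA.isLocalHom
  have h1 : Finite (A ⧸ maximalIdeal A) := by
    have hs : Function.Surjective (ResidueField.map (algebraMap 𝒪 A)) := by
      intro y
      obtain ⟨c, hc⟩ := hA.residue_surjective y
      exact ⟨residue 𝒪 c, by rw [ResidueField.map_residue]; exact hc⟩
    exact Finite.of_surjective _ hs
  obtain ⟨n, hn⟩ := testAlg_exists_pow_eq_bot hA
  have h2 : Finite (A ⧸ maximalIdeal A ^ n) :=
    Ideal.finite_quotient_pow (IsNoetherian.noetherian _) n
  rw [hn] at h2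
  exact Finite.of_equiv _ (RingEquiv.quotientBot A).toEquiv

theorem residueField_isArtinianTestAlgebra : IsArtinianTestAlgebra 𝒪 (ResidueField 𝒪) := by
  refine ⟨(inferInstance : IsLocalHom (residue 𝒪)), ?_, inferInstance⟩
  intro y
  obtain ⟨b, rfl⟩ := residue_surjective y
  obtain ⟨c, rfl⟩ := residue_surjective b
  exact ⟨c, rfl⟩

end

end Fermat.Agent.S53
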